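/-
S43 (row 37), PROJECT R, block L1 = `Rho/**` (route (gamma)), file `Lam` (helper22).  Mathlib only.

**The localised Hecke-Galois module and its Hecke algebra.**  `O` a coefficient ring, `P` a
commutative `O`-algebra (in the application the polynomial Hecke algebra `MvPolynomial J O`), `N` a
`P`-module (the Tate module with its Hecke operators), `m` a maximal ideal of `P` (the system of
eigenvalues of `ρ̄`).

* `Loc m N := LocalizedModule m.primeCompl N`, a module over `Localization.AtPrime m`;
* `T O m N : Subalgebra O (Module.End O (Loc m N))` : the image of `Localization.AtPrime m`, a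
  commutative ring (`instCommRingT`), local as soon as `Loc m N` is nontrivial (`instIsLocalRingT`),
  module-finite over a noetherian `O` when `Loc m N` is (`finite_T`), acting faithfully
  (`T_faithful`); `toT`, `ofP` the structure maps, `ofP_mem_maximalIdeal`;
* `locEnd O m N : Module.End P N →+* Module.End O (Loc m N)` : the localisation of endomorphisms;
  every relation between `P`-linear endomorphisms of `N` is transported by this ring homomorphism
  (`locEnd_mk`, `locEnd_algebraMap`, `commute_locEnd`);
* `locEndT O m N : Module.End P N →+* Module.End (T O m N) (Loc m N)`, `rLoc O m N r0 : G →* ...` for a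
  representation `r0 : G →* Module.End P N`;
* `locEnd_sub_mem` : congruences modulo an ideal of `O` are transported (continuity).
-/
import Mathlib

set_option autoImplicit false

namespace Fermat.Agent.S43.Rho.Lam

/-- the localisation of `N` at `m` -/
abbrev Loc {P : Type} [CommRing P] (m : Ideal P) [m.IsMaximal] (N : Type) [AddCommGroup N]
    [Module P N] : Type := LocalizedModule m.primeCompl N

variable (O : Type) [CommRing O] {P : Type} [CommRing P] [Algebra O P] (m : Ideal P) [m.IsMaximal]
  (N : Type) [AddCommGroup N] [Module O N] [Module P N] [IsScalarTower O P N]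

/-- the action of the local ring `P_m` on the localisation, as an `O`-algebra homomorphism -/
noncomputable def act : Localization.AtPrime m →ₐ[O] Module.End O (Loc m N) :=
  Algebra.lsmul O O (Loc m N)

theorem act_apply (a : Localization.AtPrime m) (v : Loc m N) : act O m N a v = a • v := rfl

/-- **the Hecke algebra of the localisation** -/
noncomputable def T : Subalgebra O (Module.End O (Loc m N)) := (act O m N).range

/-- the structure map `P_m → T` -/
noncomputable def toT : Localization.AtPrime m →ₐ[O] T O m N := (act O m N).rangeRestrict

theorem toT_surjective : Function.Surjective (toT O m N) := (act O m N).rangeRestrict_surjective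

theorem coe_toT (a : Localization.AtPrime m) :
    ((toT O m N a : T O m N) : Module.End O (Loc m N)) = act O m N a := rfl

noncomputable instance instCommRingT : CommRing (T O m N) :=
  { (inferInstance : Ring (T O m N)) with
    mul_comm := by
      intro x y
      obtain ⟨a, rfl⟩ := toT_surjective O m N x
      obtain ⟨b, rfl⟩ := toT_surjective O m N y
      rw [← map_mul, ← map_mul, mul_comm] }

theorem smul_def (x : T O m N) (v : Loc m N) : x • v = (x : Module.End O (Loc m N)) v := rfl

theorem toT_smul (a : Localization.AtPrime m) (v : Loc m N) : toT O m N a • v = a • v := rfl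

/-- `Loc m N` is a faithful `T`-module -/
theorem T_faithful (x : T O m N) (h : ∀ v : Loc m N, x • v = 0) : x = 0 :=
  Subtype.ext (LinearMap.ext h)

instance instNontrivialT [Nontrivial (Loc m N)] : Nontrivial (T O m N) := by
  refine ⟨⟨0, 1, fun h => ?_⟩⟩
  obtain ⟨v, hv⟩ := exists_ne (0 : Loc m N)
  apply hv
  have h1 : (1 : T O m N) • v = v := one_smul _ v
  rw [← h1, ← h, zero_smul]

instance instIsLocalRingT [Nontrivial (Loc m N)] : IsLocalRing (T O m N) :=
  IsLocalRing.of_surjective' (toT O m N).toRingHom (toT_surjective O m N)

instance instIsLocalHomToT [Nontrivial (Loc m N)] : IsLocalHom (toT O m N).toRingHom :=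
  IsLocalHom.of_surjective _ (toT_surjective O m N)

/-- `T` is module-finite over a noetherian `O` -/
theorem finite_T [IsNoetherianRing O] [Module.Finite O (Loc m N)] : Module.Finite O (T O m N) := by
  have h : IsNoetherian O (Module.End O (Loc m N)) := isNoetherian_linearMap O (Loc m N) (Loc m N)
  have h2 : IsNoetherian O (Subalgebra.toSubmodule (T O m N)) := isNoetherian_submodule' _
  exact Module.IsNoetherian.finite O (Subalgebra.toSubmodule (T O m N))

/-- the structure map `P → T` -/
noncomputable def ofP : P →ₐ[O] T O m N :=
  (toT O m N).comp (IsScalarTower.toAlgHom O P (Localization.AtPrime m))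

theorem ofP_smul (Q : P) (v : Loc m N) : ofP O m N Q • v = Q • v := by
  show toT O m N (algebraMap P (Localization.AtPrime m) Q) • v = Q • v
  rw [toT_smul, algebraMap_smul]

/-- the elements of `m` act through the maximal ideal of `T` -/
theorem ofP_mem_maximalIdeal [Nontrivial (Loc m N)] {Q : P} (hQ : Q ∈ m) :
    ofP O m N Q ∈ IsLocalRing.maximalIdeal (T O m N) := by
  have h1 : algebraMap P (Localization.AtPrime m) Q ∈
      IsLocalRing.maximalIdeal (Localization.AtPrime m) :=
    (IsLocalization.AtPrime.to_map_mem_maximal_iff (Localization.AtPrime m) m Q).mpr hQ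
  rw [IsLocalRing.mem_maximalIdeal, mem_nonunits_iff] at h1 ⊢
  intro hu
  exact h1 ((isUnit_map_iff (toT O m N).toRingHom _).mp hu)

/-- the elements outside `m` act through units of `T` -/
theorem isUnit_ofP {Q : P} (hQ : Q ∉ m) : IsUnit (ofP O m N Q) := by
  have h1 : IsUnit (algebraMap P (Localization.AtPrime m) Q) :=
    IsLocalization.map_units (Localization.AtPrime m) (⟨Q, hQ⟩ : m.primeCompl)
  exact h1.map (toT O m N)

/-! ### localisation of endomorphisms -/

theorem smul_mk (r : O) (x : N) (s : m.primeCompl) :
    r • (LocalizedModule.mk x s : Loc m N) = LocalizedModule.mk (r • x) s := by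
  rw [← algebraMap_smul P r (LocalizedModule.mk x s : Loc m N), LocalizedModule.smul'_mk,
    algebraMap_smul]

/-- **the localisation of endomorphisms**, as a ring homomorphism -/
noncomputable def locEnd : Module.End P N →+* Module.End O (Loc m N) where
  toFun f := (IsLocalizedModule.map m.primeCompl (LocalizedModule.mkLinearMap m.primeCompl N)
    (LocalizedModule.mkLinearMap m.primeCompl N) f).restrictScalars O
  map_one' := by
    rw [Module.End.one_eq_id, IsLocalizedModule.map_id]
    rfl
  map_mul' f g := by
    rw [Module.End.mul_eq_comp, IsLocalizedModule.map_comp' m.primeCompl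
      (LocalizedModule.mkLinearMap m.primeCompl N) (LocalizedModule.mkLinearMap m.primeCompl N)
      (LocalizedModule.mkLinearMap m.primeCompl N)]
    rfl
  map_zero' := by
    rw [map_zero]
    rfl
  map_add' f g := by
    rw [map_add]
    rfl

theorem locEnd_mk (f : Module.End P N) (x : N) (s : m.primeCompl) :
    locEnd O m N f (LocalizedModule.mk x s) = LocalizedModule.mk (f x) s :=
  IsLocalizedModule.map_LocalizedModules m.primeCompl f x s

/-- the localisation of the action of an element of `P` is its action on the localisation -/
theorem locEnd_algebraMap (Q : P) :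
    locEnd O m N (algebraMap P (Module.End P N) Q) = (ofP O m N Q : Module.End O (Loc m N)) := by
  refine LinearMap.ext fun v => ?_
  induction v using LocalizedModule.induction_on with
  | h x s =>
    rw [locEnd_mk, ← smul_def, ofP_smul, LocalizedModule.smul'_mk]
    rfl

/-- localised endomorphisms are linear over `P_m` -/
theorem locEnd_smul (f : Module.End P N) (a : Localization.AtPrime m) (v : Loc m N) :
    locEnd O m N f (a • v) = a • locEnd O m N f v :=
  (LinearMap.extendScalarsOfIsLocalization m.primeCompl (Localization.AtPrime m)
    (IsLocalizedModule.map m.primeCompl (LocalizedModule.mkLinearMap m.primeCompl N)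
      (LocalizedModule.mkLinearMap m.primeCompl N) f)).map_smul a v

/-- localised endomorphisms commute with the Hecke algebra -/
theorem commute_locEnd (f : Module.End P N) (x : T O m N) :
    Commute (locEnd O m N f) (x : Module.End O (Loc m N)) := by
  obtain ⟨a, rfl⟩ := toT_surjective O m N x
  refine LinearMap.ext fun v => ?_
  rw [Module.End.mul_apply, Module.End.mul_apply, coe_toT, act_apply, act_apply, locEnd_smul]

/-- the localisation of endomorphisms, with values in the `T`-linear endomorphisms -/
noncomputable def locEndT : Module.End P N →+* Module.End (T O m N) (Loc m N) where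
  toFun f :=
    { toFun := locEnd O m N f
      map_add' := map_add _
      map_smul' := fun x v => by
        have h := congrArg (fun F : Module.End O (Loc m N) => F v) (commute_locEnd O m N f x).eq
        simpa only [Module.End.mul_apply, RingHom.id_apply, smul_def] using h }
  map_one' := by
    refine LinearMap.ext fun v => ?_
    show locEnd O m N 1 v = v
    rw [map_one, Module.End.one_apply]
  map_mul' f g := by
    refine LinearMap.ext fun v => ?_
    show locEnd O m N (f * g) v = locEnd O m N f (locEnd O m N g v)
    rw [map_mul, Module.End.mul_apply]
  map_zero' := by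
    refine LinearMap.ext fun v => ?_
    show locEnd O m N 0 v = 0
    rw [map_zero, LinearMap.zero_apply]
  map_add' f g := by
    refine LinearMap.ext fun v => ?_
    show locEnd O m N (f + g) v = locEnd O m N f v + locEnd O m N g v
    rw [map_add, LinearMap.add_apply]

theorem locEndT_apply (f : Module.End P N) (v : Loc m N) : locEndT O m N f v = locEnd O m N f v := rfl

/-- **the localised representation** -/
noncomputable def rLoc {G : Type*} [Group G] (r0 : G →* Module.End P N) :
    G →* Module.End (T O m N) (Loc m N) :=
  (locEndT O m N).toMonoidHom.comp r0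

theorem rLoc_apply {G : Type*} [Group G] (r0 : G →* Module.End P N) (g : G) (v : Loc m N) :
    rLoc O m N r0 g v = locEnd O m N (r0 g) v := rfl

theorem rLoc_mk {G : Type*} [Group G] (r0 : G →* Module.End P N) (g : G) (x : N)
    (s : m.primeCompl) :
    rLoc O m N r0 g (LocalizedModule.mk x s) = LocalizedModule.mk (r0 g x) s :=
  locEnd_mk O m N (r0 g) x s

/-! ### congruences -/

/-- the `O`-linear map `x ↦ x / s` -/
noncomputable def mkLin (s : m.primeCompl) : N →ₗ[O] Loc m N where
  toFun x := LocalizedModule.mk x s
  map_add' x y := by
    rw [LocalizedModule.mk_add_mk, ← smul_add, LocalizedModule.mk_cancel_common_left]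
  map_smul' r x := by
    rw [RingHom.id_apply, smul_mk]

/-- congruences modulo an ideal of `O` are transported to the localisation -/
theorem locEnd_sub_mem (I : Ideal O) (f : Module.End P N)
    (h : ∀ x : N, f x - x ∈ I • (⊤ : Submodule O N)) (v : Loc m N) :
    locEnd O m N f v - v ∈ I • (⊤ : Submodule O (Loc m N)) := by
  induction v using LocalizedModule.induction_on with
  | h x s =>
    rw [locEnd_mk]
    have h1 : (LocalizedModule.mk (f x) s : Loc m N) - LocalizedModule.mk x s =
        mkLin O m N s (f x - x) := by
      rw [map_sub]
      rfl
    rw [h1]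
    have h2 : (I • (⊤ : Submodule O N)).map (mkLin O m N s) ≤ I • (⊤ : Submodule O (Loc m N)) := by
      rw [Submodule.map_smul'']
      exact Submodule.smul_mono le_rfl le_top
    exact h2 (Submodule.mem_map_of_mem (h x))

end Fermat.Agent.S43.Rho.Lam
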