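/-
S43 (row 37), PROJECT R, block L1 = `Rho/**` (route (gamma)), file `LamDatum` (helper22).
Imports `Rho/Lam`, helper27's `Rho/Dens`, helper24's `Hecke/PolyModule`.

**The localised Tate module satisfies the hypotheses of the density brick.**  `Lam0` an `O`-module
with commuting operators `t : J → End_O(Lam0)` and an action `r0` of `G_ℚ` commuting with them,
`m` a maximal ideal of the polynomial Hecke algebra `MvPolynomial J O`.

* `Comm O t` : the commutant of the operators; `toEndP` : its action on `WithOps t hcomm`, linear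
  over the polynomial ring; `locComm : Comm O t →+* End_O(Loc m (WithOps t hcomm))` : **the transport
  of every relation between endomorphisms commuting with the operators** (Galois, diamonds, `U_q`);
* `rP`, `rLam` : the Galois action on `WithOps t hcomm` and on its localisation;
* `es_loc` : the Eichler-Shimura relation on the localisation, with `a = ofP (X j) ∈ T`;
* `datum` : `Dens.Datum Sg I₀ (rLam ..) ε (T O m (WithOps t hcomm))`.
-/
import Mathlib
import Fermat.Agent.S43.Rho.Lam
import Fermat.Agent.S43.Rho.Dens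
import Fermat.Agent.S43.Hecke.PolyModule

set_option autoImplicit false
set_option linter.unusedSectionVars false

noncomputable section

namespace Fermat.Agent.S43.Rho.LamDatum

open Fermat.Agent.S43.Rho.Lam Fermat.Agent.S43.Hecke.PolyModule
open Fermat.Agent.S31.Core (Qbar GQ smallEnd)

variable (O : Type) [CommRing O] {Lam0 : Type} [AddCommGroup Lam0] [Module O Lam0]
  {J : Type} (t : J → Module.End O Lam0) (hcomm : ∀ i j, Commute (t i) (t j))

/-- the commutant of the operators -/
abbrev Comm : Subalgebra O (Module.End O Lam0) := Subalgebra.centralizer O (Set.range t)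

theorem mem_Comm_iff (f : Module.End O Lam0) : f ∈ Comm O t ↔ ∀ j, Commute f (t j) := by
  rw [Subalgebra.mem_centralizer_iff]
  constructor
  · intro h j
    exact (h (t j) ⟨j, rfl⟩).symm
  · rintro h _ ⟨j, rfl⟩
    exact (h j).eq.symm

theorem apply_comm {f : Module.End O Lam0} (hf : f ∈ Comm O t) (j : J) (x : Lam0) :
    f (t j x) = t j (f x) := by
  have h := congrArg (fun F : Module.End O Lam0 => F x) ((mem_Comm_iff O t f).mp hf j).eq
  simpa only [Module.End.mul_apply] using h

/-- the commutant acts linearly over the polynomial ring -/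
def toEndP : Comm O t →+* Module.End (MvPolynomial J O) (WithOps t hcomm) where
  toFun f := WithOps.map (hcomm := hcomm) (hcomm' := hcomm) f.1 (apply_comm O t f.2)
  map_one' := LinearMap.ext fun _ => rfl
  map_mul' _ _ := LinearMap.ext fun _ => rfl
  map_zero' := LinearMap.ext fun _ => rfl
  map_add' _ _ := LinearMap.ext fun _ => rfl

theorem toEndP_apply (f : Comm O t) (x : WithOps t hcomm) :
    WithOps.equiv t hcomm (toEndP O t hcomm f x) = f.1 (WithOps.equiv t hcomm x) := rfl

/-- the operator `t j` is the action of the variable `X j` -/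
theorem toEndP_t (j : J) (hj : t j ∈ Comm O t) :
    toEndP O t hcomm ⟨t j, hj⟩ =
      algebraMap (MvPolynomial J O) (Module.End (MvPolynomial J O) (WithOps t hcomm))
        (MvPolynomial.X j) := by
  refine LinearMap.ext fun x => ?_
  apply (WithOps.equiv t hcomm).injective
  rw [toEndP_apply, Module.algebraMap_end_apply, WithOps.X_smul]

include hcomm in
theorem t_mem_Comm (j : J) : t j ∈ Comm O t :=
  (mem_Comm_iff O t (t j)).mpr fun i => hcomm j i

variable (m : Ideal (MvPolynomial J O)) [m.IsMaximal]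

/-- **the transport of relations**: from the commutant of the operators on `Lam0` to the
endomorphisms of the localisation -/
def locComm : Comm O t →+* Module.End O (Loc m (WithOps t hcomm)) :=
  (locEnd O m (WithOps t hcomm)).comp (toEndP O t hcomm)

theorem locComm_mk (f : Comm O t) (x : WithOps t hcomm) (s : m.primeCompl) :
    locComm O t hcomm m f (LocalizedModule.mk x s) =
      LocalizedModule.mk (toEndP O t hcomm f x) s :=
  locEnd_mk O m (WithOps t hcomm) _ x s

theorem locComm_t (j : J) :
    locComm O t hcomm m ⟨t j, t_mem_Comm O t hcomm j⟩ =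
      (ofP O m (WithOps t hcomm) (MvPolynomial.X j) :
        Module.End O (Loc m (WithOps t hcomm))) := by
  show locEnd O m (WithOps t hcomm) (toEndP O t hcomm ⟨t j, _⟩) = _
  rw [toEndP_t, locEnd_algebraMap]

/-- the image of the commutant commutes with the Hecke algebra -/
theorem commute_locComm (f : Comm O t) (x : T O m (WithOps t hcomm)) :
    Commute (locComm O t hcomm m f) (x : Module.End O (Loc m (WithOps t hcomm))) :=
  commute_locEnd O m (WithOps t hcomm) _ x

theorem locComm_sub_mem (I : Ideal O) (f : Comm O t)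
    (h : ∀ x : Lam0, f.1 x - x ∈ I • (⊤ : Submodule O Lam0)) (v : Loc m (WithOps t hcomm)) :
    locComm O t hcomm m f v - v ∈ I • (⊤ : Submodule O (Loc m (WithOps t hcomm))) := by
  have h' : ∀ x : WithOps t hcomm, toEndP O t hcomm f x - x ∈
      I • (⊤ : Submodule O (WithOps t hcomm)) := fun x => h x
  exact locEnd_sub_mem O m (WithOps t hcomm) I (toEndP O t hcomm f) h' v

/-! ### the Galois action -/

variable {G : Type*} [Group G] (r0 : G →* Module.End O Lam0) (hr0 : ∀ g j, Commute (r0 g) (t j))

/-- the action with values in the commutant -/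
def rC : G →* Comm O t where
  toFun g := ⟨r0 g, (mem_Comm_iff O t (r0 g)).mpr (hr0 g)⟩
  map_one' := Subtype.ext (map_one r0)
  map_mul' g h := Subtype.ext (map_mul r0 g h)

/-- **the Galois action on the localisation** -/
def rLam : G →* Module.End O (Loc m (WithOps t hcomm)) :=
  (locComm O t hcomm m).toMonoidHom.comp (rC O t r0 hr0)

theorem coe_rC (g : G) : ((rC O t r0 hr0 g : Comm O t) : Module.End O Lam0) = r0 g := rfl

theorem rLam_apply (g : G) :
    rLam O t hcomm m r0 hr0 g = locComm O t hcomm m (rC O t r0 hr0 g) := rfl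

theorem commute_rLam (x : T O m (WithOps t hcomm)) (g : G) :
    Commute (x : Module.End O (Loc m (WithOps t hcomm))) (rLam O t hcomm m r0 hr0 g) :=
  (commute_locComm O t hcomm m _ x).symm

/-- **the Eichler-Shimura relation on the localisation** -/
theorem es_loc (τ : G) (j : J) (ℓ : ℕ)
    (h : r0 τ * r0 τ - t j * r0 τ + ((ℓ : ℕ) : Module.End O Lam0) = 0) :
    rLam O t hcomm m r0 hr0 τ * rLam O t hcomm m r0 hr0 τ -
      (ofP O m (WithOps t hcomm) (MvPolynomial.X j) : Module.End O (Loc m (WithOps t hcomm))) *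
        rLam O t hcomm m r0 hr0 τ + ((ℓ : ℕ) : Module.End O (Loc m (WithOps t hcomm))) = 0 := by
  have h1 : rC O t r0 hr0 τ * rC O t r0 hr0 τ -
      (⟨t j, t_mem_Comm O t hcomm j⟩ : Comm O t) * rC O t r0 hr0 τ + ((ℓ : ℕ) : Comm O t) = 0 :=
    Subtype.ext (by
      push_cast
      exact h)
  have h2 := congrArg (locComm O t hcomm m) h1
  rw [map_add, map_sub, map_mul, map_mul, map_natCast, map_zero, locComm_t] at h2
  exact h2

/-! ### the datum of the density brick -/

/-- **the localised Tate module is a datum of the density brick** -/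
theorem datum [IsLocalRing O] [IsNoetherianRing O]
    [Module.Free O (Loc m (WithOps t hcomm))] [Module.Finite O (Loc m (WithOps t hcomm))]
    (Sg : Finset ℕ) (I₀ : Ideal O) (hI : I₀ ≠ ⊤) (r0 : GQ →* Module.End O Lam0)
    (hr0 : ∀ g j, Commute (r0 g) (t j)) (ε : GQ →* O)
    (cont_r : ∀ n : ℕ, ∃ L : IntermediateField ℚ Qbar, FiniteDimensional ℚ L ∧
      ∀ u : GQ, (∀ x ∈ L, u x = x) → ∀ v : Lam0, r0 u v - v ∈ (I₀ ^ n) • (⊤ : Submodule O Lam0))
    (cont_ε : ∀ n : ℕ, ∃ L : IntermediateField ℚ Qbar, FiniteDimensional ℚ L ∧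
      ∀ u : GQ, (∀ x ∈ L, u x = x) → ε u - 1 ∈ I₀ ^ n)
    (frob_ε : ∀ ℓ : ℕ, ℓ.Prime → ℓ ∉ Sg → ∀ A : ValuationSubring Qbar, A.LiesOverPrime ℓ →
      ∀ τ : GQ, A.IsFrobeniusAt τ ℓ → ε τ = (ℓ : O))
    (es : ∀ ℓ : ℕ, ℓ.Prime → ℓ ∉ Sg → ∀ A : ValuationSubring Qbar, A.LiesOverPrime ℓ →
      ∀ τ : GQ, A.IsFrobeniusAt τ ℓ →
        ∃ j : J, r0 τ * r0 τ - t j * r0 τ + ((ℓ : ℕ) : Module.End O Lam0) = 0) :
    Dens.Datum Sg I₀ (rLam O t hcomm m r0 hr0) ε (T O m (WithOps t hcomm)) where
  cont_r n := by
    obtain ⟨L, hL, h⟩ := cont_r n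
    exact ⟨L, hL, fun u hu v => locComm_sub_mem O t hcomm m (I₀ ^ n) _ (h u hu) v⟩
  cont_ε := cont_ε
  frob_ε := frob_ε
  comm x hx g := commute_rLam O t hcomm m r0 hr0 ⟨x, hx⟩ g
  es ℓ hℓ hℓS A hA τ hτ := by
    obtain ⟨j, hj⟩ := es ℓ hℓ hℓS A hA τ hτ
    exact ⟨_, (ofP O m (WithOps t hcomm) (MvPolynomial.X j)).2, es_loc O t hcomm m r0 hr0 τ j ℓ hj⟩
  closed := Dens.closed_subalgebra (Dens.le_jacobson_bot_of_ne_top hI) _

end Fermat.Agent.S43.Rho.LamDatum
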