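/-
S43 (row 37), PROJECT R, block L1 = `Rho/**` (route (gamma)), file `LamFree` (helper22).
Imports Mathlib + `Rho/Lam`.

The localisation `Loc m N` of a module `N` over a commutative `O`-algebra `P` at a maximal ideal of
`P` is flat over `O` when `N` is (`flat_loc`: equational criterion, common denominators); hence
finite free over a local `O` as soon as it is module-finite (`free_loc`; the finiteness is
helper24's H12 `Hecke/FinLoc`).  `eq_zero_of_smul_eq_zero` : no `O`-torsion is created.
-/
import Mathlib
import Fermat.Agent.S43.Rho.Lam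

set_option autoImplicit false

open scoped BigOperators

namespace Fermat.Agent.S43.Rho.LamFree

open Fermat.Agent.S43.Rho.Lam

variable (O : Type) [CommRing O] {P : Type} [CommRing P] [Algebra O P] (m : Ideal P) [m.IsMaximal]
  (N : Type) [AddCommGroup N] [Module O N] [Module P N] [IsScalarTower O P N]

theorem mkLin_apply (s : m.primeCompl) (x : N) : mkLin O m N s x = LocalizedModule.mk x s := rfl

omit [Module O N] [IsScalarTower O P N] in
/-- a common denominator -/
theorem exists_common_den {l : ℕ} (x : Fin l → Loc m N) :
    ∃ (s : m.primeCompl) (ξ : Fin l → N), ∀ i, x i = LocalizedModule.mk (ξ i) s := by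
  classical
  have h : ∀ y : Loc m N, ∃ (n : N) (s : m.primeCompl), y = LocalizedModule.mk n s := fun y =>
    LocalizedModule.induction_on (fun n s => ⟨n, s, rfl⟩) y
  choose n s hns using fun i => h (x i)
  refine ⟨∏ i, s i, fun i => (∏ j ∈ Finset.univ.erase i, s j) • n i, fun i => ?_⟩
  rw [hns i, ← Finset.mul_prod_erase Finset.univ s (Finset.mem_univ i), mul_comm (s i),
    LocalizedModule.mk_cancel_common_left]

/-- **the localisation of a flat module is flat over the base** -/
theorem flat_loc [Module.Flat O N] : Module.Flat O (Loc m N) := by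
  refine Module.Flat.of_forall_isTrivialRelation ?_
  intro l f x hx
  obtain ⟨s₀, ξ, hξ⟩ := exists_common_den m N x
  have h1 : mkLin O m N s₀ (∑ i, f i • ξ i) = 0 := by
    rw [map_sum, ← hx]
    refine Finset.sum_congr rfl fun i _ => ?_
    rw [map_smul, mkLin_apply, hξ i]
  rw [mkLin_apply, ← LocalizedModule.zero_mk s₀, LocalizedModule.mk_eq] at h1
  obtain ⟨u, hu⟩ := h1
  rw [smul_zero, smul_zero, ← mul_smul] at hu
  set w : m.primeCompl := u * s₀ with hw
  have h2 : ∑ i, f i • (w • ξ i) = 0 := by
    have h3 : ∀ i, f i • (w • ξ i) = w • (f i • ξ i) := fun i => by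
      rw [Submonoid.smul_def, Submonoid.smul_def, smul_comm]
    rw [Finset.sum_congr rfl fun i _ => h3 i, ← Finset.smul_sum]
    exact hu
  obtain ⟨k, a, y, hy, ha⟩ := Module.Flat.isTrivialRelation_of_sum_smul_eq_zero h2
  refine ⟨k, a, fun j => LocalizedModule.mk (y j) (w * s₀), fun i => ?_, ha⟩
  have hy' : w • ξ i = ∑ j, a i j • y j := hy i
  rw [hξ i, ← LocalizedModule.mk_cancel_common_left w s₀ (ξ i), hy', ← mkLin_apply O, map_sum]
  refine Finset.sum_congr rfl fun j _ => ?_
  rw [map_smul, mkLin_apply]

/-- **the localisation is finite free over a local base** as soon as it is module-finite -/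
theorem free_loc [IsLocalRing O] [Module.Flat O N] [Module.Finite O (Loc m N)] :
    Module.Free O (Loc m N) :=
  haveI := flat_loc O m N
  Module.free_of_flat_of_isLocalRing

/-- no torsion is created by the localisation -/
theorem eq_zero_of_smul_eq_zero (c : O) (hc : ∀ x : N, c • x = 0 → x = 0) (v : Loc m N)
    (hv : c • v = 0) : v = 0 := by
  induction v using LocalizedModule.induction_on with
  | h x s =>
    rw [smul_mk, ← LocalizedModule.zero_mk s, LocalizedModule.mk_eq] at hv
    obtain ⟨u, hu⟩ := hv
    rw [smul_zero, smul_zero, ← mul_smul, Submonoid.smul_def, smul_comm] at hu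
    have h1 : ((u * s : m.primeCompl) : P) • x = 0 := hc _ hu
    rw [← LocalizedModule.zero_mk s, LocalizedModule.mk_eq]
    refine ⟨u, ?_⟩
    rw [smul_zero, smul_zero, ← mul_smul]
    exact h1

end Fermat.Agent.S43.Rho.LamFree
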