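/-
S43 (row 37), PROJECT R, block L1 = `Rho/**` (route (gamma)), file `LamMain` (helper22).
Imports `Rho/{Lam, LamFree, LamDatum}` + helper24's `Hecke/FinLoc` (H12).

**The localised Tate module, with no hypothesis left on the localisation itself.**  `O` a complete
noetherian local ring, `Lam0` a finite free `O`-module with commuting operators `t j` and an action
`r0` of `G_ℚ` commuting with them, `m` a maximal ideal of `MvPolynomial J O`:

* `finite_loc`, `free_loc` : `Loc m (WithOps t hcomm)` is finite free over `O`;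
* `finite_T` : the Hecke algebra is module-finite over `O`;
* `datum` : `Dens.Datum Sg I₀ (rLam ..) ε (T O m (WithOps t hcomm))` from the
  `S31.Core.HeckeModule`-shaped hypotheses ON `Lam0`.
-/
import Mathlib
import Fermat.Agent.S43.Hecke.FinLoc
import Fermat.Agent.S43.Rho.LamFree
import Fermat.Agent.S43.Rho.LamDatum

set_option autoImplicit false
set_option linter.unusedSectionVars false

noncomputable section

namespace Fermat.Agent.S43.Rho.LamMain

open Fermat.Agent.S43.Rho.Lam Fermat.Agent.S43.Hecke.PolyModule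
open Fermat.Agent.S31.Core (Qbar GQ)

variable (O : Type) [CommRing O] [IsLocalRing O] [IsNoetherianRing O]
  [IsAdicComplete (IsLocalRing.maximalIdeal O) O]
  {Lam0 : Type} [AddCommGroup Lam0] [Module O Lam0] [Module.Finite O Lam0]
  {J : Type} (t : J → Module.End O Lam0) (hcomm : ∀ i j, Commute (t i) (t j))
  (m : Ideal (MvPolynomial J O)) [m.IsMaximal]

instance instFiniteWithOps : Module.Finite O (WithOps t hcomm) :=
  inferInstanceAs (Module.Finite O Lam0)

instance instFreeWithOps [Module.Free O Lam0] : Module.Free O (WithOps t hcomm) :=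
  inferInstanceAs (Module.Free O Lam0)

/-- the localisation is module-finite (H12) -/
theorem finite_loc : Module.Finite O (Loc m (WithOps t hcomm)) :=
  Fermat.Agent.S43.Hecke.FinLoc.finite_localizedModule (𝒪 := O) m

/-- the localisation is free -/
theorem free_loc [Module.Free O Lam0] : Module.Free O (Loc m (WithOps t hcomm)) :=
  haveI := finite_loc O t hcomm m
  LamFree.free_loc O m (WithOps t hcomm)

/-- the Hecke algebra is module-finite -/
theorem finite_T : Module.Finite O (T O m (WithOps t hcomm)) :=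
  haveI := finite_loc O t hcomm m
  Lam.finite_T O m (WithOps t hcomm)

/-- the localisation map is onto -/
theorem mk_surjective :
    Function.Surjective (LocalizedModule.mkLinearMap m.primeCompl (WithOps t hcomm)) :=
  Fermat.Agent.S43.Hecke.FinLoc.mkLinearMap_surjective (𝒪 := O) m

/-- **the localised Tate module is a datum of the density brick** -/
theorem datum [Module.Free O Lam0] (Sg : Finset ℕ) (I₀ : Ideal O) (hI : I₀ ≠ ⊤)
    (r0 : GQ →* Module.End O Lam0) (hr0 : ∀ g j, Commute (r0 g) (t j)) (ε : GQ →* O)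
    (cont_r : ∀ n : ℕ, ∃ L : IntermediateField ℚ Qbar, FiniteDimensional ℚ L ∧
      ∀ u : GQ, (∀ x ∈ L, u x = x) → ∀ v : Lam0, r0 u v - v ∈ (I₀ ^ n) • (⊤ : Submodule O Lam0))
    (cont_ε : ∀ n : ℕ, ∃ L : IntermediateField ℚ Qbar, FiniteDimensional ℚ L ∧
      ∀ u : GQ, (∀ x ∈ L, u x = x) → ε u - 1 ∈ I₀ ^ n)
    (frob_ε : ∀ ℓ : ℕ, ℓ.Prime → ℓ ∉ Sg → ∀ A : ValuationSubring Qbar, A.LiesOverPrime ℓ →
      ∀ τ : GQ, A.IsFrobeniusAt τ ℓ → ε τ = (ℓ : O))
    (es : ∀ ℓ : ℕ, ℓ.Prime → ℓ ∉ Sg → ∀ A : ValuationSubring Qbar, A.LiesOverPrime ℓ →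
      ∀ τ : GQ, A.IsFrobeniusAt τ ℓ →
        ∃ j : J, r0 τ * r0 τ - t j * r0 τ + ((ℓ : ℕ) : Module.End O Lam0) = 0) :
    Dens.Datum Sg I₀ (LamDatum.rLam O t hcomm m r0 hr0) ε (T O m (WithOps t hcomm)) :=
  haveI := finite_loc O t hcomm m
  haveI := free_loc O t hcomm m
  LamDatum.datum O t hcomm m Sg I₀ hI r0 hr0 ε cont_r cont_ε frob_ε es

end Fermat.Agent.S43.Rho.LamMain
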