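/-
S43 (row 37), PROJECT R, block L1 = `Rho/**` (route (gamma)), file `LamInst` (helper22).
Imports `Rho/LamMain` + helper27's `Rho/Feed/Inst` (the module of record `LamO = O ⊗ LamH` of
helper11's `JH/Part` with its operators).

**The instance of the localised Tate module on the module of record.**  `M ≥ 5`, `H ≤ (ℤ/M)ˣ` of
order prime to `p` with `d^(2m+1) ∈ H` for every `d`, `O` a complete noetherian local
`ℤ_[p]`-algebra with `p ∈ 𝔪_O`, `𝔪` ANY maximal ideal of the polynomial Hecke algebra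
`MvPolynomial (J M p S₀) O` (`J M p S₀` = the primes not dividing `M p`, outside a fixed finite
set `S₀`: the chief's ruling on the index sets; `S₀ = ∅` gives all the primes `r ∤ M p`).

* `J M p S₀`, `tJ`, `hcommJ`, `rOcomm`, `Sg M p S₀ = (M p).primeFactors ∪ S₀`;
* `LamQ .. 𝔪 := Loc 𝔪 (WithOps tJ hcommJ)`, `TQ .. 𝔪 := T O 𝔪 (WithOps tJ hcommJ)`, `rQ .. 𝔪`;
* `datum` : `Dens.Datum (Sg M p S₀) (maximalIdeal O) (rQ ..) (eps p O) (TQ ..)` : NO HYPOTHESIS LEFT;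
* `rQ_eq_one_of_inertia` : inertia at EVERY `ℓ ∤ M p` (in `S₀` or not) acts trivially on `LamQ`;
* `dQ d` : the diamond operators on `LamQ`, commuting with `TQ` and with Galois;
* `locComm_cube` : the gate cubic is transported from `LamO` to `LamQ` (generic).
-/
import Mathlib
import Fermat.Agent.S43.Rho.LamMain
import Fermat.Agent.S43.Rho.Feed.Inst

set_option autoImplicit false
set_option linter.unusedSectionVars false

noncomputable section

namespace Fermat.Agent.S43.Rho.LamInst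

open Fermat.Agent.S43.Rho.Lam Fermat.Agent.S43.Hecke.PolyModule Fermat.Agent.S43.Rho.LamDatum
open Fermat.Agent.S43.Rho.Feed.Inst
open Fermat.Agent.S31.Core (Qbar GQ)

variable (M : ℕ) [NeZero M] (m : ℕ) (p : ℕ) [hp : Fact p.Prime] (H : Subgroup (ZMod M)ˣ)
  (O : Type) [CommRing O] [Algebra ℤ_[p] O] (S₀ : Finset ℕ)

/-- the index set of the Hecke operators: the primes not dividing `M p`, outside `S₀` -/
abbrev J : Type := {r : Nat.Primes // (r : ℕ).Coprime M ∧ (r : ℕ) ≠ p ∧ (r : ℕ) ∉ S₀}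

/-- the Hecke operators `T'_r`, `r ∤ M p`, on the module of record -/
def tJ : J M p S₀ → Module.End O (LamO M m p H O) := fun j => tO M m p H O j.1 j.2.1 j.2.2.1

theorem hcommJ (i j : J M p S₀) : Commute (tJ M m p H O S₀ i) (tJ M m p H O S₀ j) :=
  commute_tO_tO M m p H O i.1 j.1 i.2.1 i.2.2.1 j.2.1 j.2.2.1

theorem rOcomm (g : GQ) (j : J M p S₀) : Commute (rO M m p H O g) (tJ M m p H O S₀ j) :=
  (commute_tO_rO M m p H O j.1 j.2.1 j.2.2.1 g).symm

/-- the bad primes -/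
def Sg : Finset ℕ := (M * p).primeFactors ∪ S₀

theorem coprime_of_notMem_Sg {ℓ : ℕ} (hℓ : ℓ.Prime) (hℓS : ℓ ∉ Sg M p S₀) :
    ℓ.Coprime M ∧ ℓ ≠ p ∧ ℓ ∉ S₀ := by
  have hMp : M * p ≠ 0 := mul_ne_zero (NeZero.ne M) hp.out.ne_zero
  have h1 : ¬ ℓ ∣ M * p := fun hd =>
    hℓS (Finset.mem_union_left _ (Nat.mem_primeFactors.mpr ⟨hℓ, hd, hMp⟩))
  refine ⟨(Nat.Prime.coprime_iff_not_dvd hℓ).mpr fun hd => h1 (Dvd.dvd.mul_right hd p), ?_,
    fun h => hℓS (Finset.mem_union_right _ h)⟩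
  rintro rfl
  exact h1 (Dvd.intro_left M rfl)

variable (𝔪 : Ideal (MvPolynomial (J M p S₀) O)) [𝔪.IsMaximal]

/-- the module of record localised at `𝔪` -/
abbrev LamQ : Type := Loc 𝔪 (WithOps (tJ M m p H O S₀) (hcommJ M m p H O S₀))

/-- its Hecke algebra -/
abbrev TQ : Subalgebra O (Module.End O (LamQ M m p H O S₀ 𝔪)) :=
  T O 𝔪 (WithOps (tJ M m p H O S₀) (hcommJ M m p H O S₀))

/-- its Galois action -/
def rQ : GQ →* Module.End O (LamQ M m p H O S₀ 𝔪) :=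
  rLam O (tJ M m p H O S₀) (hcommJ M m p H O S₀) 𝔪 (rO M m p H O) (rOcomm M m p H O S₀)

/-- the transport of relations from the commutant of the `T'_r` on `LamO` -/
abbrev locQ : Comm O (tJ M m p H O S₀) →+* Module.End O (LamQ M m p H O S₀ 𝔪) :=
  locComm O (tJ M m p H O S₀) (hcommJ M m p H O S₀) 𝔪

theorem rQ_apply (g : GQ) :
    rQ M m p H O S₀ 𝔪 g =
      locQ M m p H O S₀ 𝔪 (rC O (tJ M m p H O S₀) (rO M m p H O) (rOcomm M m p H O S₀) g) :=
  rfl

/-- **the localised module of record is a datum of the density brick** -/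
theorem datum [IsLocalRing O] [IsNoetherianRing O] [IsAdicComplete (IsLocalRing.maximalIdeal O) O]
    (hM : 5 ≤ M) (hH : ¬ p ∣ Nat.card H) (hHm : ∀ d : (ZMod M)ˣ, d ^ (2 * m + 1) ∈ H)
    (hpO : (p : O) ∈ IsLocalRing.maximalIdeal O) :
    Dens.Datum (Sg M p S₀) (IsLocalRing.maximalIdeal O) (rQ M m p H O S₀ 𝔪) (eps p O)
      (TQ M m p H O S₀ 𝔪) := by
  have := finite_LamO M m p H O hM
  have := free_LamO M m p H O hM
  refine LamMain.datum O (tJ M m p H O S₀) (hcommJ M m p H O S₀) 𝔪 (Sg M p S₀) _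
    (Ideal.IsPrime.ne_top inferInstance) (rO M m p H O) (rOcomm M m p H O S₀) (eps p O)
    (cont_rO M m p H O hM hH _ hpO) (cont_eps p O _ hpO) ?_ ?_
  · intro ℓ hℓ hℓS A hA τ hτ
    exact frob_eps p O hℓ (coprime_of_notMem_Sg M p S₀ hℓ hℓS).2.1 A hA τ hτ
  · intro ℓ hℓ hℓS A hA τ hτ
    obtain ⟨h1, h2, h3⟩ := coprime_of_notMem_Sg M p S₀ hℓ hℓS
    exact ⟨⟨⟨ℓ, hℓ⟩, h1, h2, h3⟩, esO M m p H O hHm ⟨ℓ, hℓ⟩ h1 h2 A hA τ hτ⟩

section finiteness

variable [IsLocalRing O] [IsNoetherianRing O] [IsAdicComplete (IsLocalRing.maximalIdeal O) O]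

theorem finite_LamQ (hM : 5 ≤ M) : Module.Finite O (LamQ M m p H O S₀ 𝔪) := by
  have := finite_LamO M m p H O hM
  exact LamMain.finite_loc O (tJ M m p H O S₀) (hcommJ M m p H O S₀) 𝔪

theorem free_LamQ (hM : 5 ≤ M) : Module.Free O (LamQ M m p H O S₀ 𝔪) := by
  have := finite_LamO M m p H O hM
  have := free_LamO M m p H O hM
  exact LamMain.free_loc O (tJ M m p H O S₀) (hcommJ M m p H O S₀) 𝔪

theorem finite_TQ (hM : 5 ≤ M) : Module.Finite O (TQ M m p H O S₀ 𝔪) := by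
  have := finite_LamO M m p H O hM
  exact LamMain.finite_T O (tJ M m p H O S₀) (hcommJ M m p H O S₀) 𝔪

/-- every element of the localisation is the class of an element of the module of record -/
theorem mk_surjective (hM : 5 ≤ M) (v : LamQ M m p H O S₀ 𝔪) :
    ∃ x : WithOps (tJ M m p H O S₀) (hcommJ M m p H O S₀), LocalizedModule.mk x 1 = v := by
  have := finite_LamO M m p H O hM
  obtain ⟨x, hx⟩ := LamMain.mk_surjective O (tJ M m p H O S₀) (hcommJ M m p H O S₀) 𝔪 v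
  exact ⟨x, hx⟩

end finiteness

/-- the Hecke algebra is commutative (the form the existence brick `Rho/Exists` asks for) -/
theorem isMulCommutative_TQ : IsMulCommutative (TQ M m p H O S₀ 𝔪) := ⟨⟨mul_comm⟩⟩

/-- the Hecke operator `T'_r` as an element of the Hecke algebra -/
def tQ (j : J M p S₀) : TQ M m p H O S₀ 𝔪 :=
  ofP O 𝔪 (WithOps (tJ M m p H O S₀) (hcommJ M m p H O S₀)) (MvPolynomial.X j)

theorem coe_tQ (j : J M p S₀) :
    ((tQ M m p H O S₀ 𝔪 j : TQ M m p H O S₀ 𝔪) : Module.End O (LamQ M m p H O S₀ 𝔪)) =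
      locQ M m p H O S₀ 𝔪 ⟨tJ M m p H O S₀ j, t_mem_Comm O _ (hcommJ M m p H O S₀) j⟩ :=
  (locComm_t O (tJ M m p H O S₀) (hcommJ M m p H O S₀) 𝔪 j).symm

/-- inertia at `ℓ ∤ M p` acts trivially on the localisation (also at the primes of `S₀`) -/
theorem rQ_eq_one_of_inertia {ℓ : ℕ} (hℓ : ℓ.Prime) (h1 : ℓ.Coprime M) (h2 : ℓ ≠ p)
    (A : ValuationSubring Qbar) (hA : A.LiesOverPrime ℓ) (σ : GQ)
    (hσ : σ ∈ A.inertiaSubgroupIn ℚ) : rQ M m p H O S₀ 𝔪 σ = 1 := by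
  have h3 : rC O (tJ M m p H O S₀) (rO M m p H O) (rOcomm M m p H O S₀) σ = 1 :=
    Subtype.ext (unramO M m p H O ℓ hℓ h1 h2 A hA σ hσ)
  rw [rQ_apply, h3, map_one]

/-! ### the diamond operators -/

theorem dO_mem_Comm (d : (ZMod M)ˣ) : dO M m p H O d ∈ Comm O (tJ M m p H O S₀) :=
  (mem_Comm_iff O _ _).mpr fun j => (commute_tO_dO M m p H O j.1 j.2.1 j.2.2.1 d).symm

/-- the diamond operators on the localisation -/
def dQ (d : (ZMod M)ˣ) : Module.End O (LamQ M m p H O S₀ 𝔪) :=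
  locQ M m p H O S₀ 𝔪 ⟨dO M m p H O d, dO_mem_Comm M m p H O S₀ d⟩

theorem commute_dQ_TQ (d : (ZMod M)ˣ) (x : TQ M m p H O S₀ 𝔪) :
    Commute (dQ M m p H O S₀ 𝔪 d) (x : Module.End O (LamQ M m p H O S₀ 𝔪)) :=
  commute_locComm O _ _ 𝔪 _ x

theorem commute_dQ_rQ (d : (ZMod M)ˣ) (σ : GQ) :
    Commute (dQ M m p H O S₀ 𝔪 d) (rQ M m p H O S₀ 𝔪 σ) := by
  have h : Commute (⟨dO M m p H O d, dO_mem_Comm M m p H O S₀ d⟩ : Comm O (tJ M m p H O S₀))
      (rC O (tJ M m p H O S₀) (rO M m p H O) (rOcomm M m p H O S₀) σ) :=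
    Subtype.ext (commute_dO_rO M m p H O d σ).eq
  exact h.map (locQ M m p H O S₀ 𝔪)

set_option maxSynthPendingDepth 2 in
/-- **the gate cubic is transported** (generic: any three elements of the commutant) -/
theorem locComm_cube (x u v : Comm O (tJ M m p H O S₀)) (h : (x - u) * (x - u) * (x - v) = 0) :
    (locQ M m p H O S₀ 𝔪 x - locQ M m p H O S₀ 𝔪 u) *
        (locQ M m p H O S₀ 𝔪 x - locQ M m p H O S₀ 𝔪 u) *
      (locQ M m p H O S₀ 𝔪 x - locQ M m p H O S₀ 𝔪 v) = 0 := by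
  rw [← map_sub, ← map_sub, ← map_mul, ← map_mul, h, map_zero]

set_option maxSynthPendingDepth 2 in
/-- the cubic on `LamO` for a Galois element and two diamonds gives the cubic on `LamQ` -/
theorem rQ_cube (σ : GQ) (d d' : (ZMod M)ˣ)
    (h : (rO M m p H O σ - dO M m p H O d) * (rO M m p H O σ - dO M m p H O d) *
      (rO M m p H O σ - dO M m p H O d') = 0) :
    (rQ M m p H O S₀ 𝔪 σ - dQ M m p H O S₀ 𝔪 d) *
        (rQ M m p H O S₀ 𝔪 σ - dQ M m p H O S₀ 𝔪 d) *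
      (rQ M m p H O S₀ 𝔪 σ - dQ M m p H O S₀ 𝔪 d') = 0 :=
  locComm_cube M m p H O S₀ 𝔪 _ ⟨dO M m p H O d, dO_mem_Comm M m p H O S₀ d⟩
    ⟨dO M m p H O d', dO_mem_Comm M m p H O S₀ d'⟩ (Subtype.ext (by push_cast; exact h))

end Fermat.Agent.S43.Rho.LamInst
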