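/-
S43 (row 37), PROJECT R, block L1 = `Rho/**` (route (gamma)), file `LamInstD` (helper22).
Imports `Rho/LamInst`.

**The instance of the localised Tate module on the module of record, with the diamonds IN the
polynomial Hecke algebra** (the form the bridge to the Betti side takes: the common polynomial ring
is `MvPolynomial (J M p S₀ ⊕ (ZMod M)ˣ) O`, `X (inl r) ↦ T'_r`, `X (inr d) ↦ ⟨d⟩`).

* `K M p S₀ := J M p S₀ ⊕ (ZMod M)ˣ` (`S₀` a fixed finite set of excluded primes), `tK`, `hcommK`,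
  `rOcommK`;
* `LamQ .. 𝔪`, `TQ .. 𝔪`, `rQ .. 𝔪` for ANY maximal ideal `𝔪` of `MvPolynomial (K M p S₀) O`;
* `datum` : `Dens.Datum (Sg M p S₀) (maximalIdeal O) (rQ ..) (eps p O) (TQ ..)`;
* `tQ r`, `dQ d : TQ` : the Hecke operators and the diamonds as ELEMENTS of the Hecke algebra;
* `rQ_eq_one_of_inertia`, `locComm_cube`, `rQ_cube` as in `LamInst`.
-/
import Mathlib
import Fermat.Agent.S43.Rho.LamInst

set_option autoImplicit false
set_option linter.unusedSectionVars false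

noncomputable section

namespace Fermat.Agent.S43.Rho.LamInstD

open Fermat.Agent.S43.Rho.Lam Fermat.Agent.S43.Hecke.PolyModule Fermat.Agent.S43.Rho.LamDatum
open Fermat.Agent.S43.Rho.Feed.Inst Fermat.Agent.S43.Rho.Feed.Base
open Fermat.Agent.S43.JH.Part (diaH diaH_mul)
open Fermat.Agent.S43.Rho.LamInst (J tJ hcommJ rOcomm Sg coprime_of_notMem_Sg)
open Fermat.Agent.S31.Core (Qbar GQ)

variable (M : ℕ) [NeZero M] (m : ℕ) (p : ℕ) [hp : Fact p.Prime] (H : Subgroup (ZMod M)ˣ)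
  (O : Type) [CommRing O] [Algebra ℤ_[p] O] (S₀ : Finset ℕ)

/-- the index set of the operators: the primes not dividing `M p`, and the diamonds -/
abbrev K : Type := J M p S₀ ⊕ (ZMod M)ˣ

/-- the operators `T'_r` (`r ∤ M p`) and `⟨d⟩` on the module of record -/
def tK : K M p S₀ → Module.End O (LamO M m p H O) :=
  Sum.elim (tJ M m p H O S₀) (dO M m p H O)

@[simp] theorem tK_inl (j : J M p S₀) : tK M m p H O S₀ (Sum.inl j) = tJ M m p H O S₀ j := rfl

@[simp] theorem tK_inr (d : (ZMod M)ˣ) : tK M m p H O S₀ (Sum.inr d) = dO M m p H O d := rfl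

theorem commute_dO_dO (d d' : (ZMod M)ˣ) : Commute (dO M m p H O d) (dO M m p H O d') := by
  refine commute_bc O ?_
  show diaH M m p H d * diaH M m p H d' = diaH M m p H d' * diaH M m p H d
  rw [← diaH_mul, ← diaH_mul, mul_comm]

theorem hcommK (i j : K M p S₀) : Commute (tK M m p H O S₀ i) (tK M m p H O S₀ j) := by
  rcases i with i | d <;> rcases j with j | d'
  · exact hcommJ M m p H O S₀ i j
  · exact commute_tO_dO M m p H O i.1 i.2.1 i.2.2.1 d'
  · exact (commute_tO_dO M m p H O j.1 j.2.1 j.2.2.1 d).symm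
  · exact commute_dO_dO M m p H O d d'

theorem rOcommK (g : GQ) (k : K M p S₀) : Commute (rO M m p H O g) (tK M m p H O S₀ k) := by
  rcases k with j | d
  · exact rOcomm M m p H O S₀ g j
  · exact (commute_dO_rO M m p H O d g).symm

variable (𝔪 : Ideal (MvPolynomial (K M p S₀) O)) [𝔪.IsMaximal]

/-- the module of record localised at `𝔪` -/
abbrev LamQ : Type := Loc 𝔪 (WithOps (tK M m p H O S₀) (hcommK M m p H O S₀))

/-- its Hecke algebra (generated by the `T'_r` and the diamonds) -/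
abbrev TQ : Subalgebra O (Module.End O (LamQ M m p H O S₀ 𝔪)) :=
  T O 𝔪 (WithOps (tK M m p H O S₀) (hcommK M m p H O S₀))

/-- its Galois action -/
def rQ : GQ →* Module.End O (LamQ M m p H O S₀ 𝔪) :=
  rLam O (tK M m p H O S₀) (hcommK M m p H O S₀) 𝔪 (rO M m p H O) (rOcommK M m p H O S₀)

/-- the transport of relations from the commutant of the operators on `LamO` -/
abbrev locQ : Comm O (tK M m p H O S₀) →+* Module.End O (LamQ M m p H O S₀ 𝔪) :=
  locComm O (tK M m p H O S₀) (hcommK M m p H O S₀) 𝔪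

theorem rQ_apply (g : GQ) :
    rQ M m p H O S₀ 𝔪 g =
      locQ M m p H O S₀ 𝔪 (rC O (tK M m p H O S₀) (rO M m p H O) (rOcommK M m p H O S₀) g) :=
  rfl

/-- **the localised module of record is a datum of the density brick** -/
theorem datum [IsLocalRing O] [IsNoetherianRing O] [IsAdicComplete (IsLocalRing.maximalIdeal O) O]
    (hM : 5 ≤ M) (hH : ¬ p ∣ Nat.card H) (hHm : ∀ d : (ZMod M)ˣ, d ^ (2 * m + 1) ∈ H)
    (hpO : (p : O) ∈ IsLocalRing.maximalIdeal O) :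
    Dens.Datum (Sg M p S₀) (IsLocalRing.maximalIdeal O) (rQ M m p H O S₀ 𝔪) (eps p O)
      (TQ M m p H O S₀ 𝔪) := by
  have := finite_LamO M m p H O hM
  have := free_LamO M m p H O hM
  refine LamMain.datum O (tK M m p H O S₀) (hcommK M m p H O S₀) 𝔪 (Sg M p S₀) _
    (Ideal.IsPrime.ne_top inferInstance) (rO M m p H O) (rOcommK M m p H O S₀) (eps p O)
    (cont_rO M m p H O hM hH _ hpO) (cont_eps p O _ hpO) ?_ ?_
  · intro ℓ hℓ hℓS A hA τ hτ
    exact frob_eps p O hℓ (coprime_of_notMem_Sg M p S₀ hℓ hℓS).2.1 A hA τ hτ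
  · intro ℓ hℓ hℓS A hA τ hτ
    obtain ⟨h1, h2, h3⟩ := coprime_of_notMem_Sg M p S₀ hℓ hℓS
    exact ⟨Sum.inl ⟨⟨ℓ, hℓ⟩, h1, h2, h3⟩, esO M m p H O hHm ⟨ℓ, hℓ⟩ h1 h2 A hA τ hτ⟩

section finiteness

variable [IsLocalRing O] [IsNoetherianRing O] [IsAdicComplete (IsLocalRing.maximalIdeal O) O]

theorem finite_LamQ (hM : 5 ≤ M) : Module.Finite O (LamQ M m p H O S₀ 𝔪) := by
  have := finite_LamO M m p H O hM
  exact LamMain.finite_loc O (tK M m p H O S₀) (hcommK M m p H O S₀) 𝔪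

theorem free_LamQ (hM : 5 ≤ M) : Module.Free O (LamQ M m p H O S₀ 𝔪) := by
  have := finite_LamO M m p H O hM
  have := free_LamO M m p H O hM
  exact LamMain.free_loc O (tK M m p H O S₀) (hcommK M m p H O S₀) 𝔪

theorem finite_TQ (hM : 5 ≤ M) : Module.Finite O (TQ M m p H O S₀ 𝔪) := by
  have := finite_LamO M m p H O hM
  exact LamMain.finite_T O (tK M m p H O S₀) (hcommK M m p H O S₀) 𝔪

/-- every element of the localisation is the class of an element of the module of record -/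
theorem mk_surjective (hM : 5 ≤ M) (v : LamQ M m p H O S₀ 𝔪) :
    ∃ x : WithOps (tK M m p H O S₀) (hcommK M m p H O S₀), LocalizedModule.mk x 1 = v := by
  have := finite_LamO M m p H O hM
  obtain ⟨x, hx⟩ := LamMain.mk_surjective O (tK M m p H O S₀) (hcommK M m p H O S₀) 𝔪 v
  exact ⟨x, hx⟩

end finiteness

/-- the Hecke algebra is commutative (the form the existence brick `Rho/Exists` asks for) -/
theorem isMulCommutative_TQ : IsMulCommutative (TQ M m p H O S₀ 𝔪) := ⟨⟨mul_comm⟩⟩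

/-- the Hecke operator `T'_r` as an element of the Hecke algebra -/
def tQ (j : J M p S₀) : TQ M m p H O S₀ 𝔪 :=
  ofP O 𝔪 (WithOps (tK M m p H O S₀) (hcommK M m p H O S₀)) (MvPolynomial.X (Sum.inl j))

/-- the diamond `⟨d⟩` as an element of the Hecke algebra -/
def dQ (d : (ZMod M)ˣ) : TQ M m p H O S₀ 𝔪 :=
  ofP O 𝔪 (WithOps (tK M m p H O S₀) (hcommK M m p H O S₀)) (MvPolynomial.X (Sum.inr d))

theorem coe_tQ (j : J M p S₀) :
    ((tQ M m p H O S₀ 𝔪 j : TQ M m p H O S₀ 𝔪) : Module.End O (LamQ M m p H O S₀ 𝔪)) =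
      locQ M m p H O S₀ 𝔪 ⟨tJ M m p H O S₀ j, t_mem_Comm O _ (hcommK M m p H O S₀) (Sum.inl j)⟩ :=
  (locComm_t O (tK M m p H O S₀) (hcommK M m p H O S₀) 𝔪 (Sum.inl j)).symm

theorem coe_dQ (d : (ZMod M)ˣ) :
    ((dQ M m p H O S₀ 𝔪 d : TQ M m p H O S₀ 𝔪) : Module.End O (LamQ M m p H O S₀ 𝔪)) =
      locQ M m p H O S₀ 𝔪 ⟨dO M m p H O d, t_mem_Comm O _ (hcommK M m p H O S₀) (Sum.inr d)⟩ :=
  (locComm_t O (tK M m p H O S₀) (hcommK M m p H O S₀) 𝔪 (Sum.inr d)).symm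

/-- the diamonds commute with Galois -/
theorem commute_dQ_rQ (d : (ZMod M)ˣ) (σ : GQ) :
    Commute ((dQ M m p H O S₀ 𝔪 d : TQ M m p H O S₀ 𝔪) : Module.End O (LamQ M m p H O S₀ 𝔪))
      (rQ M m p H O S₀ 𝔪 σ) :=
  commute_rLam O (tK M m p H O S₀) (hcommK M m p H O S₀) 𝔪 (rO M m p H O) (rOcommK M m p H O S₀)
    (dQ M m p H O S₀ 𝔪 d) σ

/-- inertia at `ℓ ∤ M p` acts trivially on the localisation (also at the primes of `S₀`) -/
theorem rQ_eq_one_of_inertia {ℓ : ℕ} (hℓ : ℓ.Prime) (h1 : ℓ.Coprime M) (h2 : ℓ ≠ p)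
    (A : ValuationSubring Qbar) (hA : A.LiesOverPrime ℓ) (σ : GQ)
    (hσ : σ ∈ A.inertiaSubgroupIn ℚ) : rQ M m p H O S₀ 𝔪 σ = 1 := by
  have h3 : rC O (tK M m p H O S₀) (rO M m p H O) (rOcommK M m p H O S₀) σ = 1 :=
    Subtype.ext (unramO M m p H O ℓ hℓ h1 h2 A hA σ hσ)
  rw [rQ_apply, h3, map_one]

set_option maxSynthPendingDepth 2 in
/-- **the gate cubic is transported** (generic: any three elements of the commutant) -/
theorem locComm_cube (x u v : Comm O (tK M m p H O S₀)) (h : (x - u) * (x - u) * (x - v) = 0) :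
    (locQ M m p H O S₀ 𝔪 x - locQ M m p H O S₀ 𝔪 u) * (locQ M m p H O S₀ 𝔪 x - locQ M m p H O S₀ 𝔪 u) *
      (locQ M m p H O S₀ 𝔪 x - locQ M m p H O S₀ 𝔪 v) = 0 := by
  rw [← map_sub, ← map_sub, ← map_mul, ← map_mul, h, map_zero]

set_option maxSynthPendingDepth 2 in
/-- the cubic on `LamO` for a Galois element and two diamonds gives the cubic on `LamQ` -/
theorem rQ_cube (σ : GQ) (d d' : (ZMod M)ˣ)
    (h : (rO M m p H O σ - dO M m p H O d) * (rO M m p H O σ - dO M m p H O d) *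
      (rO M m p H O σ - dO M m p H O d') = 0) :
    (rQ M m p H O S₀ 𝔪 σ - (dQ M m p H O S₀ 𝔪 d : TQ M m p H O S₀ 𝔪)) *
        (rQ M m p H O S₀ 𝔪 σ - (dQ M m p H O S₀ 𝔪 d : TQ M m p H O S₀ 𝔪)) *
      (rQ M m p H O S₀ 𝔪 σ - (dQ M m p H O S₀ 𝔪 d' : TQ M m p H O S₀ 𝔪)) = 0 := by
  rw [coe_dQ, coe_dQ]
  exact locComm_cube M m p H O S₀ 𝔪 _ ⟨dO M m p H O d, _⟩ ⟨dO M m p H O d', _⟩
    (Subtype.ext (by push_cast; exact h))

end Fermat.Agent.S43.Rho.LamInstD
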