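import Mathlib

/-!
# PROJECT R (S43), block L1, brick (CL+): a representation from a Cayley–Hamilton algebra (helper8)

Pure algebra.  `T` a commutative ring with `2` invertible, `E` a `T`-algebra (not commutative; in
the application `E = End_T(Λ)`, `Λ` a faithful `T`-module) with `T → E` injective, `r : G →* E`,
`d : G →* T`, `t : G → T` with the Cayley–Hamilton identity `r g ^ 2 - t g • r g + d g = 0` for every
`g`, and `c : G` with `c * c = 1`, `d c = -1`.  Put `a g = (t g + t (g c))/2`, `dd g = (t g - t (g c))/2`,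
`x g h = a (g h) - a g * a h`, `y g h = dd (g h) - dd g * dd h`.  If `x g₀ h₀` and `y h₀ g₀` are units
(residual absolute irreducibility), then `ρ g = !![a g, x g h₀; u⁻¹ * x g₀ g, dd g]` is a homomorphism
`G →* M₂(T)` with trace `t` and determinant `d`, and `E` is compressed to `M₂(T)` by the idempotents
`e⁺ = (1 + r c)/2`, `e⁻ = (1 - r c)/2` (`compress₁₁` … `compress₂₂`): every `T`-linear relation between
the `r g` holds between the `ρ g`.  No injection of `T` in a product of domains is used: `T` may have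
nilpotent elements.  (Wiles' and Carayol's construction with the identities checked in `E`.)
-/

set_option autoImplicit false
set_option linter.unusedSectionVars false

namespace Fermat.Agent.S43.Rho.CH

open Matrix

variable {T : Type*} [CommRing T] [Invertible (2 : T)] {E : Type*} [Ring E] [Algebra T E]
  {G : Type*} [Group G]

/-- the hypotheses of (CL+), without the irreducibility clause -/
structure Pre (r : G →* E) (t : G → T) (d : G →* T) (c : G) : Prop where
  inj : ∀ s : T, s • (1 : E) = 0 → s = 0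
  ch : ∀ g : G, r g * r g - t g • r g + d g • (1 : E) = 0
  c_sq : c * c = 1
  d_c : d c = -1

/-- the upper left entry `a g = (t g + t (g c))/2` -/
def aT (t : G → T) (c : G) (g : G) : T := ⅟2 * (t g + t (g * c))

/-- the lower right entry `dd g = (t g - t (g c))/2` -/
def dT (t : G → T) (c : G) (g : G) : T := ⅟2 * (t g - t (g * c))

/-- `x g h = a (g h) - a g * a h` (`= b g * c h`) -/
def xT (t : G → T) (c : G) (g h : G) : T := aT t c (g * h) - aT t c g * aT t c h

/-- `y g h = dd (g h) - dd g * dd h` (`= c g * b h`) -/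
def yT (t : G → T) (c : G) (g h : G) : T := dT t c (g * h) - dT t c g * dT t c h

theorem aT_add_dT (t : G → T) (c : G) (g : G) : aT t c g + dT t c g = t g := by
  rw [aT, dT, ← mul_add, add_add_sub_cancel, ← two_mul, ← mul_assoc, invOf_mul_self, one_mul]

section Core

variable {r : G →* E} {t : G → T} {d : G →* T} {c : G}

theorem rc_mul_rc (h : Pre r t d c) : r c * r c = 1 := by
  rw [← map_mul, h.c_sq, map_one]

/-- the idempotent `e⁺ = (1 + r c)/2` -/
def ep (r : G →* E) (c : G) : E := (⅟2 : T) • (1 + r c)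

/-- the idempotent `e⁻ = (1 - r c)/2` -/
def em (r : G →* E) (c : G) : E := (⅟2 : T) • (1 - r c)

theorem ep_add_em (r : G →* E) (c : G) : ep (T := T) r c + em (T := T) r c = 1 := by
  rw [ep, em, ← smul_add]
  have : (1 + r c) + (1 - r c) = (2 : T) • (1 : E) := by rw [two_smul]; abel
  rw [this, smul_smul, invOf_mul_self, one_smul]

theorem rc_mul_ep (h : Pre r t d c) : r c * ep (T := T) r c = ep (T := T) r c := by
  rw [ep, mul_smul_comm, mul_add, mul_one, rc_mul_rc h, add_comm]

theorem ep_mul_rc (h : Pre r t d c) : ep (T := T) r c * r c = ep (T := T) r c := by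
  rw [ep, smul_mul_assoc, add_mul, one_mul, rc_mul_rc h, add_comm]

theorem rc_mul_em (h : Pre r t d c) : r c * em (T := T) r c = -em (T := T) r c := by
  rw [em, mul_smul_comm, mul_sub, mul_one, rc_mul_rc h, ← smul_neg, neg_sub]

theorem em_mul_rc (h : Pre r t d c) : em (T := T) r c * r c = -em (T := T) r c := by
  rw [em, smul_mul_assoc, sub_mul, one_mul, rc_mul_rc h, ← smul_neg, neg_sub]

theorem ep_mul_ep (h : Pre r t d c) : ep (T := T) r c * ep (T := T) r c = ep (T := T) r c := by
  have h1 : ep (T := T) r c * ep (T := T) r c = (⅟2 : T) • ((1 + r c) * ep (T := T) r c) := by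
    conv_lhs => arg 1; rw [ep]
    rw [smul_mul_assoc]
  rw [h1, add_mul, one_mul, rc_mul_ep h, ← two_smul T (ep r c), smul_smul, invOf_mul_self, one_smul]

theorem em_mul_em (h : Pre r t d c) : em (T := T) r c * em (T := T) r c = em (T := T) r c := by
  have h1 : em (T := T) r c * em (T := T) r c = (⅟2 : T) • ((1 - r c) * em (T := T) r c) := by
    conv_lhs => arg 1; rw [em]
    rw [smul_mul_assoc]
  rw [h1, sub_mul, one_mul, rc_mul_em h, sub_neg_eq_add, ← two_smul T (em r c), smul_smul,
    invOf_mul_self, one_smul]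

theorem ep_mul_em (h : Pre r t d c) : ep (T := T) r c * em (T := T) r c = 0 := by
  have h1 : ep (T := T) r c * em (T := T) r c = (⅟2 : T) • ((1 + r c) * em (T := T) r c) := by
    conv_lhs => arg 1; rw [ep]
    rw [smul_mul_assoc]
  rw [h1, add_mul, one_mul, rc_mul_em h, add_neg_cancel, smul_zero]

theorem em_mul_ep (h : Pre r t d c) : em (T := T) r c * ep (T := T) r c = 0 := by
  have h1 : em (T := T) r c * ep (T := T) r c = (⅟2 : T) • ((1 - r c) * ep (T := T) r c) := by
    conv_lhs => arg 1; rw [em]
    rw [smul_mul_assoc]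
  rw [h1, sub_mul, one_mul, rc_mul_ep h, sub_self, smul_zero]

/-- `t c = 0` -/
theorem t_c (h : Pre r t d c) : t c = 0 := by
  apply h.inj
  have h1 := h.ch c
  rw [rc_mul_rc h, h.d_c, neg_smul, one_smul, sub_add_eq_add_sub, add_neg_cancel, zero_sub,
    neg_eq_zero] at h1
  have h2 := congrArg (fun z => z * r c) h1
  simp only [smul_mul_assoc, zero_mul] at h2
  rwa [rc_mul_rc h] at h2

/-- `t 1 = 2` -/
theorem t_one (h : Pre r t d c) : t 1 = 2 := by
  have h1 := h.ch 1
  rw [map_one, map_one, mul_one, one_smul] at h1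
  have h2 : ((2 : T) - t 1) • (1 : E) = 0 := by
    rw [sub_smul, two_smul]
    rw [← h1]; abel
  have := h.inj _ h2
  exact (sub_eq_zero.mp this).symm

/-- `t g - r g = d g • r g⁻¹` -/
theorem inv_formula (h : Pre r t d c) (g : G) : t g • (1 : E) - r g = d g • r g⁻¹ := by
  have h1 := congrArg (fun z => z * r g⁻¹) (h.ch g)
  simp only [add_mul, sub_mul, smul_mul_assoc, one_mul, zero_mul, mul_assoc] at h1
  rw [← map_mul, mul_inv_cancel, map_one, mul_one] at h1
  rw [← sub_eq_zero]
  rw [← neg_eq_zero, ← h1]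
  abel

/-- **the polarised Cayley–Hamilton identity** -/
theorem polar (h : Pre r t d c) (g g' : G) :
    r g * r g' + r g' * r g - t g' • r g - t g • r g' + (t g * t g' - t (g * g')) • (1 : E) = 0 := by
  have h1 := inv_formula h (g * g')
  have h2 := inv_formula h g
  have h3 := inv_formula h g'
  have h4 : d (g * g') • r (g * g')⁻¹ = (d g' • r g'⁻¹) * (d g • r g⁻¹) := by
    rw [smul_mul_assoc, mul_smul_comm, smul_smul, ← map_mul r, ← _root_.mul_inv_rev, map_mul d, mul_comm (d g')]
  rw [h4, ← h2, ← h3, map_mul] at h1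
  have h5 : (t g' • (1 : E) - r g') * (t g • (1 : E) - r g) =
      (t g * t g') • (1 : E) - t g' • r g - t g • r g' + r g' * r g := by
    simp only [sub_mul, mul_sub, smul_mul_assoc, mul_smul_comm, one_mul, mul_one, smul_sub,
      smul_smul]
    abel
  rw [h5] at h1
  have h6 : t (g * g') • (1 : E) =
      r g * r g' + ((t g * t g') • (1 : E) - t g' • r g - t g • r g' + r g' * r g) := by
    rw [← h1]; abel
  rw [sub_smul, h6]
  abel

/-- the polarised identity at `g' = c` -/
theorem polar_c (h : Pre r t d c) (g : G) :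
    r g * r c + r c * r g - t g • r c - t (g * c) • (1 : E) = 0 := by
  have h1 := polar h g c
  rw [t_c h, zero_smul, sub_zero, mul_zero, zero_sub, neg_smul] at h1
  rw [← h1]; abel

/-! ### compression by the idempotents -/

theorem ep_ep_assoc (h : Pre r t d c) (z : E) :
    ep (T := T) r c * (ep (T := T) r c * z) = ep (T := T) r c * z := by
  rw [← mul_assoc, ep_mul_ep h]

theorem em_em_assoc (h : Pre r t d c) (z : E) :
    em (T := T) r c * (em (T := T) r c * z) = em (T := T) r c * z := by
  rw [← mul_assoc, em_mul_em h]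

/-- `1 = e⁺ + e⁻` inserted in a product -/
theorem insert_one (r : G →* E) (c : G) (z w : E) :
    z * w = z * (ep (T := T) r c * w) + z * (em (T := T) r c * w) := by
  rw [← mul_add, ← add_mul, ep_add_em, one_mul]

/-- `e⁺ (r g) e⁺ = a(g) e⁺` -/
theorem comp11 (h : Pre r t d c) (g : G) :
    ep (T := T) r c * (r g * ep (T := T) r c) = aT t c g • ep (T := T) r c := by
  set P := ep (T := T) r c with hP
  have key : P * ((r g * r c + r c * r g - t g • r c - t (g * c) • (1 : E)) * P) = 0 := by
    rw [polar_c h g, zero_mul, mul_zero]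
  have e1 : P * (r g * r c * P) = P * (r g * P) := by rw [mul_assoc, rc_mul_ep h]
  have e2 : P * (r c * r g * P) = P * (r g * P) := by
    rw [mul_assoc, ← mul_assoc P, ep_mul_rc h]
  have e3 : P * (r c * P) = P := by rw [rc_mul_ep h, ep_mul_ep h]
  rw [sub_mul, sub_mul, add_mul, mul_sub, mul_sub, mul_add, e1, e2, smul_mul_assoc, mul_smul_comm,
    e3, smul_mul_assoc, one_mul, mul_smul_comm, ep_mul_ep h] at key
  have k2 : (2 : T) • (P * (r g * P)) = (t g + t (g * c)) • P := by
    rw [two_smul, add_smul]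
    rw [← sub_eq_zero, ← key]
    abel
  have k3 := congrArg (fun z => (⅟2 : T) • z) k2
  simp only [smul_smul, invOf_mul_self, one_smul] at k3
  rw [k3, aT]

/-- `e⁻ (r g) e⁻ = dd(g) e⁻` -/
theorem comp22 (h : Pre r t d c) (g : G) :
    em (T := T) r c * (r g * em (T := T) r c) = dT t c g • em (T := T) r c := by
  set M := em (T := T) r c with hM
  have key : M * ((r g * r c + r c * r g - t g • r c - t (g * c) • (1 : E)) * M) = 0 := by
    rw [polar_c h g, zero_mul, mul_zero]
  have e1 : M * (r g * r c * M) = -(M * (r g * M)) := by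
    rw [mul_assoc, rc_mul_em h, mul_neg, mul_neg]
  have e2 : M * (r c * r g * M) = -(M * (r g * M)) := by
    rw [mul_assoc, ← mul_assoc M, em_mul_rc h, neg_mul]
  have e3 : M * (r c * M) = -M := by rw [rc_mul_em h, mul_neg, em_mul_em h]
  rw [sub_mul, sub_mul, add_mul, mul_sub, mul_sub, mul_add, e1, e2, smul_mul_assoc, mul_smul_comm,
    e3, smul_mul_assoc, one_mul, mul_smul_comm, em_mul_em h] at key
  have k2 : (2 : T) • (M * (r g * M)) = (t g - t (g * c)) • M := by
    rw [two_smul, sub_smul]
    rw [← sub_eq_zero, ← neg_eq_zero, ← key, smul_neg]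
    abel
  have k3 := congrArg (fun z => (⅟2 : T) • z) k2
  simp only [smul_smul, invOf_mul_self, one_smul] at k3
  rw [k3, dT]

theorem comp11_assoc (h : Pre r t d c) (g : G) (z : E) :
    ep (T := T) r c * (r g * (ep (T := T) r c * z)) = aT t c g • (ep (T := T) r c * z) := by
  rw [← mul_assoc (r g), ← mul_assoc, comp11 h, smul_mul_assoc]

theorem comp22_assoc (h : Pre r t d c) (g : G) (z : E) :
    em (T := T) r c * (r g * (em (T := T) r c * z)) = dT t c g • (em (T := T) r c * z) := by
  rw [← mul_assoc (r g), ← mul_assoc, comp22 h, smul_mul_assoc]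

/-- `e⁺ (r g) e⁻ (r g') e⁺ = x(g, g') e⁺` -/
theorem compx (h : Pre r t d c) (g g' : G) :
    ep (T := T) r c * (r g * (em (T := T) r c * (r g' * ep (T := T) r c))) =
      xT t c g g' • ep (T := T) r c := by
  have h1 := comp11 h (g * g')
  rw [map_mul, mul_assoc, insert_one (T := T) r c (r g) (r g' * ep (T := T) r c), mul_add,
    comp11_assoc h, comp11 h, smul_smul] at h1
  rw [xT, sub_smul, ← h1]
  abel

/-- `e⁻ (r g) e⁺ (r g') e⁻ = y(g, g') e⁻` -/
theorem compy (h : Pre r t d c) (g g' : G) :
    em (T := T) r c * (r g * (ep (T := T) r c * (r g' * em (T := T) r c))) =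
      yT t c g g' • em (T := T) r c := by
  have h1 := comp22 h (g * g')
  rw [map_mul, mul_assoc, insert_one (T := T) r c (r g) (r g' * em (T := T) r c), mul_add,
    comp22_assoc h, comp22 h, smul_smul] at h1
  rw [yT, sub_smul, ← h1]
  abel

theorem compx_assoc (h : Pre r t d c) (g g' : G) (z : E) :
    ep (T := T) r c * (r g * (em (T := T) r c * (r g' * (ep (T := T) r c * z)))) =
      xT t c g g' • (ep (T := T) r c * z) := by
  have := congrArg (fun w => w * z) (compx h g g')
  simpa only [mul_assoc, smul_mul_assoc] using this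

theorem compy_assoc (h : Pre r t d c) (g g' : G) (z : E) :
    em (T := T) r c * (r g * (ep (T := T) r c * (r g' * (em (T := T) r c * z)))) =
      yT t c g g' • (em (T := T) r c * z) := by
  have := congrArg (fun w => w * z) (compy h g g')
  simpa only [mul_assoc, smul_mul_assoc] using this

/-! ### irreducibility: the two units -/

/-- the hypotheses of (CL+) -/
structure Input (r : G →* E) (t : G → T) (d : G →* T) (c g₀ h₀ : G) : Prop
    extends Pre r t d c where
  ux : IsUnit (xT t c g₀ h₀)
  uy : IsUnit (yT t c h₀ g₀)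

variable {g₀ h₀ : G}

/-- `T` acts faithfully on `e⁻ E e⁻` -/
theorem faithful_em (h : Input r t d c g₀ h₀) (s : T) (hs : s • em (T := T) r c = 0) : s = 0 := by
  have hP := h.toPre
  apply h.inj
  -- `s • e⁺ = 0`
  have h1 : s • (xT t c g₀ h₀ • ep (T := T) r c) = 0 := by
    rw [← compx hP g₀ h₀]
    have : ep (T := T) r c * (r g₀ * (em (T := T) r c * (r h₀ * ep (T := T) r c))) =
        ep (T := T) r c * (r g₀ * (em (T := T) r c * (em (T := T) r c * (r h₀ * ep (T := T) r c)))) := by
      rw [em_em_assoc hP]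
    rw [this, ← mul_smul_comm, ← mul_smul_comm, ← smul_mul_assoc, hs, zero_mul, mul_zero, mul_zero]
  rw [smul_comm] at h1
  have h2 : s • ep (T := T) r c = 0 := by
    calc s • ep (T := T) r c
        = (((h.ux.unit⁻¹ : Tˣ) : T) * xT t c g₀ h₀) • (s • ep (T := T) r c) := by
          rw [IsUnit.val_inv_mul, one_smul]
      _ = ((h.ux.unit⁻¹ : Tˣ) : T) • (xT t c g₀ h₀ • (s • ep (T := T) r c)) := mul_smul _ _ _
      _ = 0 := by rw [h1, smul_zero]
  rw [← ep_add_em (T := T) r c, smul_add, h2, hs, add_zero]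

/-- `T` acts faithfully on `e⁺ E e⁺` -/
theorem faithful_ep (h : Input r t d c g₀ h₀) (s : T) (hs : s • ep (T := T) r c = 0) : s = 0 := by
  have hP := h.toPre
  apply faithful_em h
  have h1 : s • (yT t c h₀ g₀ • em (T := T) r c) = 0 := by
    rw [← compy hP h₀ g₀]
    have : em (T := T) r c * (r h₀ * (ep (T := T) r c * (r g₀ * em (T := T) r c))) =
        em (T := T) r c * (r h₀ * (ep (T := T) r c * (ep (T := T) r c * (r g₀ * em (T := T) r c)))) := by
      rw [ep_ep_assoc hP]
    rw [this, ← mul_smul_comm, ← mul_smul_comm, ← smul_mul_assoc, hs, zero_mul, mul_zero, mul_zero]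
  rw [smul_comm] at h1
  calc s • em (T := T) r c
      = (((h.uy.unit⁻¹ : Tˣ) : T) * yT t c h₀ g₀) • (s • em (T := T) r c) := by
        rw [IsUnit.val_inv_mul, one_smul]
    _ = ((h.uy.unit⁻¹ : Tˣ) : T) • (yT t c h₀ g₀ • (s • em (T := T) r c)) := mul_smul _ _ _
    _ = 0 := by rw [h1, smul_zero]

/-- two scalars with the same action on `e⁺` are equal -/
theorem eq_of_smul_ep (h : Input r t d c g₀ h₀) {s s' : T}
    (hs : s • ep (T := T) r c = s' • ep (T := T) r c) : s = s' := by
  rw [← sub_eq_zero]
  apply faithful_ep h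
  rw [sub_smul, hs, sub_self]

/-- two scalars with the same action on `e⁻` are equal -/
theorem eq_of_smul_em (h : Input r t d c g₀ h₀) {s s' : T}
    (hs : s • em (T := T) r c = s' • em (T := T) r c) : s = s' := by
  rw [← sub_eq_zero]
  apply faithful_em h
  rw [sub_smul, hs, sub_self]

/-! ### the four identities of Wiles -/

theorem xT_mul_xT (h : Input r t d c g₀ h₀) (g g' : G) :
    xT t c g h₀ * xT t c g₀ g' = yT t c h₀ g₀ * xT t c g g' := by
  have hP := h.toPre
  apply eq_of_smul_ep h
  have e1 : ep (T := T) r c * (r g * (em (T := T) r c * (r h₀ * (ep (T := T) r c *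
      (r g₀ * (em (T := T) r c * (r g' * ep (T := T) r c))))))) =
      (xT t c g h₀ * xT t c g₀ g') • ep (T := T) r c := by
    rw [compx_assoc hP, compx hP, smul_smul]
  have e2 : ep (T := T) r c * (r g * (em (T := T) r c * (r h₀ * (ep (T := T) r c *
      (r g₀ * (em (T := T) r c * (r g' * ep (T := T) r c))))))) =
      (yT t c h₀ g₀ * xT t c g g') • ep (T := T) r c := by
    rw [compy_assoc hP, mul_smul_comm, mul_smul_comm, compx hP, smul_smul]
  rw [← e1, e2]

/-- `y(h₀, g₀) = x(g₀, h₀)` -/
theorem yT_eq_xT (h : Input r t d c g₀ h₀) : yT t c h₀ g₀ = xT t c g₀ h₀ := by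
  have h1 := xT_mul_xT h g₀ h₀
  exact (h.ux.mul_left_inj.mp (by rw [h1])).symm

theorem xT_mul_left (h : Input r t d c g₀ h₀) (g g' : G) :
    xT t c (g * g') h₀ = aT t c g * xT t c g' h₀ + xT t c g h₀ * dT t c g' := by
  have hP := h.toPre
  apply eq_of_smul_ep h
  rw [← compx hP (g * g') h₀, map_mul, mul_assoc,
    insert_one (T := T) r c (r g) (r g' * (em (T := T) r c * (r h₀ * ep (T := T) r c))), mul_add,
    comp11_assoc hP, compx hP, comp22_assoc hP, mul_smul_comm, mul_smul_comm, compx hP, smul_smul,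
    smul_smul, add_smul, mul_comm (dT t c g')]

theorem xT_mul_right (h : Input r t d c g₀ h₀) (g g' : G) :
    xT t c g₀ (g * g') = xT t c g₀ g * aT t c g' + dT t c g * xT t c g₀ g' := by
  have hP := h.toPre
  apply eq_of_smul_ep h
  rw [← compx hP g₀ (g * g'), map_mul, mul_assoc,
    insert_one (T := T) r c (r g) (r g' * ep (T := T) r c), mul_add, mul_add, mul_add,
    compx_assoc hP, comp11 hP, comp22_assoc hP, mul_smul_comm, mul_smul_comm, compx hP, smul_smul,
    smul_smul, add_smul]

theorem xT_mul_xT' (h : Input r t d c g₀ h₀) (g g' : G) :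
    xT t c g₀ g * xT t c g' h₀ = xT t c g₀ h₀ * yT t c g g' := by
  have hP := h.toPre
  apply eq_of_smul_ep h
  have e1 : ep (T := T) r c * (r g₀ * (em (T := T) r c * (r g * (ep (T := T) r c *
      (r g' * (em (T := T) r c * (r h₀ * ep (T := T) r c))))))) =
      (xT t c g₀ g * xT t c g' h₀) • ep (T := T) r c := by
    rw [compx_assoc hP, compx hP, smul_smul]
  have e2 : ep (T := T) r c * (r g₀ * (em (T := T) r c * (r g * (ep (T := T) r c *
      (r g' * (em (T := T) r c * (r h₀ * ep (T := T) r c))))))) =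
      (xT t c g₀ h₀ * yT t c g g') • ep (T := T) r c := by
    rw [compy_assoc hP, mul_smul_comm, mul_smul_comm, compx hP, smul_smul, mul_comm]
  rw [← e1, e2]

theorem aT_one (h : Pre r t d c) : aT t c 1 = 1 := by
  rw [aT, one_mul, t_c h, t_one h, add_zero, invOf_mul_self]

theorem dT_one (h : Pre r t d c) : dT t c 1 = 1 := by
  rw [dT, one_mul, t_c h, t_one h, sub_zero, invOf_mul_self]

/-- `a(g g) = t(g) a(g) - d(g)` -/
theorem aT_sq (h : Input r t d c g₀ h₀) (g : G) : aT t c (g * g) = t g * aT t c g - d g := by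
  have hP := h.toPre
  apply eq_of_smul_ep h
  have h1 : r g * r g = t g • r g - d g • (1 : E) := by
    have := hP.ch g
    rw [← sub_eq_zero, ← this]; abel
  rw [← comp11 hP (g * g), map_mul, h1, sub_mul, mul_sub, smul_mul_assoc, mul_smul_comm,
    comp11 hP, smul_mul_assoc, one_mul, mul_smul_comm, ep_mul_ep hP, smul_smul, sub_smul]

/-! ### the representation -/

/-- the inverse of `u = x(g₀, h₀)` -/
noncomputable def uinv (h : Input r t d c g₀ h₀) : T := ((h.ux.unit⁻¹ : Tˣ) : T)

theorem uinv_mul (h : Input r t d c g₀ h₀) : uinv h * xT t c g₀ h₀ = 1 :=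
  IsUnit.val_inv_mul h.ux

/-- the matrix `ρ g = !![a g, x(g, h₀); u⁻¹ x(g₀, g), dd g]` -/
noncomputable def repFun (h : Input r t d c g₀ h₀) (g : G) : Matrix (Fin 2) (Fin 2) T :=
  !![aT t c g, xT t c g h₀; uinv h * xT t c g₀ g, dT t c g]

theorem repFun_mul (h : Input r t d c g₀ h₀) (g g' : G) :
    repFun h (g * g') = repFun h g * repFun h g' := by
  have hu := uinv_mul h
  have k1 := xT_mul_xT h g g'
  have k2 := yT_eq_xT h
  have k3 := xT_mul_left h g g'
  have k4 := xT_mul_right h g g'
  have k5 := xT_mul_xT' h g g'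
  have hx : aT t c (g * g') = xT t c g g' + aT t c g * aT t c g' := by rw [xT]; ring
  have hy : dT t c (g * g') = yT t c g g' + dT t c g * dT t c g' := by rw [yT]; ring
  rw [k2] at k1
  ext i j
  fin_cases i <;> fin_cases j
  · show aT t c (g * g') = _
    rw [Matrix.mul_apply, Fin.sum_univ_two]
    show _ = aT t c g * aT t c g' + xT t c g h₀ * (uinv h * xT t c g₀ g')
    rw [hx]
    linear_combination (-(uinv h)) * k1 - xT t c g g' * hu
  · show xT t c (g * g') h₀ = _
    rw [Matrix.mul_apply, Fin.sum_univ_two]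
    show _ = aT t c g * xT t c g' h₀ + xT t c g h₀ * dT t c g'
    exact k3
  · show uinv h * xT t c g₀ (g * g') = _
    rw [Matrix.mul_apply, Fin.sum_univ_two]
    show _ = uinv h * xT t c g₀ g * aT t c g' + dT t c g * (uinv h * xT t c g₀ g')
    rw [k4]; ring
  · show dT t c (g * g') = _
    rw [Matrix.mul_apply, Fin.sum_univ_two]
    show _ = uinv h * xT t c g₀ g * xT t c g' h₀ + dT t c g * dT t c g'
    rw [hy]
    linear_combination (-(uinv h)) * k5 - yT t c g g' * hu

theorem repFun_one (h : Input r t d c g₀ h₀) : repFun h 1 = 1 := by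
  have ha := aT_one h.toPre
  have hd := dT_one h.toPre
  ext i j
  fin_cases i <;> fin_cases j
  · show aT t c 1 = 1
    exact ha
  · show xT t c 1 h₀ = 0
    rw [xT, one_mul, ha, one_mul, sub_self]
  · show uinv h * xT t c g₀ 1 = 0
    rw [xT, mul_one, ha, mul_one, sub_self, mul_zero]
  · show dT t c 1 = 1
    exact hd

/-- **(CL+)**: the representation `G →* M₂(T)` -/
noncomputable def rep (h : Input r t d c g₀ h₀) : G →* Matrix (Fin 2) (Fin 2) T where
  toFun := repFun h
  map_one' := repFun_one h
  map_mul' := repFun_mul h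

theorem rep_apply (h : Input r t d c g₀ h₀) (g : G) :
    rep h g = !![aT t c g, xT t c g h₀; uinv h * xT t c g₀ g, dT t c g] := rfl

theorem trace_rep (h : Input r t d c g₀ h₀) (g : G) : (rep h g).trace = t g := by
  rw [rep_apply, Matrix.trace_fin_two_of, aT_add_dT]

theorem det_rep (h : Input r t d c g₀ h₀) (g : G) : (rep h g).det = d g := by
  rw [rep_apply, Matrix.det_fin_two_of]
  have k1 := xT_mul_xT h g g
  rw [yT_eq_xT h] at k1
  have k2 := aT_sq h g
  have k3 := aT_add_dT t c g
  have hu := uinv_mul h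
  have hx : xT t c g g = aT t c (g * g) - aT t c g * aT t c g := rfl
  linear_combination (-(uinv h)) * k1 - xT t c g g * hu - hx - k2 + aT t c g * k3

/-! ### compression of `E` to `M₂(T)` -/

theorem compress11 (h : Input r t d c g₀ h₀) (g : G) :
    ep (T := T) r c * (r g * ep (T := T) r c) = (rep h g 0 0) • ep (T := T) r c :=
  comp11 h.toPre g

theorem compress12 (h : Input r t d c g₀ h₀) (g : G) :
    ep (T := T) r c * (r g * (em (T := T) r c * (r h₀ * ep (T := T) r c))) =
      (rep h g 0 1) • ep (T := T) r c :=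
  compx h.toPre g h₀

theorem compress21 (h : Input r t d c g₀ h₀) (g : G) :
    ep (T := T) r c * (r g₀ * (em (T := T) r c * (r g * ep (T := T) r c))) =
      (xT t c g₀ h₀ * rep h g 1 0) • ep (T := T) r c := by
  rw [compx h.toPre g₀ g]
  congr 1
  show _ = xT t c g₀ h₀ * (uinv h * xT t c g₀ g)
  rw [← mul_assoc, mul_comm (xT t c g₀ h₀), uinv_mul, one_mul]

theorem compress22 (h : Input r t d c g₀ h₀) (g : G) :
    em (T := T) r c * (r g * em (T := T) r c) = (rep h g 1 1) • em (T := T) r c :=
  comp22 h.toPre g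

/-- **transport**: a `T`-linear relation between the `r g` holds between the `ρ g` -/
theorem sum_rep_eq_zero (h : Input r t d c g₀ h₀) {ι : Type*} (s : Finset ι) (m : ι → T)
    (g : ι → G) (hz : ∑ i ∈ s, m i • r (g i) = 0) : ∑ i ∈ s, m i • rep h (g i) = 0 := by
  ext a b
  rw [Matrix.sum_apply, Matrix.zero_apply]
  simp only [Matrix.smul_apply, smul_eq_mul]
  fin_cases a <;> fin_cases b
  · apply faithful_ep h
    have := congrArg (fun z => ep (T := T) r c * (z * ep (T := T) r c)) hz
    simp only [Finset.sum_mul, Finset.mul_sum, smul_mul_assoc, mul_smul_comm, compress11 h,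
      zero_mul, mul_zero, smul_smul] at this
    rw [Finset.sum_smul]
    exact this
  · apply faithful_ep h
    have := congrArg (fun z => ep (T := T) r c * (z * (em (T := T) r c * (r h₀ * ep (T := T) r c)))) hz
    simp only [Finset.sum_mul, Finset.mul_sum, smul_mul_assoc, mul_smul_comm, compress12 h,
      zero_mul, mul_zero, smul_smul] at this
    rw [Finset.sum_smul]
    exact this
  · have := congrArg (fun z => ep (T := T) r c * (r g₀ * (em (T := T) r c * (z * ep (T := T) r c)))) hz
    simp only [Finset.sum_mul, Finset.mul_sum, smul_mul_assoc, mul_smul_comm, compress21 h,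
      zero_mul, mul_zero, smul_smul] at this
    have h2 : (xT t c g₀ h₀ * ∑ i ∈ s, m i * rep h (g i) 1 0) • ep (T := T) r c = 0 := by
      rw [Finset.mul_sum, Finset.sum_smul, ← this]
      refine Finset.sum_congr rfl fun i _ => ?_
      congr 1; ring
    have h3 := faithful_ep h _ h2
    exact (h.ux.mul_right_eq_zero).mp h3
  · apply faithful_em h
    have := congrArg (fun z => em (T := T) r c * (z * em (T := T) r c)) hz
    simp only [Finset.sum_mul, Finset.mul_sum, smul_mul_assoc, mul_smul_comm, compress22 h,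
      zero_mul, mul_zero, smul_smul] at this
    rw [Finset.sum_smul]
    exact this

/-- **(CL+), summary** -/
theorem exists_rep (h : Input r t d c g₀ h₀) :
    ∃ ρ : G →* Matrix (Fin 2) (Fin 2) T, (∀ g, (ρ g).trace = t g) ∧ (∀ g, (ρ g).det = d g) ∧
      ∀ {ι : Type} (s : Finset ι) (m : ι → T) (g : ι → G),
        ∑ i ∈ s, m i • r (g i) = 0 → ∑ i ∈ s, m i • ρ (g i) = 0 :=
  ⟨rep h, trace_rep h, det_rep h, fun s m g hz => sum_rep_eq_zero h s m g hz⟩

end Core

end Fermat.Agent.S43.Rho.CH
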