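import Mathlib

/-!
# PROJECT R (S43), block L1: Artin–Rees for a local algebra inside a finite module

`R` a Noetherian local ring, `T` a local `R`-algebra with local structure map, `E` a finite
`R`-module and `φ : T →ₗ[R] E` injective (e.g. `T ⊆ End_R(Λ)`).  Then there is `k` such that
`φ s ∈ 𝔪_R ^ (n + k) E` forces `s ∈ 𝔪_T ^ n` (`exists_shift`): the `𝔪_T`-adic topology of `T` is
induced by the `𝔪_R`-adic topology of `E`.
-/

set_option autoImplicit false

namespace Fermat.Agent.S43.Rho.ArtinRees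

open IsLocalRing

variable {R : Type*} [CommRing R] [IsLocalRing R] [IsNoetherianRing R]
  {T : Type*} [CommRing T] [IsLocalRing T] [Algebra R T] [IsLocalHom (algebraMap R T)]
  {E : Type*} [AddCommGroup E] [Module R E] [Module.Finite R E]

omit [IsNoetherianRing R] in
/-- `𝔪_R ^ n T ⊆ 𝔪_T ^ n` -/
theorem mem_pow_of_mem_smul_top {n : ℕ} {s : T}
    (hs : s ∈ (maximalIdeal R ^ n) • (⊤ : Submodule R T)) : s ∈ maximalIdeal T ^ n := by
  rw [Ideal.smul_top_eq_map] at hs
  have h5 : s ∈ (maximalIdeal R ^ n).map (algebraMap R T) := hs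
  rw [Ideal.map_pow] at h5
  refine Ideal.pow_right_mono ?_ n h5
  rw [Ideal.map_le_iff_le_comap]
  intro a ha
  exact Ideal.mem_comap.mpr (map_nonunit (algebraMap R T) a ha)

/-- **Artin–Rees**: the `𝔪_T`-adic topology of `T` is induced from `E` -/
theorem exists_shift (φ : T →ₗ[R] E) (hinj : Function.Injective φ) :
    ∃ k : ℕ, ∀ n : ℕ, ∀ s : T,
      φ s ∈ (maximalIdeal R ^ (n + k)) • (⊤ : Submodule R E) → s ∈ maximalIdeal T ^ n := by
  obtain ⟨k, hk⟩ := Ideal.exists_pow_inf_eq_pow_smul (maximalIdeal R) (LinearMap.range φ)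
  refine ⟨k, fun n s h1 => ?_⟩
  have h3 : φ s ∈ (maximalIdeal R ^ (n + k)) • (⊤ : Submodule R E) ⊓ LinearMap.range φ :=
    ⟨h1, ⟨s, rfl⟩⟩
  rw [hk (n + k) (Nat.le_add_left k n), Nat.add_sub_cancel] at h3
  have h4 : φ s ∈ (maximalIdeal R ^ n) • LinearMap.range φ :=
    Submodule.smul_mono le_rfl inf_le_right h3
  rw [LinearMap.range_eq_map, ← Submodule.map_smul''] at h4
  obtain ⟨t, ht, hts⟩ := h4
  have hst : t = s := hinj hts
  rw [hst] at ht
  exact mem_pow_of_mem_smul_top ht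

end Fermat.Agent.S43.Rho.ArtinRees
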