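import Fermat.Agent.S43.Rho.OfMat
import Fermat.Agent.S43.Rho.ArtinRees
import Fermat.Agent.S31.Core
import Fermat.Agent.Lib.FrobeniusExists

/-!
# PROJECT R (S43), block L1, route (gamma): `ρ_T : GaloisRepAdic T` from the matrix representation

`𝒪` a Noetherian local ring, `Λ` a finite `𝒪`-module, `T` a commutative local `𝒪`-algebra acting
faithfully on `Λ` (`ι : T →ₐ[𝒪] End_𝒪 Λ` injective), `t : Γ → T` the trace function
(`ι (t g) = g + ε(g) g⁻¹` in the application), continuous in the sense of `Rho/Dens`: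
for every `n` there is a finite `L` such that `ι (t (u g) - t g) ∈ smallEnd (𝔪_𝒪 ^ n)` for all `g` and
all `u` fixing `L`.  `rT : Γ →* M₂(T)` the representation of `Rho/CH`, with entries

`rT g = !![a g, x g h₀; v * x g₀ g, dd g]`,  `a g = (t g + t (g c)) / 2`,
`dd g = (t g - t (g c)) / 2`, `x g h = a (g h) - a g * a h`.

* `tcont` : `t (u g) - t g ∈ 𝔪_T ^ n` for `u` fixing a finite normal `L` (Artin–Rees);
* `entries_mem` : the entries of `rT σ - 1` lie in an ideal `I` as soon as `t (u g) - t g ∈ I` for all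
  conjugates `u` of `σ`;
* `matAdicContinuous` ; `rhoT := ofMat rT _ : GaloisRepAdic T`, `trace_rhoT`, `det_rhoT`.
-/

set_option autoImplicit false

noncomputable section

namespace Fermat.Agent.S43.Rho.RhoT

open IsLocalRing Matrix
open Fermat.Agent.S31.Core (smallEnd mem_smallEnd)
open Fermat.Agent.S43.Rho.OfMat (MatAdicContinuous ofMat trace_ofMat det_ofMat)

local notation "Γ" => AlgebraicClosure ℚ ≃ₐ[ℚ] AlgebraicClosure ℚ

local notation "Qb" => AlgebraicClosure ℚ

/-! ### The entries -/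

section entries

variable {G : Type*} [Group G] {T : Type*} [CommRing T] (t : G → T) (half : T) (c : G)

/-- `a g = (t g + t (g c)) / 2` -/
def aF (g : G) : T := half * (t g + t (g * c))

/-- `dd g = (t g - t (g c)) / 2` -/
def ddF (g : G) : T := half * (t g - t (g * c))

/-- `x g h = a (g h) - a g * a h` -/
def xF (g h : G) : T := aF t half c (g * h) - aF t half c g * aF t half c h

theorem aF_add_ddF (hhalf : 2 * half = 1) (g : G) : aF t half c g + ddF t half c g = t g := by
  unfold aF ddF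
  calc half * (t g + t (g * c)) + half * (t g - t (g * c)) = (2 * half) * t g := by ring
    _ = t g := by rw [hhalf, one_mul]

variable (I : Ideal T) (U : Set G) (hconj : ∀ σ ∈ U, ∀ g : G, g * σ * g⁻¹ ∈ U)
  (hU : ∀ σ ∈ U, ∀ g : G, t (σ * g) - t g ∈ I)

include hU in
theorem aF_left_mem {σ : G} (hσ : σ ∈ U) (g : G) :
    aF t half c (σ * g) - aF t half c g ∈ I := by
  have h1 := hU σ hσ g
  have h2 := hU σ hσ (g * c)
  have e : aF t half c (σ * g) - aF t half c g =
      half * ((t (σ * g) - t g) + (t (σ * (g * c)) - t (g * c))) := by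
    unfold aF
    rw [mul_assoc σ g c]
    ring
  rw [e]
  exact I.mul_mem_left _ (I.add_mem h1 h2)

include hU in
theorem ddF_left_mem {σ : G} (hσ : σ ∈ U) (g : G) :
    ddF t half c (σ * g) - ddF t half c g ∈ I := by
  have h1 := hU σ hσ g
  have h2 := hU σ hσ (g * c)
  have e : ddF t half c (σ * g) - ddF t half c g =
      half * ((t (σ * g) - t g) - (t (σ * (g * c)) - t (g * c))) := by
    unfold ddF
    rw [mul_assoc σ g c]
    ring
  rw [e]
  exact I.mul_mem_left _ (I.sub_mem h1 h2)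

include hconj hU in
theorem aF_right_mem {σ : G} (hσ : σ ∈ U) (g : G) :
    aF t half c (g * σ) - aF t half c g ∈ I := by
  have e : g * σ = (g * σ * g⁻¹) * g := by group
  rw [e]
  exact aF_left_mem t half c I U hU (hconj σ hσ g) g

include hconj hU in
/-- the entries of `rT σ - rT 1`, in terms of `t` -/
theorem entries_mem {σ : G} (hσ : σ ∈ U) (g₀ h₀ : G) :
    aF t half c σ - aF t half c 1 ∈ I ∧ ddF t half c σ - ddF t half c 1 ∈ I ∧
      xF t half c σ h₀ - xF t half c 1 h₀ ∈ I ∧ xF t half c g₀ σ - xF t half c g₀ 1 ∈ I := by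
  have ha : aF t half c σ - aF t half c 1 ∈ I := by
    have := aF_left_mem t half c I U hU hσ 1
    rwa [mul_one] at this
  have hd : ddF t half c σ - ddF t half c 1 ∈ I := by
    have := ddF_left_mem t half c I U hU hσ 1
    rwa [mul_one] at this
  refine ⟨ha, hd, ?_, ?_⟩
  · have h1 := aF_left_mem t half c I U hU hσ h₀
    have e : xF t half c σ h₀ - xF t half c 1 h₀ =
        (aF t half c (σ * h₀) - aF t half c h₀) -
          (aF t half c σ - aF t half c 1) * aF t half c h₀ := by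
      unfold xF
      rw [one_mul]
      ring
    rw [e]
    exact I.sub_mem h1 (I.mul_mem_right _ ha)
  · have h1 := aF_right_mem t half c I U hconj hU hσ g₀
    have e : xF t half c g₀ σ - xF t half c g₀ 1 =
        (aF t half c (g₀ * σ) - aF t half c g₀) -
          aF t half c g₀ * (aF t half c σ - aF t half c 1) := by
      unfold xF
      rw [mul_one]
      ring
    rw [e]
    exact I.sub_mem h1 (I.mul_mem_left _ ha)

end entries

/-! ### Continuity of the trace function for the `𝔪_T`-adic topology -/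

section tcont

variable {𝒪 : Type*} [CommRing 𝒪] [IsLocalRing 𝒪] [IsNoetherianRing 𝒪]
  {Lam : Type*} [AddCommGroup Lam] [Module 𝒪 Lam] [Module.Finite 𝒪 Lam]
  {T : Type*} [CommRing T] [IsLocalRing T] [Algebra 𝒪 T] [IsLocalHom (algebraMap 𝒪 T)]
  (ι : T →ₐ[𝒪] Module.End 𝒪 Lam) (hι : Function.Injective ι)

omit [IsLocalRing 𝒪] [IsNoetherianRing 𝒪] [Module.Finite 𝒪 Lam] in
/-- a family with all coordinates in `I Λ` lies in `I • ⊤` -/
theorem mem_smul_top_pi {m : ℕ} (I : Ideal 𝒪) (x : Fin m → Lam)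
    (hx : ∀ i, x i ∈ I • (⊤ : Submodule 𝒪 Lam)) : x ∈ I • (⊤ : Submodule 𝒪 (Fin m → Lam)) := by
  classical
  have hsum : x = ∑ i, (LinearMap.single 𝒪 (fun _ : Fin m => Lam) i) (x i) := by
    funext j
    rw [Finset.sum_apply]
    simp only [LinearMap.coe_single]
    rw [Finset.sum_eq_single j]
    · rw [Pi.single_eq_same]
    · intro i _ hij
      rw [Pi.single_eq_of_ne hij.symm]
    · intro h
      exact absurd (Finset.mem_univ j) h
  rw [hsum]
  refine Submodule.sum_mem _ (fun i _ => ?_)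
  have h2 : (LinearMap.single 𝒪 (fun _ : Fin m => Lam) i) (x i) ∈
      (I • (⊤ : Submodule 𝒪 Lam)).map (LinearMap.single 𝒪 (fun _ : Fin m => Lam) i) :=
    Submodule.mem_map_of_mem (hx i)
  rw [Submodule.map_smul''] at h2
  exact Submodule.smul_mono le_rfl le_top h2

include hι in
/-- **Artin–Rees for `T ⊆ End_𝒪 Λ`**: elements of `T` that are small on `Λ` are small in `T` -/
theorem exists_shift_smallEnd :
    ∃ k : ℕ, ∀ n : ℕ, ∀ s : T,
      ι s ∈ smallEnd (V := Lam) (maximalIdeal 𝒪 ^ (n + k)) → s ∈ maximalIdeal T ^ n := by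
  obtain ⟨m, v, hv⟩ := Module.Finite.exists_fin (R := 𝒪) (M := Lam)
  -- evaluation at the generators
  let φ : T →ₗ[𝒪] (Fin m → Lam) :=
    { toFun := fun s i => ι s (v i)
      map_add' := fun s s' => by
        funext i
        rw [map_add, LinearMap.add_apply, Pi.add_apply]
      map_smul' := fun a s => by
        funext i
        rw [map_smul, LinearMap.smul_apply, RingHom.id_apply, Pi.smul_apply] }
  have hφ : Function.Injective φ := by
    intro s s' hss'
    apply hι
    apply LinearMap.ext_on_range hv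
    intro i
    exact congrFun hss' i
  obtain ⟨k, hk⟩ := ArtinRees.exists_shift φ hφ
  refine ⟨k, fun n s hs => hk n s ?_⟩
  exact mem_smul_top_pi _ _ (fun i => hs (v i))

variable (t : Γ → T)
  (htc : ∀ n : ℕ, ∃ L : IntermediateField ℚ Qb, FiniteDimensional ℚ L ∧
    ∀ u : Γ, (∀ x ∈ L, u x = x) → ∀ g : Γ,
      ι (t (u * g) - t g) ∈ smallEnd (V := Lam) (maximalIdeal 𝒪 ^ n))

include hι htc in
/-- **continuity of `t` for the `𝔪_T`-adic topology**, on a set of `u` stable under conjugation -/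
theorem tcont (n : ℕ) :
    ∃ L : IntermediateField ℚ Qb, FiniteDimensional ℚ L ∧
      (∀ σ : Γ, (∀ x ∈ L, σ x = x) → ∀ g : Γ, ∀ x ∈ L, (g * σ * g⁻¹) x = x) ∧
      ∀ u : Γ, (∀ x ∈ L, u x = x) → ∀ g : Γ, t (u * g) - t g ∈ maximalIdeal T ^ n := by
  obtain ⟨k, hk⟩ := exists_shift_smallEnd ι hι
  obtain ⟨L, hLfin, hL⟩ := htc (n + k)
  have : FiniteDimensional ℚ L := hLfin
  have : Normal ℚ Qb := IsAlgClosure.normal ℚ Qb
  have hnormal : Normal ℚ (IntermediateField.normalClosure ℚ L Qb) :=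
    normalClosure.normal ℚ L Qb
  refine ⟨IntermediateField.normalClosure ℚ L Qb, normalClosure.is_finiteDimensional ℚ L Qb,
    ?_, ?_⟩
  · intro σ hσ g x hx
    have hstab := IntermediateField.normal_iff_forall_map_le'.mp hnormal g⁻¹
    have hx' : g⁻¹ x ∈ IntermediateField.normalClosure ℚ L Qb :=
      hstab ⟨x, hx, rfl⟩
    show g (σ (g⁻¹ x)) = x
    rw [hσ _ hx']
    show (g * g⁻¹) x = x
    rw [mul_inv_cancel]
    rfl
  · intro u hu g
    exact hk n _ (hL u (fun x hx => hu x (IntermediateField.le_normalClosure L hx)) g)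

end tcont

/-! ### The representation `ρ_T` -/

section rhoT

variable {𝒪 : Type*} [CommRing 𝒪] [IsLocalRing 𝒪] [IsNoetherianRing 𝒪]
  {Lam : Type*} [AddCommGroup Lam] [Module 𝒪 Lam] [Module.Finite 𝒪 Lam]
  {T : Type} [CommRing T] [IsLocalRing T] [Algebra 𝒪 T] [IsLocalHom (algebraMap 𝒪 T)]
  (ι : T →ₐ[𝒪] Module.End 𝒪 Lam) (hι : Function.Injective ι) (t : Γ → T)
  (htc : ∀ n : ℕ, ∃ L : IntermediateField ℚ Qb, FiniteDimensional ℚ L ∧
    ∀ u : Γ, (∀ x ∈ L, u x = x) → ∀ g : Γ,
      ι (t (u * g) - t g) ∈ smallEnd (V := Lam) (maximalIdeal 𝒪 ^ n))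
  (half : T) (c g₀ h₀ : Γ) (v : T) (rT : Γ →* Matrix (Fin 2) (Fin 2) T)
  (hrT : ∀ g, rT g =
    !![aF t half c g, xF t half c g h₀; v * xF t half c g₀ g, ddF t half c g])

include hι htc hrT in
/-- **the matrix representation of `Rho/CH` is adically continuous** -/
theorem matAdicContinuous : MatAdicContinuous rT := by
  intro n
  obtain ⟨L, hLfin, hconj, hL⟩ := tcont ι hι t htc n
  refine ⟨L, hLfin, fun σ hσ a b => ?_⟩
  have hent := entries_mem t half c (maximalIdeal T ^ n) {σ : Γ | ∀ x ∈ L, σ x = x}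
    (fun σ hσ g => hconj σ hσ g) (fun σ hσ g => hL σ hσ g) (σ := σ) hσ g₀ h₀
  have h1 : (rT σ - 1) a b = (rT σ) a b - (rT 1) a b := by
    rw [map_one, Matrix.sub_apply]
  rw [h1, hrT σ, hrT 1]
  fin_cases a <;> fin_cases b
  · exact hent.1
  · exact hent.2.2.1
  · show v * xF t half c g₀ σ - v * xF t half c g₀ 1 ∈ maximalIdeal T ^ n
    rw [← mul_sub]
    exact Ideal.mul_mem_left _ _ hent.2.2.2
  · exact hent.2.1

/-- **`ρ_T`**, as a `GaloisRepAdic T` -/
def rhoT : GaloisRepAdic T :=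
  ofMat rT (matAdicContinuous ι hι t htc half c g₀ h₀ v rT hrT)

theorem rhoT_ρ (σ : Γ) :
    (rhoT ι hι t htc half c g₀ h₀ v rT hrT).ρ σ = Matrix.toLin' (rT σ) := rfl

theorem trace_rhoT (hhalf : 2 * half = 1) (σ : Γ) :
    (rhoT ι hι t htc half c g₀ h₀ v rT hrT).trace σ = t σ := by
  unfold rhoT
  rw [trace_ofMat, Matrix.trace_fin_two, hrT σ]
  exact aF_add_ddF t half c hhalf σ

theorem det_rhoT (d : Γ → T) (hd : ∀ g, (rT g).det = d g) (σ : Γ) :
    (((rhoT ι hι t htc half c g₀ h₀ v rT hrT).det σ : Tˣ) : T) = d σ := by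
  unfold rhoT
  rw [det_ofMat, hd]

/-- the kernel of `ρ_T` is the kernel of the matrix representation -/
theorem rhoT_eq_one_iff (σ : Γ) :
    (rhoT ι hι t htc half c g₀ h₀ v rT hrT).ρ σ = 1 ↔ rT σ = 1 := by
  rw [rhoT_ρ]
  constructor
  · intro h
    apply (Matrix.toLin' (R := T) (m := Fin 2) (n := Fin 2)).injective
    rw [h, Matrix.toLin'_one]
    rfl
  · intro h
    rw [h, Matrix.toLin'_one]
    rfl

end rhoT

/-! ### Specialisations of `ρ_T` by formula -/

section special

variable {G : Type*} [Group G] {T : Type*} [CommRing T] (t : G → T) (half : T) (c g₀ h₀ : G) (v : T)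
  {R : Type*} [CommRing R] (π : T →+* R) (r : G →* Matrix (Fin 2) (Fin 2) R)

theorem trace_mul_c (hc : r c = !![1, 0; 0, -1]) (g : G) :
    Matrix.trace (r (g * c)) = r g 0 0 - r g 1 1 := by
  rw [map_mul, hc, Matrix.trace_fin_two, Matrix.mul_apply, Matrix.mul_apply, Fin.sum_univ_two,
    Fin.sum_univ_two]
  simp
  ring

variable (ht : ∀ g, π (t g) = Matrix.trace (r g)) (hc : r c = !![1, 0; 0, -1])
  (hhalf : 2 * half = 1)

include ht hc hhalf

theorem map_aF (g : G) : π (aF t half c g) = r g 0 0 := by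
  have h2 : (2 : R) * π half = 1 := by
    have := congrArg π hhalf
    rwa [map_mul, map_ofNat, map_one] at this
  unfold aF
  rw [map_mul, map_add, ht, ht, trace_mul_c c r hc, Matrix.trace_fin_two]
  calc π half * (r g 0 0 + r g 1 1 + (r g 0 0 - r g 1 1)) = (2 * π half) * r g 0 0 := by ring
    _ = r g 0 0 := by rw [h2, one_mul]

theorem map_ddF (g : G) : π (ddF t half c g) = r g 1 1 := by
  have h2 : (2 : R) * π half = 1 := by
    have := congrArg π hhalf
    rwa [map_mul, map_ofNat, map_one] at this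
  unfold ddF
  rw [map_mul, map_sub, ht, ht, trace_mul_c c r hc, Matrix.trace_fin_two]
  calc π half * (r g 0 0 + r g 1 1 - (r g 0 0 - r g 1 1)) = (2 * π half) * r g 1 1 := by ring
    _ = r g 1 1 := by rw [h2, one_mul]

theorem map_xF (g h : G) : π (xF t half c g h) = r g 0 1 * r h 1 0 := by
  unfold xF
  rw [map_sub, map_mul, map_aF t half c π r ht hc hhalf, map_aF t half c π r ht hc hhalf,
    map_aF t half c π r ht hc hhalf, map_mul, Matrix.mul_apply, Fin.sum_univ_two]
  ring

variable (huv : xF t half c g₀ h₀ * v = 1)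

include huv

/-- `β γ` is a unit: `(π v * b(g₀)) * c(h₀) = 1` -/
theorem nu_beta_mul_gamma : (π v * r g₀ 0 1) * r h₀ 1 0 = 1 := by
  have h := congrArg π huv
  rw [map_mul, map_one, map_xF t half c π r ht hc hhalf] at h
  rw [← h]
  ring

/-- **the image of the matrix of `Rho/CH` under `π` is a diagonal conjugate of `r`**, for every
ring homomorphism `π` and every matrix representation `r` with `tr r = π ∘ t` and
`r c = diag(1, -1)`: residual representation, points of `T`, quotients of `T`. -/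
theorem map_matrix (g : G) :
    (!![aF t half c g, xF t half c g h₀; v * xF t half c g₀ g, ddF t half c g] :
      Matrix (Fin 2) (Fin 2) T).map π =
      Matrix.diagonal ![1, π v * r g₀ 0 1] * r g * Matrix.diagonal ![1, r h₀ 1 0] := by
  have hβγ := nu_beta_mul_gamma t half c g₀ h₀ v π r ht hc hhalf huv
  have ha := map_aF t half c π r ht hc hhalf g
  have hd := map_ddF t half c π r ht hc hhalf g
  have hb := map_xF t half c π r ht hc hhalf g h₀
  have hcc := map_xF t half c π r ht hc hhalf g₀ g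
  ext i j
  rw [Matrix.mul_diagonal, Matrix.diagonal_mul, Matrix.map_apply]
  fin_cases i <;> fin_cases j
  · show π (aF t half c g) = 1 * r g 0 0 * 1
    rw [ha]; ring
  · show π (xF t half c g h₀) = 1 * r g 0 1 * r h₀ 1 0
    rw [hb]; ring
  · show π (v * xF t half c g₀ g) = (π v * r g₀ 0 1) * r g 1 0 * 1
    rw [map_mul, hcc]; ring
  · show π (ddF t half c g) = (π v * r g₀ 0 1) * r g 1 1 * r h₀ 1 0
    rw [hd]
    calc r g 1 1 = ((π v * r g₀ 0 1) * r h₀ 1 0) * r g 1 1 := by rw [hβγ, one_mul]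
      _ = _ := by ring

end special

/-! ### Base changes of `ρ_T`, in the Prelude's vocabulary -/

section baseChange

open Fermat.Agent.S43.Rho.OfMat (matHom trace_matHom isEquiv_baseChangeAlong_ofMat)

theorem diag_mul_diag_eq_one {R : Type*} [CommRing R] {β γ : R} (h : β * γ = 1) :
    (Matrix.diagonal ![1, β] : Matrix (Fin 2) (Fin 2) R) * Matrix.diagonal ![1, γ] = 1 := by
  rw [Matrix.diagonal_mul_diagonal, ← Matrix.diagonal_one]
  congr 1
  funext i
  fin_cases i <;> simp [h]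

variable {𝒪 : Type*} [CommRing 𝒪] [IsLocalRing 𝒪] [IsNoetherianRing 𝒪]
  {Lam : Type*} [AddCommGroup Lam] [Module 𝒪 Lam] [Module.Finite 𝒪 Lam]
  {T : Type} [CommRing T] [IsLocalRing T] [Algebra 𝒪 T] [IsLocalHom (algebraMap 𝒪 T)]
  (ι : T →ₐ[𝒪] Module.End 𝒪 Lam) (hι : Function.Injective ι) (t : Γ → T)
  (htc : ∀ n : ℕ, ∃ L : IntermediateField ℚ Qb, FiniteDimensional ℚ L ∧
    ∀ u : Γ, (∀ x ∈ L, u x = x) → ∀ g : Γ,
      ι (t (u * g) - t g) ∈ smallEnd (V := Lam) (maximalIdeal 𝒪 ^ n))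
  (half : T) (c g₀ h₀ : Γ) (v : T) (rT : Γ →* Matrix (Fin 2) (Fin 2) T)
  (hrT : ∀ g, rT g =
    !![aF t half c g, xF t half c g h₀; v * xF t half c g₀ g, ddF t half c g])

/-- **every representation with the traces `f ∘ t`, in a basis diagonalising `c`, is the base change
of `ρ_T`**: `B` a local ring, `f : T →+* B` local, `ρ' : GaloisRepAdic B` with
`tr ρ' = f ∘ t` and `ρ'(c) = diag(1, -1)` in the basis `b`.  With `B = k` the residue field and
`ρ' = ρ̄ ⊗ k` this is `ρ_T mod 𝔪 = ρ̄`; with `B = T ⧸ I` it identifies the quotients. -/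
theorem isEquiv_baseChangeAlong_rhoT (hhalf : 2 * half = 1)
    (huv : xF t half c g₀ h₀ * v = 1) {B : Type} [CommRing B] [IsLocalRing B] (f : T →+* B)
    (hf : IsLocalHom f) (ρ' : GaloisRepAdic B) (b : Module.Basis (Fin 2) B ρ'.V)
    (htr : ∀ g, f (t g) = ρ'.trace g) (hcb : matHom b ρ'.ρ c = !![1, 0; 0, -1]) :
    ((rhoT ι hι t htc half c g₀ h₀ v rT hrT).baseChangeAlong f hf).IsEquiv ρ' := by
  have ht' : ∀ g, f (t g) = Matrix.trace (matHom b ρ'.ρ g) := fun g => by
    rw [htr g]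
    exact (trace_matHom b ρ'.ρ g).symm
  have hβγ := nu_beta_mul_gamma t half c g₀ h₀ v f (matHom b ρ'.ρ) ht' hcb hhalf huv
  have hγβ : matHom b ρ'.ρ h₀ 1 0 * (f v * matHom b ρ'.ρ g₀ 0 1) = 1 := by
    rw [mul_comm]; exact hβγ
  let P : (Matrix (Fin 2) (Fin 2) B)ˣ :=
    ⟨Matrix.diagonal ![1, matHom b ρ'.ρ h₀ 1 0],
      Matrix.diagonal ![1, f v * matHom b ρ'.ρ g₀ 0 1],
      diag_mul_diag_eq_one hγβ, diag_mul_diag_eq_one hβγ⟩
  refine isEquiv_baseChangeAlong_ofMat rT _ f hf ρ' b P (fun σ => ?_)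
  rw [hrT σ]
  exact map_matrix t half c g₀ h₀ v f (matHom b ρ'.ρ) ht' hcb hhalf huv σ

end baseChange

end Fermat.Agent.S43.Rho.RhoT

end
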