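/-
PROJECT R (S43), block L1 (architect helper22), brick Rho/Dens (helper27):
THE TRACE FUNCTION `t(g) = g + ε(g) g⁻¹` TAKES ITS VALUES IN THE HECKE ALGEBRA.

Abstract setting (nothing about modular curves): `R₀` a commutative ring with an ideal `I₀`
(think `𝒪 ⊇ 𝔪_𝒪`), `Λ` an `R₀`-module with an action `r` of `G_ℚ` that is continuous at every level
`I₀ⁿ`, a character `ε` (think: the `p`-adic cyclotomic character), and a subalgebra
`T ⊆ End_{R₀}(Λ)` commuting with `r`, CLOSED for the `I₀`-adic topology, such that at every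
Frobenius element `τ` at a prime `ℓ ∉ Sg` the Eichler–Shimura relation
`r(τ)² - a r(τ) + ℓ = 0` holds with some `a ∈ T` and `ε(τ) = ℓ`.  (`Datum`.)

RESULTS
* `cayley` : `r(g)² - t(g) r(g) + ε(g) = 0`, a tautology;
* `tr_mem` : `t(g) ∈ T` for EVERY `g` (Frobenius density `S30/Density/Bridge` + closedness; the
  `ρ`-free twin of main's `S31/Core.exists_approx`);
* `tr_one`, `tr_inv`, `tr_mul_comm`, `tr_conj`, `tr_of_involution` : formal properties;
* `tr_cont`, `tr_cont_normal`, `tr_cont_smul_top` : `t(u g) ≡ t(g) ≡ t(g u)` modulo `I₀ⁿ` for `u`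
  fixing a suitable finite (Galois) extension of `ℚ`;
* `smallEnd_eq_smul_top`, `mem_of_forall_approx` : for `R₀` Noetherian, `I₀` in the Jacobson
  radical and `Λ` finite free, EVERY submodule of `End Λ` is closed (the `closed` field);
* `not_isUnit_of_mem_smallEnd` : elements of `T` with image in `I₀ Λ` are non-units (`Λ ≠ 0`);
* `tr_residual` : if `π : T → k` kills `T ∩ {f | f Λ ⊆ I₀ Λ}` and `ρ̄` has characteristic polynomial
  `X² - π(t(τ)) X + ℓ` at the Frobenius elements, then `π(t(g)) = tr ρ̄(g)` for every `g`;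
* `tT`, `dT`, `rT`, `cayley_apply` : the same data with values in `T`, `Tˣ`, `End_T(Λ)`
  (the binders of `Rho/CH.lean`).
-/
import Mathlib
import Fermat.Agent.S31.Core
import Fermat.Agent.S30.Density.Bridge

set_option autoImplicit false
set_option linter.unusedSectionVars false
set_option linter.style.haveILetI false

noncomputable section

namespace Fermat.Agent.S43.Rho.Dens

open Fermat.Agent.S31.Core
open Fermat.Agent.S30.Algebra.DetGalois (Density inv_mul_apply_eq)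

/-- Frobenius density holds for every finite set of primes. -/
theorem density (Sg : Finset ℕ) : Density Sg := fun L hL σ =>
  haveI := hL
  Fermat.Agent.S30.Density.Bridge.frobenius_density_final L σ Sg

variable {R₀ : Type*} [CommRing R₀] {Λ : Type*} [AddCommGroup Λ] [Module R₀ Λ]

/-- The hypotheses of the density brick. -/
structure Datum (Sg : Finset ℕ) (I₀ : Ideal R₀) (r : GQ →* Module.End R₀ Λ) (ε : GQ →* R₀)
    (T : Subalgebra R₀ (Module.End R₀ Λ)) : Prop where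
  cont_r : ∀ n : ℕ, ∃ L : IntermediateField ℚ Qbar, FiniteDimensional ℚ L ∧
    ∀ u : GQ, (∀ x ∈ L, u x = x) → ∀ v : Λ, r u v - v ∈ (I₀ ^ n) • (⊤ : Submodule R₀ Λ)
  cont_ε : ∀ n : ℕ, ∃ L : IntermediateField ℚ Qbar, FiniteDimensional ℚ L ∧
    ∀ u : GQ, (∀ x ∈ L, u x = x) → ε u - 1 ∈ I₀ ^ n
  frob_ε : ∀ ℓ : ℕ, ℓ.Prime → ℓ ∉ Sg → ∀ A : ValuationSubring Qbar, A.LiesOverPrime ℓ →
    ∀ τ : GQ, A.IsFrobeniusAt τ ℓ → ε τ = (ℓ : R₀)
  comm : ∀ x ∈ T, ∀ g : GQ, Commute x (r g)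
  es : ∀ ℓ : ℕ, ℓ.Prime → ℓ ∉ Sg → ∀ A : ValuationSubring Qbar, A.LiesOverPrime ℓ →
    ∀ τ : GQ, A.IsFrobeniusAt τ ℓ →
      ∃ a ∈ T, r τ * r τ - a * r τ + ((ℓ : ℕ) : Module.End R₀ Λ) = 0
  closed : ∀ x : Module.End R₀ Λ,
    (∀ n : ℕ, ∃ b ∈ T, x - b ∈ smallEnd (V := Λ) (I₀ ^ n)) → x ∈ T

variable {Sg : Finset ℕ} {I₀ : Ideal R₀} {r : GQ →* Module.End R₀ Λ} {ε : GQ →* R₀}
  {T : Subalgebra R₀ (Module.End R₀ Λ)}

/-- The trace function `t(g) = g + ε(g) g⁻¹`. -/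
def tr (r : GQ →* Module.End R₀ Λ) (ε : GQ →* R₀) (g : GQ) : Module.End R₀ Λ :=
  r g + ε g • r g⁻¹

theorem r_mul_inv (g : GQ) : r g * r g⁻¹ = 1 := by rw [← map_mul, mul_inv_cancel, map_one]

theorem r_inv_mul (g : GQ) : r g⁻¹ * r g = 1 := by rw [← map_mul, inv_mul_cancel, map_one]

/-- Cayley–Hamilton, tautologically. -/
theorem cayley (g : GQ) : r g * r g - tr r ε g * r g + ε g • (1 : Module.End R₀ Λ) = 0 := by
  rw [tr, add_mul, smul_mul_assoc, r_inv_mul]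
  abel

theorem tr_mul_r (g : GQ) : tr r ε g * r g = r g * r g + ε g • (1 : Module.End R₀ Λ) := by
  rw [tr, add_mul, smul_mul_assoc, r_inv_mul]

/-- At a Frobenius element the coefficient of the Eichler–Shimura relation is `t(τ)`. -/
theorem eq_tr_of_es {τ : GQ} {ℓ : ℕ} {a : Module.End R₀ Λ} (hε : ε τ = (ℓ : R₀))
    (hes : r τ * r τ - a * r τ + ((ℓ : ℕ) : Module.End R₀ Λ) = 0) : a = tr r ε τ := by
  have h1 := congrArg (· * r τ⁻¹) hes
  simp only [add_mul, sub_mul, zero_mul, mul_assoc, r_mul_inv, mul_one] at h1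
  have h2 : ((ℓ : ℕ) : Module.End R₀ Λ) * r τ⁻¹ = (ℓ : R₀) • r τ⁻¹ := by
    rw [← map_natCast (algebraMap R₀ (Module.End R₀ Λ)), Algebra.algebraMap_eq_smul_one,
      smul_mul_assoc, one_mul]
  rw [h2] at h1
  rw [tr, hε, ← sub_eq_zero, ← neg_eq_zero, ← h1]
  abel

/-- The trace of a Frobenius element lies in `T`. -/
theorem tr_frob_mem (h : Datum Sg I₀ r ε T) {ℓ : ℕ} (hℓ : ℓ.Prime) (hℓS : ℓ ∉ Sg)
    {A : ValuationSubring Qbar} (hA : A.LiesOverPrime ℓ) {τ : GQ} (hτ : A.IsFrobeniusAt τ ℓ) :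
    tr r ε τ ∈ T := by
  obtain ⟨a, haT, hes⟩ := h.es ℓ hℓ hℓS A hA τ hτ
  rw [← eq_tr_of_es (h.frob_ε ℓ hℓ hℓS A hA τ hτ) hes]
  exact haT

/-- The Eichler–Shimura relation with `t(τ)` as coefficient. -/
theorem es_tr (τ : GQ) {ℓ : ℕ} (hε : ε τ = (ℓ : R₀)) :
    r τ * r τ - tr r ε τ * r τ + ((ℓ : ℕ) : Module.End R₀ Λ) = 0 := by
  have h1 := cayley (r := r) (ε := ε) τ
  rw [hε] at h1
  rw [← h1, ← map_natCast (algebraMap R₀ (Module.End R₀ Λ)), Algebra.algebraMap_eq_smul_one]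

theorem lucas_mem {a : Module.End R₀ Λ} (haT : a ∈ T) (ℓ : ℕ) (i : ℕ) :
    lucas a ((ℓ : ℕ) : Module.End R₀ Λ) i ∈ T := by
  have key : ∀ i, lucas a ((ℓ : ℕ) : Module.End R₀ Λ) i ∈ T ∧
      lucas a ((ℓ : ℕ) : Module.End R₀ Λ) (i + 1) ∈ T := by
    intro i
    induction i with
    | zero =>
      refine ⟨?_, ?_⟩
      · rw [lucas_zero]
        exact ofNat_mem T 2
      · rw [zero_add, lucas_one]
        exact haT
    | succ i ih =>
      refine ⟨ih.2, ?_⟩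
      rw [lucas_add_two]
      exact T.sub_mem (T.mul_mem haT ih.2) (T.mul_mem (natCast_mem T ℓ) ih.1)
  exact (key i).1

/-- **Approximation, with the Frobenius witness.**  For every `g`, every level `n` and every
finite extension `L'` of `ℚ` there are a prime `ℓ ∉ Sg`, a Frobenius element `τ` at `ℓ` and `k, j`
with `τ = g ^ k` and `(g ^ k) ^ j = g` on `L'`, and `t(g) ≡ V_j(t(τ), ℓ)` modulo `I₀ⁿ`. -/
theorem exists_approx_frob (h : Datum Sg I₀ r ε T) (L' : IntermediateField ℚ Qbar)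
    [FiniteDimensional ℚ L'] (g : GQ) (n : ℕ) :
    ∃ (ℓ : ℕ) (A : ValuationSubring Qbar) (τ : GQ) (k j : ℕ), ℓ.Prime ∧ ℓ ∉ Sg ∧
      A.LiesOverPrime ℓ ∧ A.IsFrobeniusAt τ ℓ ∧ (∀ x ∈ L', τ x = (g ^ k) x) ∧
      (∀ x ∈ L', ((g ^ k) ^ j) x = g x) ∧ tr r ε τ ∈ T ∧
      tr r ε g - lucas (tr r ε τ) ((ℓ : ℕ) : Module.End R₀ Λ) j ∈ smallEnd (V := Λ) (I₀ ^ n) := by
  obtain ⟨Lr, hLr, hr⟩ := h.cont_r n
  obtain ⟨Lε, hLε, hε⟩ := h.cont_ε n
  haveI := hLr
  haveI := hLε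
  haveI : FiniteDimensional ℚ ↥(Lr ⊔ Lε) := IntermediateField.finiteDimensional_sup _ _
  obtain ⟨ℓ, hℓ, hℓS, A, τ, k, j, hA, hτ, h1, h2⟩ :=
    density Sg (Lr ⊔ Lε ⊔ L') (IntermediateField.finiteDimensional_sup _ _) g
  have hLr' : Lr ≤ Lr ⊔ Lε ⊔ L' := le_sup_of_le_left le_sup_left
  have hLε' : Lε ≤ Lr ⊔ Lε ⊔ L' := le_sup_of_le_left le_sup_right
  have hL' : L' ≤ Lr ⊔ Lε ⊔ L' := le_sup_right
  refine ⟨ℓ, A, τ, k, j, hℓ, hℓS, hA, hτ, fun x hx => h1 x (hL' hx), fun x hx => h2 x (hL' hx),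
    tr_frob_mem h hℓ hℓS hA hτ, ?_⟩
  set u₁ : GQ := (g ^ k)⁻¹ * τ with hu₁
  set u₂ : GQ := ((g ^ k) ^ j)⁻¹ * g with hu₂
  have hu₁L : ∀ x ∈ Lr ⊔ Lε ⊔ L', u₁ x = x := fun x hx => inv_mul_apply_eq _ _ x (h1 x hx)
  have hu₂L : ∀ x ∈ Lr ⊔ Lε ⊔ L', u₂ x = x := fun x hx =>
    inv_mul_apply_eq _ _ x (h2 x hx).symm
  have hτeq : τ = g ^ k * u₁ := by rw [hu₁, mul_inv_cancel_left]
  have hgeq : g = (g ^ k) ^ j * u₂ := by rw [hu₂, mul_inv_cancel_left]
  have hsm : ∀ u : GQ, (∀ x ∈ Lr ⊔ Lε ⊔ L', u x = x) →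
      r u - 1 ∈ (smallEnd (V := Λ) (I₀ ^ n)).toAddSubgroup := fun u hu v => by
    rw [LinearMap.sub_apply, Module.End.one_apply]
    exact hr u (fun x hx => hu x (hLr' hx)) v
  have hsmε : ∀ u : GQ, (∀ x ∈ Lr ⊔ Lε ⊔ L', u x = x) →
      ε u - 1 ∈ (I₀ ^ n).toAddSubgroup := fun u hu =>
    hε u (fun x hx => hu x (hLε' hx))
  have c1 : r g - r τ ^ j ∈ (smallEnd (V := Λ) (I₀ ^ n)).toAddSubgroup :=
    (isTwoSided_smallEnd _).hom_sub_pow r g τ u₁ u₂ k j hτeq hgeq (hsm u₁ hu₁L) (hsm u₂ hu₂L)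
  have c3 : ε g - ε τ ^ j ∈ (I₀ ^ n).toAddSubgroup :=
    (isTwoSided_ideal _).hom_sub_pow ε g τ u₁ u₂ k j hτeq hgeq (hsmε u₁ hu₁L) (hsmε u₂ hu₂L)
  have hετ := h.frob_ε ℓ hℓ hℓS A hA τ hτ
  rw [hετ] at c3
  have haT := tr_frob_mem h hℓ hℓS hA hτ
  have hes := es_tr (r := r) (ε := ε) τ hετ
  set a := tr r ε τ with ha
  have hex := pow_mul_pow_sub_lucas_of_commute (r τ) a ℓ (h.comm a haT τ) hes j
  have hcast : ((ℓ : ℕ) : Module.End R₀ Λ) ^ j = ((ℓ : R₀) ^ j) • (1 : Module.End R₀ Λ) := by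
    rw [← Algebra.algebraMap_eq_smul_one, map_pow, map_natCast]
  set x := r τ ^ j with hx
  set B := lucas a ((ℓ : ℕ) : Module.End R₀ Λ) j with hB
  rw [hcast] at hex
  have hS := isTwoSided_smallEnd (V := Λ) (I₀ ^ n)
  have t1 : r g * r g - x * x ∈ (smallEnd (V := Λ) (I₀ ^ n)).toAddSubgroup :=
    hS.mul_sub_mul c1 c1
  have t2 : B * (r g - x) ∈ (smallEnd (V := Λ) (I₀ ^ n)).toAddSubgroup := hS.mul_left B c1
  have t3 : (ε g - (ℓ : R₀) ^ j) • (1 : Module.End R₀ Λ) ∈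
      (smallEnd (V := Λ) (I₀ ^ n)).toAddSubgroup := smul_one_mem_smallEnd c3
  have hquad : r g * r g - B * r g + ε g • (1 : Module.End R₀ Λ) ∈
      (smallEnd (V := Λ) (I₀ ^ n)).toAddSubgroup := by
    have : r g * r g - B * r g + ε g • (1 : Module.End R₀ Λ) =
        (r g * r g - x * x) - B * (r g - x) + (ε g - (ℓ : R₀) ^ j) • (1 : Module.End R₀ Λ)
          + (x * x - B * x + ((ℓ : R₀) ^ j) • (1 : Module.End R₀ Λ)) := by
      rw [mul_sub, sub_smul]
      abel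
    rw [this, hex, add_zero]
    exact AddSubgroup.add_mem _ (AddSubgroup.sub_mem _ t1 t2) t3
  -- divide by `r g`
  have hdiv : tr r ε g - B = (r g * r g - B * r g + ε g • (1 : Module.End R₀ Λ)) * r g⁻¹ := by
    rw [add_mul, sub_mul, mul_assoc, mul_assoc, r_mul_inv, mul_one, mul_one, smul_mul_assoc,
      one_mul, tr]
    abel
  rw [hdiv]
  exact hS.mul_right _ hquad

/-- **Approximation.**  For every `g` and `n` there is `b ∈ T` with `t(g) ≡ b` modulo `I₀ⁿ`. -/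
theorem exists_approx (h : Datum Sg I₀ r ε T) (g : GQ) (n : ℕ) :
    ∃ b ∈ T, tr r ε g - b ∈ smallEnd (V := Λ) (I₀ ^ n) := by
  obtain ⟨ℓ, A, τ, k, j, -, -, -, -, -, -, haT, happ⟩ :=
    exists_approx_frob h (⊥ : IntermediateField ℚ Qbar) g n
  exact ⟨_, lucas_mem haT ℓ j, happ⟩

/-- **Density.**  `t(g) = g + ε(g) g⁻¹` lies in `T` for every `g`. -/
theorem tr_mem (h : Datum Sg I₀ r ε T) (g : GQ) : tr r ε g ∈ T :=
  h.closed _ fun n => exists_approx h g n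

/-! ### Formal properties of the trace function -/

theorem tr_one : tr r ε 1 = 2 := by
  rw [tr, inv_one, map_one, map_one, one_smul, one_add_one_eq_two]

theorem tr_inv (g : GQ) : ε g • tr r ε g⁻¹ = tr r ε g := by
  rw [tr, tr, inv_inv, smul_add, smul_smul, ← map_mul, mul_inv_cancel, map_one, one_smul, add_comm]

/-- The trace of an involution of determinant `-1` vanishes (complex conjugation). -/
theorem tr_of_involution {c : GQ} (hc : c * c = 1) (hε : ε c = -1) : tr r ε c = 0 := by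
  have hinv : c⁻¹ = c := inv_eq_of_mul_eq_one_left hc
  rw [tr, hinv, hε, neg_one_smul, add_neg_cancel]

/-- `t(g h) = t(h g)`, a consequence of `t(h g) ∈ T` and the commutation of `T` with `r`. -/
theorem tr_mul_comm (h : Datum Sg I₀ r ε T) (g k : GQ) : tr r ε (g * k) = tr r ε (k * g) := by
  have hc : Commute (tr r ε (k * g)) (r k) := h.comm _ (tr_mem h (k * g)) k
  have h1 : tr r ε (g * k) = r k⁻¹ * tr r ε (k * g) * r k := by
    rw [tr, tr, mul_add, add_mul, mul_smul_comm, smul_mul_assoc]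
    congr 1
    · rw [← map_mul, ← map_mul]
      congr 1
      group
    · rw [← map_mul, ← map_mul, map_mul ε, map_mul ε, mul_comm (ε k)]
      congr 2
      group
  rw [h1, mul_assoc, hc.eq, ← mul_assoc, r_inv_mul, one_mul]

/-- `t` is a class function. -/
theorem tr_conj (h : Datum Sg I₀ r ε T) (g k : GQ) : tr r ε (k * g * k⁻¹) = tr r ε g := by
  rw [tr_mul_comm h, ← mul_assoc, inv_mul_cancel, one_mul]

/-! ### Continuity of the trace function -/

theorem sub_one_mem_smallEnd_of_fixes {n : ℕ} {Lr : IntermediateField ℚ Qbar}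
    (hr : ∀ u : GQ, (∀ x ∈ Lr, u x = x) → ∀ v : Λ, r u v - v ∈ (I₀ ^ n) • (⊤ : Submodule R₀ Λ))
    (u : GQ) (hu : ∀ x ∈ Lr, u x = x) : r u - 1 ∈ smallEnd (V := Λ) (I₀ ^ n) := fun v => by
  rw [LinearMap.sub_apply, Module.End.one_apply]
  exact hr u hu v

theorem inv_fixes {L : IntermediateField ℚ Qbar} (u : GQ) (hu : ∀ x ∈ L, u x = x) :
    ∀ x ∈ L, u⁻¹ x = x := fun x hx => by
  conv_lhs => rw [← hu x hx]
  change (u⁻¹ * u) x = x
  rw [inv_mul_cancel]
  rfl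

/-- `ε(u) r(u)⁻¹ ≡ 1` when `u` is trivial at level `n`. -/
theorem smul_inv_sub_one_mem {n : ℕ} {u : GQ} (h1 : r u⁻¹ - 1 ∈ smallEnd (V := Λ) (I₀ ^ n))
    (h2 : ε u - 1 ∈ I₀ ^ n) : ε u • r u⁻¹ - 1 ∈ smallEnd (V := Λ) (I₀ ^ n) := by
  have : ε u • r u⁻¹ - 1 = (ε u - 1) • (1 : Module.End R₀ Λ) * r u⁻¹ + (r u⁻¹ - 1) := by
    rw [smul_mul_assoc, one_mul, sub_smul, one_smul]
    abel
  rw [this]
  exact Submodule.add_mem _ (mul_mem_smallEnd_right _ (smul_one_mem_smallEnd h2)) h1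

/-- **Continuity of `t`**: at every level `n` there is a finite extension `L` of `ℚ` such that
`t(u g) ≡ t(g) ≡ t(g u)` modulo `I₀ⁿ` for every `g` and every `u` fixing `L`. -/
theorem tr_cont (h : Datum Sg I₀ r ε T) (n : ℕ) :
    ∃ L : IntermediateField ℚ Qbar, FiniteDimensional ℚ L ∧
      ∀ u : GQ, (∀ x ∈ L, u x = x) → ∀ g : GQ,
        tr r ε (u * g) - tr r ε g ∈ smallEnd (V := Λ) (I₀ ^ n) ∧
        tr r ε (g * u) - tr r ε g ∈ smallEnd (V := Λ) (I₀ ^ n) := by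
  obtain ⟨Lr, hLr, hr⟩ := h.cont_r n
  obtain ⟨Lε, hLε, hε⟩ := h.cont_ε n
  haveI := hLr
  haveI := hLε
  refine ⟨Lr ⊔ Lε, IntermediateField.finiteDimensional_sup _ _, fun u hu g => ?_⟩
  have hur : ∀ x ∈ Lr, u x = x := fun x hx => hu x ((le_sup_left : Lr ≤ Lr ⊔ Lε) hx)
  have huε : ∀ x ∈ Lε, u x = x := fun x hx => hu x ((le_sup_right : Lε ≤ Lr ⊔ Lε) hx)
  have a1 : r u - 1 ∈ smallEnd (V := Λ) (I₀ ^ n) := sub_one_mem_smallEnd_of_fixes hr u hur
  have a2 : r u⁻¹ - 1 ∈ smallEnd (V := Λ) (I₀ ^ n) :=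
    sub_one_mem_smallEnd_of_fixes hr u⁻¹ (inv_fixes u hur)
  have a3 : ε u • r u⁻¹ - 1 ∈ smallEnd (V := Λ) (I₀ ^ n) := smul_inv_sub_one_mem a2 (hε u huε)
  constructor
  · have : tr r ε (u * g) - tr r ε g =
        (r u - 1) * r g + ε g • (r g⁻¹ * (ε u • r u⁻¹ - 1)) := by
      rw [tr, tr, mul_inv_rev, map_mul, map_mul, map_mul, sub_mul, one_mul, mul_sub, mul_one,
        mul_smul_comm, smul_sub, smul_smul, mul_comm (ε g)]
      abel
    rw [this]
    exact Submodule.add_mem _ (mul_mem_smallEnd_right _ a1)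
      (Submodule.smul_mem _ _ (mul_mem_smallEnd_left _ a3))
  · have : tr r ε (g * u) - tr r ε g =
        r g * (r u - 1) + ε g • ((ε u • r u⁻¹ - 1) * r g⁻¹) := by
      rw [tr, tr, mul_inv_rev, map_mul, map_mul, map_mul, mul_sub, mul_one, sub_mul, one_mul,
        smul_mul_assoc, smul_sub, smul_smul]
      abel
    rw [this]
    exact Submodule.add_mem _ (mul_mem_smallEnd_left _ a1)
      (Submodule.smul_mem _ _ (mul_mem_smallEnd_right _ a3))

/-! ### Closedness of submodules of `End Λ` -/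

section Closed

/-- For `Λ` finite free, an endomorphism with image in `I Λ` lies in `I • End Λ`. -/
theorem smallEnd_le_smul_top [Module.Free R₀ Λ] [Module.Finite R₀ Λ] (I : Ideal R₀) :
    smallEnd (V := Λ) I ≤ I • (⊤ : Submodule R₀ (Module.End R₀ Λ)) := by
  classical
  intro f hf
  let b := Module.Free.chooseBasis R₀ Λ
  have h1 : f = Matrix.toLin b b (LinearMap.toMatrix b b f) := (Matrix.toLin_toMatrix b b f).symm
  rw [h1, Matrix.matrix_eq_sum_single (LinearMap.toMatrix b b f), map_sum]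
  refine Submodule.sum_mem _ fun i _ => ?_
  rw [map_sum]
  refine Submodule.sum_mem _ fun j _ => ?_
  have h2 : Matrix.single i j (LinearMap.toMatrix b b f i j) =
      (LinearMap.toMatrix b b f i j) • Matrix.single i j (1 : R₀) := by
    rw [Matrix.smul_single, smul_eq_mul, mul_one]
  rw [h2, map_smul]
  refine Submodule.smul_mem_smul ?_ Submodule.mem_top
  rw [LinearMap.toMatrix_apply]
  exact Fermat.Agent.S30.Algebra.DetLemma.End.repr_mem_of_mem_smul_top b I _ (hf (b j)) i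

theorem smul_top_le_smallEnd (I : Ideal R₀) :
    I • (⊤ : Submodule R₀ (Module.End R₀ Λ)) ≤ smallEnd (V := Λ) I := by
  rw [Submodule.smul_le]
  intro a ha f _ v
  rw [LinearMap.smul_apply]
  exact Submodule.smul_mem_smul ha Submodule.mem_top

theorem smallEnd_eq_smul_top [Module.Free R₀ Λ] [Module.Finite R₀ Λ] (I : Ideal R₀) :
    smallEnd (V := Λ) I = I • (⊤ : Submodule R₀ (Module.End R₀ Λ)) :=
  le_antisymm (smallEnd_le_smul_top I) (smul_top_le_smallEnd I)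

/-- **Closedness.**  Over a Noetherian ring, with `I₀` in the Jacobson radical and `Λ` finite
free, every submodule of `End Λ` is closed for the `I₀`-adic topology. -/
theorem mem_of_forall_approx [IsNoetherianRing R₀] [Module.Free R₀ Λ] [Module.Finite R₀ Λ]
    (hI : I₀ ≤ Ideal.jacobson ⊥) (N : Submodule R₀ (Module.End R₀ Λ)) (x : Module.End R₀ Λ)
    (hx : ∀ n : ℕ, ∃ b ∈ N, x - b ∈ smallEnd (V := Λ) (I₀ ^ n)) : x ∈ N := by
  haveI : Module.Finite R₀ (Module.End R₀ Λ) := Module.Finite.linearMap R₀ R₀ Λ Λ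
  have hK := Ideal.iInf_pow_smul_eq_bot_of_le_jacobson (M := Module.End R₀ Λ ⧸ N) I₀ hI
  have hmem : N.mkQ x ∈ (⨅ i : ℕ, I₀ ^ i • ⊤ : Submodule R₀ (Module.End R₀ Λ ⧸ N)) := by
    rw [Submodule.mem_iInf]
    intro n
    obtain ⟨b, hb, hxb⟩ := hx n
    have h1 : N.mkQ x = N.mkQ (x - b) := by
      rw [map_sub, (Submodule.mkQ_apply N b).trans ((Submodule.Quotient.mk_eq_zero N).2 hb),
        sub_zero]
    rw [h1]
    have h2 := smallEnd_le_smul_top (Λ := Λ) (I₀ ^ n) hxb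
    have h3 : (I₀ ^ n • (⊤ : Submodule R₀ (Module.End R₀ Λ))).map N.mkQ ≤
        I₀ ^ n • (⊤ : Submodule R₀ (Module.End R₀ Λ ⧸ N)) := by
      rw [Submodule.map_smul'']
      exact Submodule.smul_mono le_rfl le_top
    exact h3 (Submodule.mem_map_of_mem h2)
  rw [hK, Submodule.mem_bot, Submodule.mkQ_apply, Submodule.Quotient.mk_eq_zero] at hmem
  exact hmem

/-- The `closed` field of `Datum`, for every subalgebra. -/
theorem closed_subalgebra [IsNoetherianRing R₀] [Module.Free R₀ Λ] [Module.Finite R₀ Λ]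
    (hI : I₀ ≤ Ideal.jacobson ⊥) (T : Subalgebra R₀ (Module.End R₀ Λ)) (x : Module.End R₀ Λ)
    (hx : ∀ n : ℕ, ∃ b ∈ T, x - b ∈ smallEnd (V := Λ) (I₀ ^ n)) : x ∈ T :=
  (Subalgebra.mem_toSubmodule T).1 (mem_of_forall_approx hI (Subalgebra.toSubmodule T) x
    fun n => (hx n).imp fun _ hb => ⟨(Subalgebra.mem_toSubmodule T).2 hb.1, hb.2⟩)

/-- In a local ring every proper ideal lies in the Jacobson radical. -/
theorem le_jacobson_bot_of_ne_top [IsLocalRing R₀] (hI : I₀ ≠ ⊤) : I₀ ≤ Ideal.jacobson ⊥ :=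
  (IsLocalRing.le_maximalIdeal hI).trans (IsLocalRing.maximalIdeal_le_jacobson _)

end Closed

/-! ### Variants of the continuity statement -/

/-- `tr_cont` with a Galois level. -/
theorem tr_cont_normal (h : Datum Sg I₀ r ε T) (n : ℕ) :
    ∃ L : IntermediateField ℚ Qbar, FiniteDimensional ℚ L ∧ Normal ℚ L ∧
      ∀ u : GQ, (∀ x ∈ L, u x = x) → ∀ g : GQ,
        tr r ε (u * g) - tr r ε g ∈ smallEnd (V := Λ) (I₀ ^ n) ∧
        tr r ε (g * u) - tr r ε g ∈ smallEnd (V := Λ) (I₀ ^ n) := by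
  obtain ⟨L, hL, hLt⟩ := tr_cont h n
  haveI := hL
  refine ⟨IntermediateField.normalClosure ℚ L Qbar, normalClosure.is_finiteDimensional ℚ L Qbar,
    normalClosure.normal ℚ L Qbar, fun u hu g => hLt u (fun x hx => hu x ?_) g⟩
  exact IntermediateField.le_normalClosure L hx

/-- `tr_cont` in the form `∈ I₀ⁿ • End Λ`, for `Λ` finite free. -/
theorem tr_cont_smul_top [Module.Free R₀ Λ] [Module.Finite R₀ Λ] (h : Datum Sg I₀ r ε T)
    (n : ℕ) :
    ∃ L : IntermediateField ℚ Qbar, FiniteDimensional ℚ L ∧ Normal ℚ L ∧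
      ∀ u : GQ, (∀ x ∈ L, u x = x) → ∀ g : GQ,
        tr r ε (u * g) - tr r ε g ∈ I₀ ^ n • (⊤ : Submodule R₀ (Module.End R₀ Λ)) ∧
        tr r ε (g * u) - tr r ε g ∈ I₀ ^ n • (⊤ : Submodule R₀ (Module.End R₀ Λ)) := by
  obtain ⟨L, hL, hN, hLt⟩ := tr_cont_normal h n
  exact ⟨L, hL, hN, fun u hu g =>
    ⟨smallEnd_le_smul_top _ (hLt u hu g).1, smallEnd_le_smul_top _ (hLt u hu g).2⟩⟩

/-! ### Elements of `T` that are small are not units -/

/-- If `Λ ≠ 0` is finitely generated and `I₀` lies in the Jacobson radical, an element of `T`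
with image in `I₀ Λ` is not a unit of `T` (Nakayama). -/
theorem not_isUnit_of_mem_smallEnd [Module.Finite R₀ Λ] [Nontrivial Λ]
    (hI : I₀ ≤ Ideal.jacobson ⊥) (x : T) (hx : (x : Module.End R₀ Λ) ∈ smallEnd (V := Λ) I₀) :
    ¬ IsUnit x := by
  rintro ⟨u, rfl⟩
  have htop : (⊤ : Submodule R₀ Λ) ≤ I₀ • (⊤ : Submodule R₀ Λ) := by
    intro v _
    have h1 : ((u : T) : Module.End R₀ Λ) ((((u⁻¹ : Tˣ) : T) : Module.End R₀ Λ) v) = v := by
      rw [← Module.End.mul_apply, ← Subalgebra.coe_mul, Units.mul_inv, Subalgebra.coe_one,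
        Module.End.one_apply]
    rw [← h1]
    exact hx _
  have hbot := Submodule.eq_bot_of_le_smul_of_le_jacobson_bot I₀ (⊤ : Submodule R₀ Λ)
    Module.Finite.fg_top htop hI
  obtain ⟨v, hv⟩ := exists_ne (0 : Λ)
  exact hv ((Submodule.mem_bot R₀).1 (hbot ▸ Submodule.mem_top))

/-! ### The data with values in `T` -/

section TValued

/-- `t(g)` as an element of `T`. -/
def tT (h : Datum Sg I₀ r ε T) (g : GQ) : T := ⟨tr r ε g, tr_mem h g⟩

@[simp] theorem coe_tT (h : Datum Sg I₀ r ε T) (g : GQ) :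
    ((tT h g : T) : Module.End R₀ Λ) = tr r ε g := rfl

/-- The determinant character with values in `Tˣ`. -/
def dT (ε : GQ →* R₀) (T : Subalgebra R₀ (Module.End R₀ Λ)) : GQ →* Tˣ :=
  (Units.map (algebraMap R₀ T).toMonoidHom).comp ε.toHomUnits

theorem coe_dT (g : GQ) :
    (((dT ε T g : Tˣ) : T) : Module.End R₀ Λ) = ε g • (1 : Module.End R₀ Λ) := by
  change ((algebraMap R₀ T (ε g) : T) : Module.End R₀ Λ) = _
  rw [Subalgebra.coe_algebraMap, Algebra.algebraMap_eq_smul_one]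

theorem tT_one (h : Datum Sg I₀ r ε T) : tT h 1 = 2 := Subtype.ext (tr_one.trans rfl)

theorem tT_mul_comm (h : Datum Sg I₀ r ε T) (g k : GQ) : tT h (g * k) = tT h (k * g) :=
  Subtype.ext (tr_mul_comm h g k)

theorem tT_conj (h : Datum Sg I₀ r ε T) (g k : GQ) : tT h (k * g * k⁻¹) = tT h g :=
  Subtype.ext (tr_conj h g k)

/-- The Galois action as a `T`-linear action (`T` acts on `Λ` through `End Λ`). -/
def rT (h : Datum Sg I₀ r ε T) : GQ →* Module.End T Λ where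
  toFun g :=
    { toFun := fun v => r g v
      map_add' := fun v w => map_add _ v w
      map_smul' := fun x v => by
        change r g ((x : Module.End R₀ Λ) v) = (x : Module.End R₀ Λ) (r g v)
        exact (LinearMap.congr_fun (h.comm x x.2 g).eq v).symm }
  map_one' := by
    ext v
    change r 1 v = v
    rw [map_one, Module.End.one_apply]
  map_mul' g k := by
    ext v
    change r (g * k) v = r g (r k v)
    rw [map_mul, Module.End.mul_apply]

@[simp] theorem rT_apply (h : Datum Sg I₀ r ε T) (g : GQ) (v : Λ) : rT h g v = r g v := rfl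

/-- Cayley–Hamilton on `Λ`, with coefficients in `T`. -/
theorem cayley_apply (h : Datum Sg I₀ r ε T) (g : GQ) (v : Λ) :
    r g (r g v) - tT h g • r g v + ((dT ε T g : Tˣ) : T) • v = 0 := by
  have h1 := LinearMap.congr_fun (cayley (r := r) (ε := ε) g) v
  rw [LinearMap.add_apply, LinearMap.sub_apply, Module.End.mul_apply, Module.End.mul_apply,
    LinearMap.zero_apply] at h1
  have h2 : ((dT ε T g : Tˣ) : T) • v = (ε g • (1 : Module.End R₀ Λ)) v := by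
    rw [← coe_dT (T := T) g]
    rfl
  rw [h2]
  exact h1

end TValued

/-! ### The residual trace -/

section Residual

open Polynomial

variable {k : Type} [Field k]

/-- The image of a Lucas element under a ring homomorphism `T → k`. -/
theorem map_lucas_subalgebra (π : T →+* k) {a : Module.End R₀ Λ} (haT : a ∈ T) (ℓ j : ℕ) :
    π ⟨lucas a ((ℓ : ℕ) : Module.End R₀ Λ) j, lucas_mem haT ℓ j⟩ =
      lucas (π ⟨a, haT⟩) ((ℓ : ℕ) : k) j := by
  have h1 : (⟨lucas a ((ℓ : ℕ) : Module.End R₀ Λ) j, lucas_mem haT ℓ j⟩ : T) =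
      lucas (⟨a, haT⟩ : T) ((ℓ : ℕ) : T) j := by
    apply Subtype.ext
    have h2 := map_lucas T.val.toRingHom (⟨a, haT⟩ : T) ((ℓ : ℕ) : T) j
    rw [map_natCast] at h2
    exact h2.symm
  rw [h1, map_lucas, map_natCast]

/-- **`t mod 𝔪 = tr ρ̄`.**  Let `π : T → k` be a ring homomorphism killing the elements of `T`
with image in `I₀ Λ`, and `ρ̄` a residual representation whose characteristic polynomial at every
Frobenius element `τ` at `ℓ ∉ Sg` is `X² - π(t(τ)) X + ℓ`.  Then `π(t(g)) = tr ρ̄(g)` for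
every `g`. -/
theorem tr_residual (h : Datum Sg I₀ r ε T) (π : T →+* k)
    (hπ : ∀ x : T, (x : Module.End R₀ Λ) ∈ smallEnd (V := Λ) I₀ → π x = 0)
    (rbar : ResidualGaloisRep k)
    (hfrob : ∀ ℓ : ℕ, ℓ.Prime → ℓ ∉ Sg → ∀ A : ValuationSubring Qbar, A.LiesOverPrime ℓ →
      ∀ τ : GQ, A.IsFrobeniusAt τ ℓ → ∀ hτ : tr r ε τ ∈ T,
        LinearMap.charpoly (rbar.ρ τ) = X ^ 2 - C (π ⟨tr r ε τ, hτ⟩) * X + C ((ℓ : ℕ) : k))
    (g : GQ) : π ⟨tr r ε g, tr_mem h g⟩ = LinearMap.trace k rbar.V (rbar.ρ g) := by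
  obtain ⟨L, hL, hLρ⟩ := rbar.factorsThroughFiniteLevel
  haveI := hL
  obtain ⟨ℓ, A, τ, m, j, hℓ, hℓS, hA, hτ, h1, h2, haT, happ⟩ := exists_approx_frob h L g 1
  rw [pow_one] at happ
  -- the left-hand side
  have e1 : π ⟨tr r ε g, tr_mem h g⟩ = lucas (π ⟨tr r ε τ, haT⟩) ((ℓ : ℕ) : k) j := by
    rw [← map_lucas_subalgebra π haT ℓ j, ← sub_eq_zero, ← map_sub]
    exact hπ _ happ
  -- the right-hand side
  have hu₁ : rbar.ρ ((g ^ m)⁻¹ * τ) = 1 := hLρ _ fun x hx => inv_mul_apply_eq _ _ x (h1 x hx)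
  have hu₂ : rbar.ρ (((g ^ m) ^ j)⁻¹ * g) = 1 :=
    hLρ _ fun x hx => inv_mul_apply_eq _ _ x (h2 x hx).symm
  have e2 : rbar.ρ τ = rbar.ρ (g ^ m) := by
    have : τ = g ^ m * ((g ^ m)⁻¹ * τ) := by rw [mul_inv_cancel_left]
    rw [this, map_mul, hu₁, mul_one]
  have e3 : rbar.ρ g = rbar.ρ τ ^ j := by
    have : g = (g ^ m) ^ j * (((g ^ m) ^ j)⁻¹ * g) := by rw [mul_inv_cancel_left]
    rw [e2, ← map_pow]
    conv_lhs => rw [this, map_mul, hu₂, mul_one]
  haveI : Module.Free k rbar.V := Module.Free.of_divisionRing k rbar.V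
  rw [e1, e3, trace_pow_eq_lucas rbar.finrank_eq (rbar.ρ τ) _ _
    (hfrob ℓ hℓ hℓS A hA τ hτ haT) j]

end Residual

end Fermat.Agent.S43.Rho.Dens
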