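/-
PROJECT R (S43), block L1 (architect helper22), brick Rho/Units (helper27):
THE TWO UNITS OF `CH.Input` FROM THE RESIDUAL REPRESENTATION.

`k` a field with `2` invertible, `V` a `k`-vector space of dimension two, `ρ : G →* End_k(V)` and
`c : G` with `c * c = 1`, `det ρ(c) = -1`.  Then `ρ(c)` is diagonalisable with eigenvalues `1, -1`
(`exists_basis_of_involution`), and in such a basis `b` the functions `aT dT xT yT` of `Rho/CH`
attached to the trace function `tb g = tr ρ(g)` are matrix entries (`M g` the matrix of `ρ g`):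
`aT = M₀₀`, `dT = M₁₁`, `xT g h = M₀₁(g) M₁₀(h)`, `yT h g = M₁₀(h) M₀₁(g)`.
If the `ρ g` span `End_k(V)` (absolute irreducibility, main's `S53/Centralizer`) there are `g₀, h₀`
with `xT tb c g₀ h₀ ≠ 0` and `yT tb c h₀ g₀ ≠ 0` (`exists_units_of_span`, `exists_units`).
Ring homomorphisms commute with the four formulas (`map_aT` … `map_yT`), so for `T` local and
`π : T →+* k` a local homomorphism with `π ∘ t = tb`, the elements `xT t c g₀ h₀`, `yT t c h₀ g₀`
are units of `T` (`isUnit_xT`, `isUnit_yT`): the clauses `ux`, `uy` of `CH.Input`.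
-/
import Mathlib
import Fermat.Prelude.Def_GaloisRep_Residual
import Fermat.Agent.S53.Centralizer
import Fermat.Agent.S43.Rho.CH

set_option autoImplicit false
set_option linter.unusedSectionVars false

noncomputable section

namespace Fermat.Agent.S43.Rho.Units

open Fermat.Agent.S43.Rho.CH Matrix

/-! ### Diagonalising an involution of determinant `-1` -/

section Involution

variable {k : Type*} [Field k] [Invertible (2 : k)] {V : Type*} [AddCommGroup V] [Module k V]

theorem two_ne_zero' : (2 : k) ≠ 0 := Invertible.ne_zero 2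

theorem neg_one_ne_one : (-1 : k) ≠ 1 := by
  intro h
  apply two_ne_zero' (k := k)
  have : (2 : k) = 1 - (-1) := by ring
  rw [this, h, sub_self]

/-- An involution of determinant `-1` of a plane has a basis of eigenvectors for `1, -1`. -/
theorem exists_basis_of_involution (h2 : Module.finrank k V = 2) (f : Module.End k V)
    (hf : f * f = 1) (hdet : LinearMap.det f = -1) :
    ∃ b : Module.Basis (Fin 2) k V, f (b 0) = b 0 ∧ f (b 1) = -b 1 := by
  have hff : ∀ v, f (f v) = v := fun v => by
    rw [← Module.End.mul_apply, hf, Module.End.one_apply]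
  have hne1 : f ≠ 1 := by
    rintro rfl
    rw [map_one] at hdet
    exact neg_one_ne_one (k := k) hdet.symm
  have hneg1 : f ≠ -1 := by
    rintro rfl
    have h1 : (-1 : Module.End k V) = (-1 : k) • (1 : Module.End k V) := by
      rw [neg_one_smul]
    rw [h1, LinearMap.det_smul, h2, map_one] at hdet
    apply neg_one_ne_one (k := k)
    rw [← hdet]
    ring
  obtain ⟨v, hv⟩ : ∃ v, f v ≠ v := by
    by_contra hcon
    push Not at hcon
    exact hne1 (LinearMap.ext fun v => by rw [hcon v, Module.End.one_apply])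
  obtain ⟨v', hv'⟩ : ∃ v', f v' ≠ -v' := by
    by_contra hcon
    push Not at hcon
    exact hneg1 (LinearMap.ext fun v => by rw [hcon v, LinearMap.neg_apply, Module.End.one_apply])
  set wp : V := v' + f v' with hwp
  set wm : V := v - f v with hwm
  have hfp : f wp = wp := by rw [hwp, map_add, hff, add_comm]
  have hfm : f wm = -wm := by rw [hwm, map_sub, hff, neg_sub]
  have hp0 : wp ≠ 0 := by
    intro h
    apply hv'
    rw [hwp] at h
    exact (eq_neg_of_add_eq_zero_right h)
  have hm0 : wm ≠ 0 := by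
    intro h
    apply hv
    rw [hwm] at h
    exact (sub_eq_zero.1 h).symm
  have hli : LinearIndependent k ![wp, wm] := by
    rw [LinearIndependent.pair_iff]
    intro s t hst
    have h3 := congrArg f hst
    rw [map_add, map_smul, map_smul, hfp, hfm, map_zero, smul_neg] at h3
    have h4 : (2 * s) • wp = 0 := by
      have : (2 * s) • wp = (s • wp + t • wm) + (s • wp + -(t • wm)) := by
        rw [mul_smul, two_smul]
        abel
      rw [this, hst, h3, add_zero]
    have h5 : (2 * t) • wm = 0 := by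
      have : (2 * t) • wm = (s • wp + t • wm) - (s • wp + -(t • wm)) := by
        rw [mul_smul, two_smul]
        abel
      rw [this, hst, h3, sub_zero]
    have h6 := (smul_eq_zero.1 h4).resolve_right hp0
    have h7 := (smul_eq_zero.1 h5).resolve_right hm0
    exact ⟨(mul_eq_zero.1 h6).resolve_left two_ne_zero', (mul_eq_zero.1 h7).resolve_left two_ne_zero'⟩
  have hcard : Fintype.card (Fin 2) = Module.finrank k V := by rw [h2, Fintype.card_fin]
  refine ⟨basisOfLinearIndependentOfCardEqFinrank hli hcard, ?_, ?_⟩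
  · rw [coe_basisOfLinearIndependentOfCardEqFinrank]
    exact hfp
  · rw [coe_basisOfLinearIndependentOfCardEqFinrank]
    exact hfm

end Involution

/-! ### The four functions of `Rho/CH` as matrix entries -/

section Entries

variable {k : Type*} [Field k] [Invertible (2 : k)] {V : Type*} [AddCommGroup V] [Module k V]
  {G : Type*} [Group G]

/-- The matrix of `ρ g` in the basis `b`. -/
def mat (b : Module.Basis (Fin 2) k V) (ρ : G →* Module.End k V) (g : G) :
    Matrix (Fin 2) (Fin 2) k :=
  LinearMap.toMatrix b b (ρ g)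

/-- The trace function of `ρ`. -/
def tb (ρ : G →* Module.End k V) (g : G) : k := LinearMap.trace k V (ρ g)

variable (b : Module.Basis (Fin 2) k V) (ρ : G →* Module.End k V)

theorem mat_mul (g h : G) : mat b ρ (g * h) = mat b ρ g * mat b ρ h := by
  rw [mat, map_mul, Module.End.mul_eq_comp, LinearMap.toMatrix_comp b b b]
  rfl

theorem tb_eq (g : G) : tb ρ g = mat b ρ g 0 0 + mat b ρ g 1 1 := by
  rw [tb, LinearMap.trace_eq_matrix_trace k b, Matrix.trace_fin_two]
  rfl

variable {b ρ} {c : G}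

theorem mat_c (hb0 : ρ c (b 0) = b 0) (hb1 : ρ c (b 1) = -b 1) :
    mat b ρ c = !![1, 0; 0, -1] := by
  ext i j
  rw [mat, LinearMap.toMatrix_apply]
  fin_cases j
  · change b.repr (ρ c (b 0)) i = _
    rw [hb0, Module.Basis.repr_self]
    fin_cases i <;> simp
  · change b.repr (ρ c (b 1)) i = _
    rw [hb1, map_neg, Module.Basis.repr_self]
    fin_cases i <;> simp

theorem mat_mul_c (hb0 : ρ c (b 0) = b 0) (hb1 : ρ c (b 1) = -b 1) (g : G) :
    mat b ρ (g * c) = !![mat b ρ g 0 0, -mat b ρ g 0 1; mat b ρ g 1 0, -mat b ρ g 1 1] := by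
  rw [mat_mul, mat_c hb0 hb1]
  ext i j
  fin_cases i <;> fin_cases j <;> simp [Matrix.mul_apply, Fin.sum_univ_two]

theorem tb_mul_c (hb0 : ρ c (b 0) = b 0) (hb1 : ρ c (b 1) = -b 1) (g : G) :
    tb ρ (g * c) = mat b ρ g 0 0 - mat b ρ g 1 1 := by
  rw [tb_eq b, mat_mul_c hb0 hb1]
  simp [sub_eq_add_neg]

theorem aT_tb (hb0 : ρ c (b 0) = b 0) (hb1 : ρ c (b 1) = -b 1) (g : G) :
    aT (tb ρ) c g = mat b ρ g 0 0 := by
  rw [aT, tb_mul_c hb0 hb1, tb_eq b]
  have : mat b ρ g 0 0 + mat b ρ g 1 1 + (mat b ρ g 0 0 - mat b ρ g 1 1) =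
      2 * mat b ρ g 0 0 := by ring
  rw [this, ← mul_assoc, invOf_mul_self, one_mul]

theorem dT_tb (hb0 : ρ c (b 0) = b 0) (hb1 : ρ c (b 1) = -b 1) (g : G) :
    dT (tb ρ) c g = mat b ρ g 1 1 := by
  rw [dT, tb_mul_c hb0 hb1, tb_eq b]
  have : mat b ρ g 0 0 + mat b ρ g 1 1 - (mat b ρ g 0 0 - mat b ρ g 1 1) =
      2 * mat b ρ g 1 1 := by ring
  rw [this, ← mul_assoc, invOf_mul_self, one_mul]

/-- `x(g, h) = M₀₁(g) M₁₀(h)`. -/
theorem xT_tb (hb0 : ρ c (b 0) = b 0) (hb1 : ρ c (b 1) = -b 1) (g h : G) :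
    xT (tb ρ) c g h = mat b ρ g 0 1 * mat b ρ h 1 0 := by
  rw [xT, aT_tb hb0 hb1, aT_tb hb0 hb1, aT_tb hb0 hb1, mat_mul, Matrix.mul_apply,
    Fin.sum_univ_two]
  ring

/-- `y(h, g) = M₁₀(h) M₀₁(g)`. -/
theorem yT_tb (hb0 : ρ c (b 0) = b 0) (hb1 : ρ c (b 1) = -b 1) (h g : G) :
    yT (tb ρ) c h g = mat b ρ h 1 0 * mat b ρ g 0 1 := by
  rw [yT, dT_tb hb0 hb1, dT_tb hb0 hb1, dT_tb hb0 hb1, mat_mul, Matrix.mul_apply,
    Fin.sum_univ_two]
  ring

/-- If the `ρ g` span `End V`, every matrix entry is non-zero at some `g`. -/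
theorem exists_entry_ne_zero (b : Module.Basis (Fin 2) k V) (ρ : G →* Module.End k V)
    (hspan : Submodule.span k (Set.range ρ) = ⊤) (i j : Fin 2) : ∃ g : G, mat b ρ g i j ≠ 0 := by
  by_contra hcon
  push Not at hcon
  let φ : Module.End k V →ₗ[k] k :=
    { toFun := fun S => LinearMap.toMatrix b b S i j
      map_add' := fun S S' => by rw [map_add, Matrix.add_apply]
      map_smul' := fun a S => by rw [map_smul, Matrix.smul_apply, RingHom.id_apply] }
  have hφ : ∀ S : Module.End k V, φ S = 0 := by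
    intro S
    have hS : S ∈ Submodule.span k (Set.range ρ) := hspan ▸ Submodule.mem_top
    induction hS using Submodule.span_induction with
    | mem y hy =>
      obtain ⟨g, rfl⟩ := hy
      exact hcon g
    | zero => exact map_zero φ
    | add y z _ _ hy hz => rw [map_add, hy, hz, add_zero]
    | smul a y _ hy => rw [map_smul, hy, smul_zero]
  have h1 := hφ (Matrix.toLin b b (Matrix.single i j (1 : k)))
  change LinearMap.toMatrix b b (Matrix.toLin b b (Matrix.single i j (1 : k))) i j = 0 at h1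
  rw [LinearMap.toMatrix_toLin, Matrix.single_apply_same] at h1
  exact one_ne_zero h1

/-- **The two units, residually.** -/
theorem exists_units_of_span (ρ : G →* Module.End k V) (h2 : Module.finrank k V = 2)
    (hspan : Submodule.span k (Set.range ρ) = ⊤) (c : G) (hc : c * c = 1)
    (hdet : LinearMap.det (ρ c) = -1) :
    ∃ g₀ h₀ : G, xT (tb ρ) c g₀ h₀ ≠ 0 ∧ yT (tb ρ) c h₀ g₀ ≠ 0 := by
  have hf : ρ c * ρ c = 1 := by rw [← map_mul, hc, map_one]
  obtain ⟨b, hb0, hb1⟩ := exists_basis_of_involution h2 (ρ c) hf hdet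
  obtain ⟨g₀, hg₀⟩ := exists_entry_ne_zero b ρ hspan 0 1
  obtain ⟨h₀, hh₀⟩ := exists_entry_ne_zero b ρ hspan 1 0
  refine ⟨g₀, h₀, ?_, ?_⟩
  · rw [xT_tb hb0 hb1]
    exact mul_ne_zero hg₀ hh₀
  · rw [yT_tb hb0 hb1]
    exact mul_ne_zero hh₀ hg₀

end Entries

/-! ### Ring homomorphisms commute with the four formulas -/

section Map

variable {T : Type*} [CommRing T] [Invertible (2 : T)] {T' : Type*} [CommRing T']
  [Invertible (2 : T')] {G : Type*} [Group G] (π : T →+* T') (t : G → T) (c : G)

theorem map_invOf_two : π (⅟2 : T) = ⅟2 := by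
  have h1 : π (⅟2 : T) * 2 = 1 := by
    rw [← map_ofNat π 2, ← map_mul, invOf_mul_self, map_one]
  calc π (⅟2 : T) = π (⅟2 : T) * (2 * ⅟2) := by rw [mul_invOf_self, mul_one]
    _ = ⅟2 := by rw [← mul_assoc, h1, one_mul]

theorem map_aT (g : G) : π (aT t c g) = aT (fun g => π (t g)) c g := by
  rw [aT, aT, map_mul, map_add, map_invOf_two]

theorem map_dT (g : G) : π (dT t c g) = dT (fun g => π (t g)) c g := by
  rw [dT, dT, map_mul, map_sub, map_invOf_two]

theorem map_xT (g h : G) : π (xT t c g h) = xT (fun g => π (t g)) c g h := by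
  rw [xT, xT, map_sub, map_mul, map_aT, map_aT, map_aT]

theorem map_yT (g h : G) : π (yT t c g h) = yT (fun g => π (t g)) c g h := by
  rw [yT, yT, map_sub, map_mul, map_dT, map_dT, map_dT]

end Map

/-! ### The two units in a local ring -/

section Local

variable {T : Type*} [CommRing T] [Invertible (2 : T)] [IsLocalRing T] {k : Type*} [Field k]
  [Invertible (2 : k)] {G : Type*} [Group G]

theorem isUnit_xT (π : T →+* k) [IsLocalHom π] (t : G → T) (tbar : G → k)
    (ht : ∀ g, π (t g) = tbar g) (c : G) {g h : G} (hx : xT tbar c g h ≠ 0) :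
    IsUnit (xT t c g h) := by
  apply isUnit_of_map_unit π
  rw [map_xT, funext ht]
  exact isUnit_iff_ne_zero.2 hx

theorem isUnit_yT (π : T →+* k) [IsLocalHom π] (t : G → T) (tbar : G → k)
    (ht : ∀ g, π (t g) = tbar g) (c : G) {g h : G} (hy : yT tbar c g h ≠ 0) :
    IsUnit (yT t c g h) := by
  apply isUnit_of_map_unit π
  rw [map_yT, funext ht]
  exact isUnit_iff_ne_zero.2 hy

end Local

/-! ### The residual Galois representation -/

section Residual

local notation "GQ" => (AlgebraicClosure ℚ ≃ₐ[ℚ] AlgebraicClosure ℚ)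

variable {k : Type} [Field k] [Invertible (2 : k)]

/-- **The two units, for an absolutely irreducible odd residual representation.** -/
theorem exists_units (rbar : ResidualGaloisRep k) (habs : rbar.IsAbsolutelyIrreducible) (c : GQ)
    (hc : c * c = 1) (hdet : LinearMap.det (rbar.ρ c) = -1) :
    ∃ g₀ h₀ : GQ, xT (tb rbar.ρ) c g₀ h₀ ≠ 0 ∧ yT (tb rbar.ρ) c h₀ g₀ ≠ 0 :=
  exists_units_of_span rbar.ρ rbar.finrank_eq
    (Fermat.Agent.S53.Centralizer.span_range_eq_top_of_isAbsolutelyIrreducible rbar habs) c hc hdet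

end Residual

end Fermat.Agent.S43.Rho.Units
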