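/-
PROJECT R (S43), block L1 (architect helper22), brick Rho/Glue (helper27):
FROM THE DENSITY DATUM TO THE INPUT OF THE CAYLEY–HAMILTON LEMMA.

`T ⊆ End_{R₀}(Λ)` a COMMUTATIVE subalgebra (`[IsMulCommutative T]`, Mathlib's class; the commutative
ring structure is Mathlib's scoped one) satisfying `Dens.Datum`.  With `2` invertible in `R₀`
and `c` a complex conjugation (`c * c = 1`, `ε c = -1`):

* `pre` : `CH.Pre (rT h) (tT h) (dHom ε T) c` for `E = End_T(Λ)` (faithfulness is tautological,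
  Cayley–Hamilton is `Dens.cayley_apply`);
* `exists_input` : if moreover `T` is local, `π : T →+* k` is a local homomorphism killing the
  elements of `T` with image in `I₀ Λ`, and `ρ̄` is an absolutely irreducible residual
  representation, odd at `c`, with characteristic polynomial `X² - π(t(τ)) X + ℓ` at the Frobenius
  elements, then there are `g₀ h₀` with `CH.Input (rT h) (tT h) (dHom ε T) c g₀ h₀`
  (the two units come from `Dens.tr_residual` and `Units.exists_units`).
-/
import Mathlib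
import Fermat.Agent.S43.Rho.Dens
import Fermat.Agent.S43.Rho.CH
import Fermat.Agent.S43.Rho.Units

set_option autoImplicit false
set_option linter.unusedSectionVars false

noncomputable section

namespace Fermat.Agent.S43.Rho.Glue

open Fermat.Agent.S31.Core Fermat.Agent.S43.Rho Polynomial

open scoped IsMulCommutative

variable {R₀ : Type*} [CommRing R₀] {Λ : Type*} [AddCommGroup Λ] [Module R₀ Λ]
  {Sg : Finset ℕ} {I₀ : Ideal R₀} {r : GQ →* Module.End R₀ Λ} {ε : GQ →* R₀}
  {T : Subalgebra R₀ (Module.End R₀ Λ)}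

/-- `2` is invertible in `T` when it is in `R₀`. -/
@[reducible] def invertibleTwo (T : Subalgebra R₀ (Module.End R₀ Λ)) [Invertible (2 : R₀)] :
    Invertible (2 : ↥T) :=
  (Invertible.map (algebraMap R₀ ↥T) (2 : R₀)).copy 2 (map_ofNat (algebraMap R₀ ↥T) 2).symm

/-- The determinant character with values in `T` (as a monoid homomorphism). -/
def dHom (ε : GQ →* R₀) (T : Subalgebra R₀ (Module.End R₀ Λ)) : GQ →* ↥T :=
  ((algebraMap R₀ ↥T : R₀ →+* ↥T) : R₀ →* ↥T).comp ε

theorem dHom_apply (g : GQ) : dHom ε T g = algebraMap R₀ ↥T (ε g) := rfl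

theorem coe_dHom (g : GQ) :
    ((dHom ε T g : ↥T) : Module.End R₀ Λ) = ε g • (1 : Module.End R₀ Λ) := by
  rw [dHom_apply, Subalgebra.coe_algebraMap, Algebra.algebraMap_eq_smul_one]

theorem dHom_smul (g : GQ) (v : Λ) : dHom ε T g • v = ε g • v := by
  change ((dHom ε T g : ↥T) : Module.End R₀ Λ) v = _
  rw [coe_dHom, LinearMap.smul_apply, Module.End.one_apply]

variable [IsMulCommutative ↥T]

/-- Instance shortcut (the term instance search finds, after a long search). -/
theorem smulCommClassT (T : Subalgebra R₀ (Module.End R₀ Λ)) [IsMulCommutative ↥T] :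
    SMulCommClass ↥T ↥T Λ :=
  smulCommClass_self ↥T Λ

attribute [local instance] smulCommClassT

/-- Instance shortcut: `End_T(Λ)` as a `T`-algebra (the term instance search finds, after a long
search).  Consumers: `attribute [local instance] Glue.smulCommClassT Glue.algebraEnd`. -/
@[reducible] def algebraEnd (T : Subalgebra R₀ (Module.End R₀ Λ)) [IsMulCommutative ↥T] :
    Algebra ↥T (Module.End ↥T Λ) :=
  Module.End.instAlgebra ↥T ↥T Λ

attribute [local instance] algebraEnd

/-- **The hypotheses of (CL+), without the irreducibility clause.** -/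
theorem pre [Invertible (2 : ↥T)] (h : Dens.Datum Sg I₀ r ε T) (c : GQ) (hc : c * c = 1)
    (hεc : ε c = -1) :
    CH.Pre (E := Module.End ↥T Λ) (Dens.rT h) (Dens.tT h) (dHom ε T) c where
  inj s hs := by
    apply Subtype.ext
    apply LinearMap.ext
    intro v
    have h1 := LinearMap.congr_fun hs v
    rw [LinearMap.smul_apply, Module.End.one_apply, LinearMap.zero_apply] at h1
    exact h1
  ch g := by
    apply LinearMap.ext
    intro v
    rw [LinearMap.add_apply, LinearMap.sub_apply, Module.End.mul_apply, LinearMap.smul_apply,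
      LinearMap.smul_apply, Module.End.one_apply, LinearMap.zero_apply, Dens.rT_apply, Dens.rT_apply,
      dHom_smul]
    have h1 := Dens.cayley_apply h g v
    have h2 : ((Dens.dT ε T g : (↥T)ˣ) : ↥T) • v = ε g • v := by
      change ((((Dens.dT ε T g : (↥T)ˣ) : ↥T) : Module.End R₀ Λ)) v = _
      rw [Dens.coe_dT, LinearMap.smul_apply, Module.End.one_apply]
    rw [h2] at h1
    exact h1
  c_sq := hc
  d_c := by rw [dHom_apply, hεc, map_neg, map_one]

/-- **The input of (CL+).** -/
theorem exists_input [Invertible (2 : ↥T)] [IsLocalRing ↥T] {k : Type} [Field k]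
    [Invertible (2 : k)] (h : Dens.Datum Sg I₀ r ε T) (c : GQ) (hc : c * c = 1) (hεc : ε c = -1)
    (π : ↥T →+* k) [IsLocalHom π]
    (hπ : ∀ x : ↥T, (x : Module.End R₀ Λ) ∈ smallEnd (V := Λ) I₀ → π x = 0)
    (rbar : ResidualGaloisRep k) (habs : rbar.IsAbsolutelyIrreducible)
    (hdet : LinearMap.det (rbar.ρ c) = -1)
    (hfrob : ∀ ℓ : ℕ, ℓ.Prime → ℓ ∉ Sg → ∀ A : ValuationSubring Qbar, A.LiesOverPrime ℓ →
      ∀ τ : GQ, A.IsFrobeniusAt τ ℓ → ∀ hτ : Dens.tr r ε τ ∈ T,
        LinearMap.charpoly (rbar.ρ τ) = X ^ 2 - C (π ⟨Dens.tr r ε τ, hτ⟩) * X + C ((ℓ : ℕ) : k)) :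
    ∃ g₀ h₀ : GQ,
      CH.Input (E := Module.End ↥T Λ) (Dens.rT h) (Dens.tT h) (dHom ε T) c g₀ h₀ := by
  obtain ⟨g₀, h₀, hx, hy⟩ := Units.exists_units rbar habs c hc hdet
  have ht : ∀ g, π (Dens.tT h g) = Units.tb rbar.ρ g := fun g =>
    Dens.tr_residual h π hπ rbar hfrob g
  exact ⟨g₀, h₀, { toPre := pre h c hc hεc
                   ux := Units.isUnit_xT π (Dens.tT h) _ ht c hx
                   uy := Units.isUnit_yT π (Dens.tT h) _ ht c hy }⟩

/-- A local homomorphism from `T` to a field kills the elements of `T` with image in `I₀ Λ`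
(`Λ ≠ 0` finitely generated, `I₀` in the Jacobson radical). -/
theorem map_eq_zero_of_mem_smallEnd [Module.Finite R₀ Λ] [Nontrivial Λ]
    (hI : I₀ ≤ Ideal.jacobson ⊥) {k : Type*} [Field k] (π : ↥T →+* k) [IsLocalHom π] (x : ↥T)
    (hx : (x : Module.End R₀ Λ) ∈ smallEnd (V := Λ) I₀) : π x = 0 := by
  by_contra hne
  exact Dens.not_isUnit_of_mem_smallEnd hI x hx (isUnit_of_map_unit π x (isUnit_iff_ne_zero.2 hne))

/-- **The input of (CL+)**, with the hypothesis `hπ` discharged by Nakayama. -/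
theorem exists_input' [Invertible (2 : ↥T)] [IsLocalRing ↥T] [Module.Finite R₀ Λ] [Nontrivial Λ]
    (hI : I₀ ≤ Ideal.jacobson ⊥) {k : Type} [Field k] [Invertible (2 : k)]
    (h : Dens.Datum Sg I₀ r ε T) (c : GQ) (hc : c * c = 1) (hεc : ε c = -1)
    (π : ↥T →+* k) [IsLocalHom π]
    (rbar : ResidualGaloisRep k) (habs : rbar.IsAbsolutelyIrreducible)
    (hdet : LinearMap.det (rbar.ρ c) = -1)
    (hfrob : ∀ ℓ : ℕ, ℓ.Prime → ℓ ∉ Sg → ∀ A : ValuationSubring Qbar, A.LiesOverPrime ℓ →
      ∀ τ : GQ, A.IsFrobeniusAt τ ℓ → ∀ hτ : Dens.tr r ε τ ∈ T,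
        LinearMap.charpoly (rbar.ρ τ) = X ^ 2 - C (π ⟨Dens.tr r ε τ, hτ⟩) * X + C ((ℓ : ℕ) : k)) :
    ∃ g₀ h₀ : GQ,
      CH.Input (E := Module.End ↥T Λ) (Dens.rT h) (Dens.tT h) (dHom ε T) c g₀ h₀ :=
  exists_input h c hc hεc π (fun x hx => map_eq_zero_of_mem_smallEnd hI π x hx) rbar habs hdet
    hfrob

end Fermat.Agent.S43.Rho.Glue
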