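/-
PROJECT R (row 37 by S43), block L1 = `Rho/**`, file `LamGen` (helper2): THE HECKE ALGEBRA OF THE
LOCALISATION IS GENERATED BY THE IMAGE OF `P`.

`T O m N` (helper22's `Rho/Lam`) is the image of the LOCAL ring `P_m` in `End_O (N_m)`.  As soon as
`N_m` is a finite `O`-module the denominators are not needed: every element of `End_O (N_m)` is
integral over `O` (Cayley-Hamilton), and the inverse of a unit `u` with integral inverse is a
polynomial in `u`.  Hence:

* `inv_mem_adjoin_of_isIntegral` : `u v = 1`, `v` integral over `O` ⟹ `v ∈ O[u]` (commutative ring);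
* **`ofP_surjective`** : `P → T O m N` is ONTO ;  `range_ofP` ;
* `adjoin_image_ofP` : `O[S] = P` ⟹ `O[ofP S] = T` ;
* **`adjoin_range_ofP_X`** : for `P = MvPolynomial J O`, `T` is generated over `O` by the
  `ofP (X j)` (= the `hS` of `Props/TraceGen.adjoin_trace_rep_eq_top` at `S := range tQ`);
* `adjoin_range_ofP_X_sum` : the same for `J ⊕ D` in the form `range (inl) ∪ range (inr)`;
* `exists_ofP_eq`, `exists_smul_eq` (every element of `T` acts as an element of `P`),
  `algHom_ext_of_X` (a homomorphism out of `T` is determined by its values on the `X j`).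

Only hypothesis: `[Module.Finite O (Loc m N)]`.  No completeness, no noetherianity, no locality of `O`.
-/
import Mathlib
import Fermat.Agent.S43.Rho.Lam

set_option autoImplicit false

namespace Fermat.Agent.S43.Rho.LamGen

open Fermat.Agent.S43.Rho.Lam

/-! ### abstract: the inverse of a unit with integral inverse -/

section Abstract

variable {O : Type*} [CommRing O] {A : Type*} [CommRing A] [Algebra O A]

/-- if `u v = 1` and `v` is integral over `O` then `v` is a polynomial in `u` -/
theorem inv_mem_adjoin_of_isIntegral {u v : A} (huv : u * v = 1) (hv : IsIntegral O v) :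
    v ∈ Algebra.adjoin O {u} := by
  obtain ⟨q, hq, hq0⟩ := hv
  let _ : Invertible v := ⟨u, huv, (mul_comm v u).trans huv⟩
  have hinv : ⅟v = u := rfl
  -- the reversed polynomial vanishes at `u`
  have h1 : Polynomial.eval₂ (algebraMap O A) u q.reverse = 0 := by
    have h2 := (Polynomial.eval₂_reverse_eq_zero_iff (algebraMap O A) v q).mpr hq0
    rwa [hinv] at h2
  -- and its constant coefficient is `1`
  have h3 : q.reverse.coeff 0 = 1 := by
    rw [Polynomial.coeff_zero_reverse]
    exact hq
  have h4 : q.reverse.divX * Polynomial.X + Polynomial.C (1 : O) = q.reverse := by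
    rw [← h3]
    exact Polynomial.divX_mul_X_add q.reverse
  rw [← h4, Polynomial.eval₂_add, Polynomial.eval₂_mul, Polynomial.eval₂_X, Polynomial.eval₂_C,
    map_one] at h1
  -- so `v = - g(u)`
  have h5 : v = -Polynomial.eval₂ (algebraMap O A) u q.reverse.divX := by
    have h6 : (Polynomial.eval₂ (algebraMap O A) u q.reverse.divX * u + 1) * v = 0 := by
      rw [h1, zero_mul]
    rw [add_mul, mul_assoc, huv, mul_one, one_mul] at h6
    exact eq_neg_of_add_eq_zero_right h6
  rw [h5]
  refine Subalgebra.neg_mem _ ?_
  have h7 : Polynomial.eval₂ (algebraMap O A) u q.reverse.divX =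
      Polynomial.aeval u q.reverse.divX := rfl
  rw [h7, Algebra.adjoin_singleton_eq_range_aeval]
  exact ⟨_, rfl⟩

end Abstract

/-! ### the image of `P` is the whole Hecke algebra -/

section Gen

variable (O : Type) [CommRing O] {P : Type} [CommRing P] [Algebra O P] (m : Ideal P) [m.IsMaximal]
  (N : Type) [AddCommGroup N] [Module O N] [Module P N] [IsScalarTower O P N]

/-- every element of the Hecke algebra is integral over `O` -/
theorem isIntegral_T [Module.Finite O (Loc m N)] (x : T O m N) : IsIntegral O x := by
  have h1 : IsIntegral O (x : Module.End O (Loc m N)) := Algebra.IsIntegral.isIntegral _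
  exact (isIntegral_algHom_iff (T O m N).val Subtype.val_injective).mp h1

/-- `toT` of a fraction -/
theorem toT_mk' (a : P) (s : m.primeCompl) :
    toT O m N (IsLocalization.mk' (Localization.AtPrime m) a s) * ofP O m N (s : P) =
      ofP O m N a := by
  show toT O m N (IsLocalization.mk' (Localization.AtPrime m) a s) *
      toT O m N (algebraMap P (Localization.AtPrime m) (s : P)) =
    toT O m N (algebraMap P (Localization.AtPrime m) a)
  rw [← map_mul, IsLocalization.mk'_spec]

/-- **the structure map `P → T O m N` is onto** when the localisation is a finite `O`-module -/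
theorem ofP_surjective [Module.Finite O (Loc m N)] : Function.Surjective (ofP O m N) := by
  intro x
  obtain ⟨y, rfl⟩ := toT_surjective O m N x
  obtain ⟨a, s, rfl⟩ := IsLocalization.exists_mk'_eq m.primeCompl y
  -- `ofP s` is a unit, with inverse `w` integral over `O`
  obtain ⟨w, hw⟩ := (isUnit_ofP O m N s.2).exists_right_inv
  have h1 : w ∈ Algebra.adjoin O {ofP O m N (s : P)} :=
    inv_mem_adjoin_of_isIntegral hw (isIntegral_T O m N w)
  -- so `w` is in the image of `P`
  have h2 : Algebra.adjoin O {ofP O m N (s : P)} ≤ (ofP O m N).range := by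
    refine Algebra.adjoin_le ?_
    rintro _ rfl
    exact ⟨(s : P), rfl⟩
  obtain ⟨b, hb⟩ := h2 h1
  have hb' : ofP O m N b = w := hb
  refine ⟨a * b, ?_⟩
  rw [map_mul, hb', ← toT_mk' O m N a s, mul_assoc, hw, mul_one]

theorem range_ofP [Module.Finite O (Loc m N)] : (ofP O m N).range = ⊤ :=
  (AlgHom.range_eq_top _).mpr (ofP_surjective O m N)

theorem exists_ofP_eq [Module.Finite O (Loc m N)] (x : T O m N) : ∃ Q : P, ofP O m N Q = x :=
  ofP_surjective O m N x

/-- generators of `P` give generators of the Hecke algebra -/
theorem adjoin_image_ofP [Module.Finite O (Loc m N)] (S : Set P) (hS : Algebra.adjoin O S = ⊤) :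
    Algebra.adjoin O (ofP O m N '' S) = ⊤ := by
  rw [← AlgHom.map_adjoin, hS, Algebra.map_top, range_ofP]

/-- every element of the Hecke algebra acts as an element of `P` -/
theorem exists_smul_eq [Module.Finite O (Loc m N)] (x : T O m N) :
    ∃ Q : P, ∀ v : Loc m N, x • v = Q • v := by
  obtain ⟨Q, rfl⟩ := ofP_surjective O m N x
  exact ⟨Q, fun v => ofP_smul O m N Q v⟩

end Gen

/-! ### the polynomial Hecke algebra -/

section Poly

variable (O : Type) [CommRing O] {J : Type} (m : Ideal (MvPolynomial J O)) [m.IsMaximal]
  (N : Type) [AddCommGroup N] [Module O N] [Module (MvPolynomial J O) N]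
  [IsScalarTower O (MvPolynomial J O) N]

/-- **the Hecke algebra of the localisation is generated over `O` by the operators `X j`** -/
theorem adjoin_range_ofP_X [Module.Finite O (Loc m N)] :
    Algebra.adjoin O (Set.range fun j : J => ofP O m N (MvPolynomial.X j)) = ⊤ := by
  have h1 : (Set.range fun j : J => ofP O m N (MvPolynomial.X j)) =
      ofP O m N '' Set.range (MvPolynomial.X : J → MvPolynomial J O) := by
    rw [← Set.range_comp]
    rfl
  rw [h1]
  exact adjoin_image_ofP O m N _ MvPolynomial.adjoin_range_X

/-- a homomorphism out of the Hecke algebra is determined by its values on the `X j` -/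
theorem algHom_ext_of_X [Module.Finite O (Loc m N)] {B : Type*} [Semiring B] [Algebra O B]
    (φ ψ : T O m N →ₐ[O] B)
    (h : ∀ j : J, φ (ofP O m N (MvPolynomial.X j)) = ψ (ofP O m N (MvPolynomial.X j))) : φ = ψ := by
  refine AlgHom.ext_of_adjoin_eq_top (adjoin_range_ofP_X O m N) ?_
  rintro _ ⟨j, rfl⟩
  exact h j

end Poly

section PolySum

variable (O : Type) [CommRing O] {J D : Type} (m : Ideal (MvPolynomial (J ⊕ D) O)) [m.IsMaximal]
  (N : Type) [AddCommGroup N] [Module O N] [Module (MvPolynomial (J ⊕ D) O) N]
  [IsScalarTower O (MvPolynomial (J ⊕ D) O) N]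

/-- the `J ⊕ D` form: the Hecke algebra is generated by the `X (inl j)` and the `X (inr d)` -/
theorem adjoin_range_ofP_X_sum [Module.Finite O (Loc m N)] :
    Algebra.adjoin O
      ((Set.range fun j : J => ofP O m N (MvPolynomial.X (Sum.inl j))) ∪
        (Set.range fun d : D => ofP O m N (MvPolynomial.X (Sum.inr d)))) = ⊤ := by
  rw [eq_top_iff, ← adjoin_range_ofP_X O m N]
  refine Algebra.adjoin_mono ?_
  rintro _ ⟨k, rfl⟩
  rcases k with j | d
  · exact Or.inl ⟨j, rfl⟩
  · exact Or.inr ⟨d, rfl⟩

end PolySum

end Fermat.Agent.S43.Rho.LamGen
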