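/-
PROJECT R (S43), block L1, brick Rho/Conj (helper27):
THE CYCLOTOMIC CHARACTER AT COMPLEX CONJUGATION, AND THE PRELUDE'S `DetIsCyclotomic`.

`ε := cycChar p ι` (main's `S30/Algebra/Cyclotomic`, `ι : ℤ_[p] →+* S`) is the character of the
density datum (`cont_ε`, `frob_ε` are main's `cycChar_continuous`, `cycChar_isFrobeniusAt`).

* `conj_apply_of_pow_eq_one` : complex conjugation inverts the roots of unity;
* `cyc_conj`, `cycChar_conj` : `ε(c) = -1` (the hypothesis `hεc` of `Rho/Glue`);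
* `cycChar_sub_natCast_mem` : if `σ` raises the `p ^ n`-th roots of unity to the power `a` then
  `ε(σ) ≡ a` modulo `p ^ n`;
* `detIsCyclotomic_of_det_eq` : a representation with determinant `ε` satisfies the Prelude's
  `DetIsCyclotomic p`.
-/
import Mathlib
import Fermat.Prelude.Def_GaloisRep_ComplexConjugation
import Fermat.Prelude.Def_GaloisRep_LocalConditions
import Fermat.Agent.S30.Algebra.Cyclotomic

set_option autoImplicit false
set_option linter.unusedSectionVars false

namespace Fermat.Agent.S43.Rho.Conj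

open Fermat.Agent.S30.Algebra.Cyclotomic

/-- Complex conjugation inverts the roots of unity. -/
theorem conj_apply_of_pow_eq_one {t : Qbar} {n : ℕ} (hn : n ≠ 0) (ht : t ^ n = 1) :
    complexConjugation t = t⁻¹ := by
  apply complexEmbedding.toRingHom.injective
  change complexEmbedding (complexConjugation t) = complexEmbedding t⁻¹
  rw [complexEmbedding_complexConjugation, map_inv₀]
  have hz : (complexEmbedding t) ^ n = 1 := by rw [← map_pow, ht, map_one]
  exact (Complex.inv_eq_conj (Complex.norm_eq_one_of_pow_eq_one hz hn)).symm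

variable (p : ℕ) [Fact p.Prime]

/-- `χ_p(c) = -1`. -/
theorem cyc_conj : ((cyc p (complexConjugation : GQ) : ℤ_[p]ˣ) : ℤ_[p]) = -1 := by
  rw [← PadicInt.ext_of_toZModPow]
  intro n
  have hpn : 0 < p ^ n := pow_pos (Fact.out : p.Prime).pos n
  rw [toZModPow_cyc_of p complexConjugation n (p ^ n - 1) (fun t ht => ?_), map_neg, map_one]
  · rw [Nat.cast_sub hpn, Nat.cast_one, ZMod.natCast_self, zero_sub]
  · rw [conj_apply_of_pow_eq_one hpn.ne' ht]
    symm
    apply eq_inv_of_mul_eq_one_left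
    rw [← pow_succ, Nat.sub_add_cancel hpn, ht]

variable {S : Type*} [CommRing S] (ι : ℤ_[p] →+* S)

/-- `ε(c) = -1`. -/
theorem cycChar_conj : cycChar p ι (complexConjugation : GQ) = -1 := by
  rw [cycChar_apply, cyc_conj, map_neg, map_one]

/-- If `σ` raises every `p ^ n`-th root of unity to the `a`-th power, then `ε(σ) ≡ a` modulo
`p ^ n`. -/
theorem cycChar_sub_natCast_mem (n : ℕ) (σ : GQ) (a : ℕ)
    (h : ∀ μ : Qbar, μ ^ p ^ n = 1 → σ μ = μ ^ a) :
    cycChar p ι σ - (a : S) ∈ Ideal.span {((p ^ n : ℕ) : S)} := by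
  have h1 : ((cyc p σ : ℤ_[p]ˣ) : ℤ_[p]) - (a : ℤ_[p]) ∈ Ideal.span {(p : ℤ_[p]) ^ n} := by
    rw [← PadicInt.ker_toZModPow, RingHom.mem_ker, map_sub, toZModPow_cyc_of p σ n a h,
      map_natCast, sub_self]
  obtain ⟨y, hy⟩ := Ideal.mem_span_singleton.1 h1
  rw [Ideal.mem_span_singleton]
  refine ⟨ι y, ?_⟩
  rw [cycChar_apply, ← map_natCast ι a, ← map_sub, hy, map_mul, map_pow, map_natCast,
    Nat.cast_pow]

/-- A representation whose determinant is `ε` satisfies the Prelude's `DetIsCyclotomic`. -/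
theorem detIsCyclotomic_of_det_eq {A : Type} [CommRing A] [IsLocalRing A]
    (ρ : GaloisRepAdic A) (ι : ℤ_[p] →+* A) (hp : (p : A) ∈ IsLocalRing.maximalIdeal A)
    (hdet : ∀ σ : GQ, LinearMap.det (ρ.ρ σ) = cycChar p ι σ) : ρ.DetIsCyclotomic p :=
  ⟨hp, fun n σ a h => by
    rw [hdet σ]
    exact cycChar_sub_natCast_mem p ι n σ a h⟩

end Fermat.Agent.S43.Rho.Conj
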