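/-
PROJECT R (S43, row 37), block L1 = `Rho/**` (architect helper22), file `Rho/MainGen` (helper27):
THE ONE-STOP INSTANCE OF L1, GENERIC IN THE HECKE-GALOIS MODULE AND IN THE COEFFICIENT ALGEBRA.

`Rho/Main` on helper22's `LamInst`, made generic so that ONE file serves `LamInst`, `LamInstD` (with
the parameter `S₀`), the trace subalgebra `TQtr ≤ TQ` of the chief's flag #6494 and the level-zero
side `Rho/Zero`:

* PART A (any density datum `h : Dens.Datum Sg (maximalIdeal R₀) r ε T`, binders of `Rho/Props/Det`):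
  `InputG h c g₀ h₀`, `repG h hin` (`= CH.rep hin`), `rhoG h hin` (`= Det.rhoT h hin`) and their
  properties, stated so that a consumer needs neither the scope `IsMulCommutative` nor the local
  instances of `Rho/Glue`; `finite_sub`, `isAdicComplete_sub`, `finite_residueField_sub`;
* PART B (`Λ = Loc 𝔪 (WithOps t hcomm)`, `r = LamDatum.rLam ..`, `T' ≤ Lam.T O 𝔪 (WithOps t hcomm)` a
  subalgebra containing the operators `tq j = ofP (X (f j))` of a family of trace indices
  `f : J' → Jx` at the primes `q j`): `tT_frob` (`t(Frob_{q j}) = tq j`), `residue_tq`,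
  `exists_sub_algebraMap_mem` / `surjective_residue_comp` (the residue field of `T'` is the one of
  `O`, when `T'` is generated by the `tq j`), `residue_tT` (`t(g) mod 𝔪 = tr ρ̄(g)`), `exists_input`
  (**`ρ` exists at a GIVEN normalisation**), `exists_input_conj`, `mapMat_repG'`,
  `residual_rhoG_isEquiv'`, `adjoin_trace_repG` (**(N2)**), `algHom_ext_of_trace`,
  `isUnramifiedAt_rhoG'`, `adjoin_tq_of_eq_adjoin`.
-/
import Mathlib
import Fermat.Agent.S43.Rho.LamDatum
import Fermat.Agent.S43.Rho.ExistsNorm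
import Fermat.Agent.S43.Rho.Props.Det
import Fermat.Agent.Lib.FrobeniusExists
import Fermat.Prelude.Thm_IsLocalRing_isAdicComplete_of_module_finite

set_option autoImplicit false
set_option linter.unusedSectionVars false
set_option linter.style.haveILetI false

noncomputable section

namespace Fermat.Agent.S43.Rho.MainGen

open IsLocalRing Polynomial
open Fermat.Agent.S31.Core Fermat.Agent.S43.Rho
open Fermat.Agent.S43.Rho.Lam Fermat.Agent.S43.Hecke.PolyModule
open Fermat.Agent.S53.Dictionary hiding GQ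
open Fermat.Agent.S30.Algebra.Cyclotomic (cycChar)
open scoped IsMulCommutative

attribute [local instance] Glue.smulCommClassT Glue.algebraEnd

/-! ### PART A: wrappers for any density datum -/

section datum

variable {R₀ : Type} [CommRing R₀] [IsLocalRing R₀] [IsNoetherianRing R₀]
  {Λ : Type} [AddCommGroup Λ] [Module R₀ Λ] [Module.Finite R₀ Λ]
  {Sg : Finset ℕ} {r : GQ →* Module.End R₀ Λ} {ε : GQ →* R₀}
  {T : Subalgebra R₀ (Module.End R₀ Λ)} [IsMulCommutative ↥T] [IsLocalRing ↥T]
  [IsLocalHom (algebraMap R₀ ↥T)] [Invertible (2 : ↥T)]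
  (h : Dens.Datum Sg (maximalIdeal R₀) r ε T)

/-- every subalgebra of `End Λ` is module-finite -/
theorem finite_sub (T : Subalgebra R₀ (Module.End R₀ Λ)) : Module.Finite R₀ ↥T := by
  have h1 : IsNoetherian R₀ (Module.End R₀ Λ) := isNoetherian_linearMap R₀ Λ Λ
  have h2 : IsNoetherian R₀ (Subalgebra.toSubmodule T) := isNoetherian_submodule' _
  exact Module.IsNoetherian.finite R₀ (Subalgebra.toSubmodule T)

/-- a local commutative subalgebra of `End Λ` is complete -/
theorem isAdicComplete_sub [IsAdicComplete (maximalIdeal R₀) R₀]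
    (T : Subalgebra R₀ (Module.End R₀ Λ)) [IsMulCommutative ↥T] [IsLocalRing ↥T]
    [IsLocalHom (algebraMap R₀ ↥T)] : IsAdicComplete (maximalIdeal ↥T) ↥T := by
  haveI := finite_sub T
  exact IsLocalRing.isAdicComplete_of_module_finite (𝒪 := R₀)

/-- the residue field of a local commutative subalgebra of `End Λ` is finite when the one of `R₀`
is -/
theorem finite_residueField_sub [Finite (ResidueField R₀)]
    (T : Subalgebra R₀ (Module.End R₀ Λ)) [IsMulCommutative ↥T] [IsLocalRing ↥T]
    [IsLocalHom (algebraMap R₀ ↥T)] : Finite (ResidueField ↥T) := by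
  haveI := finite_sub T
  exact IsLocalRing.ResidueField.finite_of_finite (R := R₀) (S := ↥T) inferInstance

/-- **the input of `Rho/CH` for a density datum**, at `(c, g₀, h₀)` -/
abbrev InputG (c g₀ h₀ : GQ) : Prop :=
  CH.Input (E := Module.End ↥T Λ) (Dens.rT h) (Dens.tT h) (Glue.dHom ε T) c g₀ h₀

variable {c g₀ h₀ : GQ}

/-- **the matrix representation** `G_ℚ → M₂(T)` of an input (this is `CH.rep hin`) -/
def repG (hin : InputG h c g₀ h₀) : GQ →* Matrix (Fin 2) (Fin 2) ↥T := CH.rep hin

theorem repG_eq (hin : InputG h c g₀ h₀) : repG h hin = CH.rep hin := rfl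

theorem isContMat_repG (hin : InputG h c g₀ h₀) : IsContMat ↥T (repG h hin) :=
  Exists.isContMat_rep h hin

/-- **`ρ_T`**, for ANY input (this is `Props/Det.rhoT h hin`) -/
def rhoG (hin : InputG h c g₀ h₀) : GaloisRepAdic ↥T := Props.Det.rhoT h hin

variable (hin : InputG h c g₀ h₀)

theorem rhoG_eq : rhoG h hin = ofMat (repG h hin) (isContMat_repG h hin) := rfl

theorem rhoG_ρ (σ : GQ) : (rhoG h hin).ρ σ = Matrix.toLin' (repG h hin σ) := rfl

theorem trace_repG (σ : GQ) : (repG h hin σ).trace = Dens.tT h σ := CH.trace_rep hin σ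

theorem det_repG (σ : GQ) : (repG h hin σ).det = algebraMap R₀ ↥T (ε σ) := CH.det_rep hin σ

theorem trace_rhoG (σ : GQ) : (rhoG h hin).trace σ = Dens.tT h σ :=
  Props.Det.trace_rhoT h hin σ

theorem det_rhoG (σ : GQ) :
    LinearMap.det ((rhoG h hin).ρ σ) = algebraMap R₀ ↥T (ε σ) :=
  Props.Det.det_rhoT h hin σ

/-- the determinant of `ρ_T` is cyclotomic when `ε` is the cyclotomic character -/
theorem detIsCyclotomic_rhoG (p : ℕ) [Fact p.Prime] (ι : ℤ_[p] →+* R₀)
    (hε : ∀ σ, ε σ = cycChar p ι σ) (hp : (p : R₀) ∈ maximalIdeal R₀) :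
    (rhoG h hin).DetIsCyclotomic p :=
  Props.Det.detIsCyclotomic_rhoT h hin p ι hε hp

/-- `ρ_T` is unramified where `Λ` is -/
theorem isUnramifiedAt_rhoG (q : ℕ)
    (hq : ∀ P : ValuationSubring Qbar, P.LiesOverPrime q → ∀ σ ∈ P.inertiaSubgroupIn ℚ,
      r σ = 1) : (rhoG h hin).IsUnramifiedAt q :=
  Props.Det.isUnramifiedAt_rhoT h hin q hq

/-- the matrix of an element acting trivially on `Λ` -/
theorem repG_eq_one_of_r {σ : GQ} (hσ : r σ = 1) : repG h hin σ = 1 :=
  Props.Det.rep_eq_one_of_r h hin hσ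

/-- two elements with the same action on `Λ` have the same matrix -/
theorem repG_eq_of_r {σ σ' : GQ} (hσ : r σ = r σ') : repG h hin σ = repG h hin σ' :=
  Props.Det.rep_eq_of_r h hin hσ

section norm

variable (rbar : ResidualGaloisRep (ResidueField R₀))
  {b : Module.Basis (Fin 2) (ResidueField R₀) rbar.V} (hn : ExistsNorm.Norm rbar c g₀ h₀ b)
  (htr : ∀ g, residue ↥T (Dens.tT h g) =
    ResidueField.map (algebraMap R₀ ↥T) (LinearMap.trace (ResidueField R₀) rbar.V (rbar.ρ g)))

include hn htr in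
/-- **`ρ_T` EXISTS AT A GIVEN NORMALISATION** (literal of `Num/ExportT.RelGenT`) -/
theorem exists_inputG [Invertible (2 : R₀)] (hc : c * c = 1) (hεc : ε c = -1) :
    ∃ hin : InputG h c g₀ h₀, IsContMat ↥T (repG h hin) ∧
      mapMat (residue ↥T) (repG h hin) =
        mapMat (ResidueField.map (algebraMap R₀ ↥T)) (resMatOf rbar b) := by
  letI : Invertible (2 : ResidueField R₀) :=
    (Invertible.map (residue R₀) (2 : R₀)).copy 2 (map_ofNat (residue R₀) 2).symm
  letI : Invertible (2 : ResidueField ↥T) :=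
    (Invertible.map (residue ↥T) (2 : ↥T)).copy 2 (map_ofNat (residue ↥T) 2).symm
  exact ExistsNorm.exists_rhoT_residue_of_norm h hc hεc rbar hn htr

include hn htr in
/-- for EVERY input at the normalisation, `repG h hin` reduces to `ρ̄` in the basis `b` -/
theorem mapMat_repG :
    mapMat (residue ↥T) (repG h hin) =
      mapMat (ResidueField.map (algebraMap R₀ ↥T)) (resMatOf rbar b) :=
  ExistsNorm.mapMat_rep_of_norm h hin rbar hn (residue ↥T)
    (ResidueField.map (algebraMap R₀ ↥T)) htr

include hn htr in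
/-- the residual representation of `ρ_T` is `ρ̄`, in the Prelude's vocabulary -/
theorem residual_rhoG_isEquiv :
    (rhoG h hin).residual.IsEquiv
      (rbar.baseChangeAlong (ResidueField.map (algebraMap R₀ ↥T))) :=
  Props.Det.residual_rhoT_isEquiv h hin rbar b (mapMat_repG h hin rbar hn htr)

end norm

end datum

/-- the base change of a characteristic polynomial `X² - a X + ℓ` -/
theorem map_charpoly_aux {k₀ k : Type*} [Field k₀] [Field k] (ψ : k₀ →+* k) (f : k₀[X]) (a : k₀)
    (ℓ : ℕ) (b : k) (hf : f = X ^ 2 - C a * X + C ((ℓ : ℕ) : k₀)) (hb : b = ψ a) :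
    f.map ψ = X ^ 2 - C b * X + C ((ℓ : ℕ) : k) := by
  rw [hf, hb, Polynomial.map_add, Polynomial.map_sub, Polynomial.map_mul, Polynomial.map_pow,
    Polynomial.map_X, Polynomial.map_C, Polynomial.map_C, map_natCast]

/-! ### Two lemmas on local rings -/

section alg

variable {O : Type*} [CommRing O] {R : Type*} [CommRing R] [IsLocalRing R] [Algebra O R]

theorem residue_eq_of_sub_mem {x y : R} (h : x - y ∈ maximalIdeal R) :
    residue R x = residue R y := by
  have h3 := (residue_eq_zero_iff _).mpr h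
  rw [map_sub, sub_eq_zero] at h3
  exact h3

/-- if `R` is generated over `O` by elements congruent to scalars modulo `𝔪_R`, every element of `R`
is congruent to a scalar -/
theorem exists_sub_algebraMap_mem_of_adjoin (S : Set R) (hgen : Algebra.adjoin O S = ⊤)
    (hS : ∀ s ∈ S, ∃ a : O, s - algebraMap O R a ∈ maximalIdeal R) (x : R) :
    ∃ a : O, x - algebraMap O R a ∈ maximalIdeal R := by
  have hx : x ∈ Algebra.adjoin O S := by
    rw [hgen]
    exact Algebra.mem_top
  induction hx using Algebra.adjoin_induction with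
  | mem x hx => exact hS x hx
  | algebraMap a => exact ⟨a, by rw [sub_self]; exact zero_mem _⟩
  | add x y _ _ hx hy =>
    obtain ⟨a, ha⟩ := hx
    obtain ⟨b, hb⟩ := hy
    refine ⟨a + b, ?_⟩
    have : x + y - algebraMap O R (a + b) = (x - algebraMap O R a) + (y - algebraMap O R b) := by
      rw [map_add]
      abel
    rw [this]
    exact add_mem ha hb
  | mul x y _ _ hx hy =>
    obtain ⟨a, ha⟩ := hx
    obtain ⟨b, hb⟩ := hy
    refine ⟨a * b, ?_⟩
    have : x * y - algebraMap O R (a * b) =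
        (x - algebraMap O R a) * y + algebraMap O R a * (y - algebraMap O R b) := by
      rw [map_mul]
      ring
    rw [this]
    exact add_mem (Ideal.mul_mem_right _ _ ha) (Ideal.mul_mem_left _ _ hb)

end alg

/-! ### PART B: the localised Hecke-Galois module and a subalgebra of its Hecke algebra -/

section lam

variable (O : Type) [CommRing O] [IsLocalRing O] [IsNoetherianRing O]
  {Lam0 : Type} [AddCommGroup Lam0] [Module O Lam0]
  {Jx : Type} (t : Jx → Module.End O Lam0) (hcomm : ∀ i j, Commute (t i) (t j))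
  (mI : Ideal (MvPolynomial Jx O)) [mI.IsMaximal]
  (r0 : GQ →* Module.End O Lam0) (hr0 : ∀ g j, Commute (r0 g) (t j))
  [Module.Finite O (Loc mI (WithOps t hcomm))] [Nontrivial (Loc mI (WithOps t hcomm))]
  {Sg : Finset ℕ} {ε : GQ →* O}
  (T' : Subalgebra O (Module.End O (Loc mI (WithOps t hcomm))))
  (hT' : T' ≤ T O mI (WithOps t hcomm))
  [IsMulCommutative ↥T'] [IsLocalRing ↥T'] [IsLocalHom (algebraMap O ↥T')]
  (h : Dens.Datum Sg (maximalIdeal O) (LamDatum.rLam O t hcomm mI r0 hr0) ε T')
  {J' : Type} (f : J' → Jx) (q : J' → ℕ)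
  (htq : ∀ j : J', (ofP O mI (WithOps t hcomm) (MvPolynomial.X (f j)) :
    Module.End O (Loc mI (WithOps t hcomm))) ∈ T')

/-- the operator `T'_{q j}` as an element of `T'` -/
def tq (j : J') : ↥T' := ⟨_, htq j⟩

theorem coe_tq (j : J') :
    ((tq O t hcomm mI T' f htq j : ↥T') : Module.End O (Loc mI (WithOps t hcomm))) =
      ofP O mI (WithOps t hcomm) (MvPolynomial.X (f j)) := rfl

/-- the inclusion of `T'` in the full Hecke algebra sends `tq j` to `ofP (X (f j))` -/
theorem inclusion_tq (j : J') :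
    Subalgebra.inclusion hT' (tq O t hcomm mI T' f htq j) =
      ofP O mI (WithOps t hcomm) (MvPolynomial.X (f j)) :=
  Subtype.ext rfl

section frob

variable (hes : ∀ (j : J') (A : ValuationSubring Qbar), A.LiesOverPrime (q j) → ∀ τ : GQ,
    A.IsFrobeniusAt τ (q j) → ε τ = ((q j : ℕ) : O) ∧
      r0 τ * r0 τ - t (f j) * r0 τ + ((q j : ℕ) : Module.End O Lam0) = 0)

include hes in
/-- **`t(τ) = T'_{q j}`** for `τ` a Frobenius element at `q j` -/
theorem tT_frob (j : J') (A : ValuationSubring Qbar) (hA : A.LiesOverPrime (q j)) (τ : GQ)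
    (hτ : A.IsFrobeniusAt τ (q j)) : Dens.tT h τ = tq O t hcomm mI T' f htq j := by
  apply Subtype.ext
  symm
  refine Dens.eq_tr_of_es (hes j A hA τ hτ).1 ?_
  exact LamDatum.es_loc O t hcomm mI r0 hr0 τ (f j) (q j) (hes j A hA τ hτ).2

end frob

section residue

variable (θ : J' → ResidueField O)
  (hθ : ∀ j : J', ∃ a : O, residue O a = θ j ∧
    (MvPolynomial.X (f j) - MvPolynomial.C a : MvPolynomial Jx O) ∈ mI)

include hT' in
/-- an element of `T'` whose image in the full Hecke algebra is not a unit is not a unit -/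
theorem mem_maximalIdeal_of_inclusion {x : ↥T'}
    (hx : Subalgebra.inclusion hT' x ∈ maximalIdeal ↥(T O mI (WithOps t hcomm))) :
    x ∈ maximalIdeal ↥T' := by
  rw [mem_maximalIdeal, mem_nonunits_iff] at hx ⊢
  exact fun hu => hx (hu.map (Subalgebra.inclusion hT'))

include hT' in
/-- `T'_{q j} - a ∈ 𝔪_{T'}` when `X (f j) - C a ∈ 𝔪` -/
theorem tq_sub_mem (j : J') {a : O}
    (ha : (MvPolynomial.X (f j) - MvPolynomial.C a : MvPolynomial Jx O) ∈ mI) :
    tq O t hcomm mI T' f htq j - algebraMap O ↥T' a ∈ maximalIdeal ↥T' := by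
  refine mem_maximalIdeal_of_inclusion O t hcomm mI T' hT' ?_
  have h1 := Lam.ofP_mem_maximalIdeal O mI (WithOps t hcomm) ha
  have h2 : Subalgebra.inclusion hT' (tq O t hcomm mI T' f htq j - algebraMap O ↥T' a) =
      ofP O mI (WithOps t hcomm) (MvPolynomial.X (f j) - MvPolynomial.C a) := by
    apply Subtype.ext
    rw [map_sub (ofP O mI (WithOps t hcomm)), ← MvPolynomial.algebraMap_eq, AlgHom.commutes]
    rfl
  rw [h2]
  exact h1

include hT' hθ in
/-- **`T'_{q j} mod 𝔪_{T'} = θ j`** -/
theorem residue_tq (j : J') :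
    residue ↥T' (tq O t hcomm mI T' f htq j) = ResidueField.map (algebraMap O ↥T') (θ j) := by
  obtain ⟨a, ha, hmem⟩ := hθ j
  rw [residue_eq_of_sub_mem (tq_sub_mem O t hcomm mI T' hT' f htq j hmem), ← ha,
    ResidueField.map_residue]

include hT' hθ in
/-- every element of `T'` is congruent to a scalar modulo `𝔪_{T'}`, when `T'` is generated over `O`
by the operators `T'_{q j}` -/
theorem exists_sub_algebraMap_mem
    (hgen : Algebra.adjoin O (Set.range (tq O t hcomm mI T' f htq)) = ⊤) (x : ↥T') :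
    ∃ a : O, x - algebraMap O ↥T' a ∈ maximalIdeal ↥T' := by
  refine exists_sub_algebraMap_mem_of_adjoin _ hgen ?_ x
  rintro _ ⟨j, rfl⟩
  obtain ⟨a, -, hmem⟩ := hθ j
  exact ⟨a, tq_sub_mem O t hcomm mI T' hT' f htq j hmem⟩

include hT' hθ in
/-- **the residue field of `T'` is the residue field of `O`** (the `hres` of `RSide/LiftHyp`) -/
theorem surjective_residue_comp
    (hgen : Algebra.adjoin O (Set.range (tq O t hcomm mI T' f htq)) = ⊤) :
    Function.Surjective (residue ↥T' ∘ algebraMap O ↥T') := by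
  intro z
  obtain ⟨x, rfl⟩ := residue_surjective z
  obtain ⟨a, ha⟩ := exists_sub_algebraMap_mem O t hcomm mI T' hT' f htq θ hθ hgen x
  exact ⟨a, (residue_eq_of_sub_mem ha).symm⟩

include hT' hθ in
theorem surjective_residueField_map
    (hgen : Algebra.adjoin O (Set.range (tq O t hcomm mI T' f htq)) = ⊤) :
    Function.Surjective
      (ResidueField.map (algebraMap O ↥T') : ResidueField O →+* ResidueField ↥T') := by
  intro z
  obtain ⟨x, rfl⟩ := residue_surjective z
  obtain ⟨a, ha⟩ := exists_sub_algebraMap_mem O t hcomm mI T' hT' f htq θ hθ hgen x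
  refine ⟨residue O a, ?_⟩
  rw [ResidueField.map_residue]
  exact (residue_eq_of_sub_mem ha).symm

end residue

/-- when `T'` IS the subalgebra generated by the operators, it is generated by the `tq j` -/
theorem adjoin_tq_of_eq_adjoin
    (hT'eq : T' = Algebra.adjoin O (Set.range fun j : J' =>
      (ofP O mI (WithOps t hcomm) (MvPolynomial.X (f j)) :
        Module.End O (Loc mI (WithOps t hcomm))))) :
    Algebra.adjoin O (Set.range (tq O t hcomm mI T' f htq)) = ⊤ := by
  rw [eq_top_iff]
  rintro ⟨x, hx⟩ -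
  have hx' := hx
  rw [hT'eq] at hx'
  have key : ∀ y (hy : y ∈ Algebra.adjoin O (Set.range fun j : J' =>
      (ofP O mI (WithOps t hcomm) (MvPolynomial.X (f j)) :
        Module.End O (Loc mI (WithOps t hcomm))))), ∀ hy' : y ∈ T',
      (⟨y, hy'⟩ : ↥T') ∈ Algebra.adjoin O (Set.range (tq O t hcomm mI T' f htq)) := by
    intro y hy
    induction hy using Algebra.adjoin_induction with
    | mem y hy =>
      obtain ⟨j, rfl⟩ := hy
      exact fun _ => Algebra.subset_adjoin ⟨j, rfl⟩
    | algebraMap a => exact fun _ => Subalgebra.algebraMap_mem _ a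
    | add y z hy hz ihy ihz =>
      intro _
      have hy' : y ∈ T' := hT'eq ▸ hy
      have hz' : z ∈ T' := hT'eq ▸ hz
      exact Subalgebra.add_mem _ (ihy hy') (ihz hz')
    | mul y z hy hz ihy ihz =>
      intro _
      have hy' : y ∈ T' := hT'eq ▸ hy
      have hz' : z ∈ T' := hT'eq ▸ hz
      exact Subalgebra.mul_mem _ (ihy hy') (ihz hz')
  exact key x hx' hx

/-! #### the residual traces, the input, the properties -/

section main

variable (hes : ∀ (j : J') (A : ValuationSubring Qbar), A.LiesOverPrime (q j) → ∀ τ : GQ,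
    A.IsFrobeniusAt τ (q j) → ε τ = ((q j : ℕ) : O) ∧
      r0 τ * r0 τ - t (f j) * r0 τ + ((q j : ℕ) : Module.End O Lam0) = 0)
  (hidx : ∀ ℓ : ℕ, ℓ.Prime → ℓ ∉ Sg → ∃ j : J', q j = ℓ)
  (θ : J' → ResidueField O)
  (hθ : ∀ j : J', ∃ a : O, residue O a = θ j ∧
    (MvPolynomial.X (f j) - MvPolynomial.C a : MvPolynomial Jx O) ∈ mI)
  (rbar : ResidualGaloisRep (ResidueField O))
  (hfrob : ∀ (j : J') (A : ValuationSubring Qbar), A.LiesOverPrime (q j) → ∀ τ : GQ,
    A.IsFrobeniusAt τ (q j) →
      LinearMap.charpoly (rbar.ρ τ) = X ^ 2 - C (θ j) * X + C (((q j : ℕ) : ℕ) : ResidueField O))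

include hT' htq hes hidx hθ hfrob in
/-- **`t(g) mod 𝔪_{T'} = tr ρ̄(g)`** for every `g` -/
theorem residue_tT (g : GQ) :
    residue ↥T' (Dens.tT h g) =
      ResidueField.map (algebraMap O ↥T')
        (LinearMap.trace (ResidueField O) rbar.V (rbar.ρ g)) := by
  refine Exists.trace_eq_of_frob h (residue ↥T')
    (fun x hx => Glue.map_eq_zero_of_mem_smallEnd (maximalIdeal_le_jacobson _) _ x hx)
    (ResidueField.map (algebraMap O ↥T')) rbar
    (fun ℓ hℓ hℓS A hA τ hτ hτT => ?_) g
  obtain ⟨j, rfl⟩ := hidx ℓ hℓ hℓS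
  have h1 : (⟨Dens.tr (LamDatum.rLam O t hcomm mI r0 hr0) ε τ, hτT⟩ : ↥T') =
      tq O t hcomm mI T' f htq j :=
    tT_frob O t hcomm mI r0 hr0 T' h f q htq hes j A hA τ hτ
  exact map_charpoly_aux _ _ _ _ _ (hfrob j A hA τ hτ)
    ((congrArg (residue ↥T') h1).trans (residue_tq O t hcomm mI T' hT' f htq θ hθ j))

variable [Invertible (2 : ↥T')] {c g₀ h₀ : GQ}
  {b : Module.Basis (Fin 2) (ResidueField O) rbar.V} (hn : ExistsNorm.Norm rbar c g₀ h₀ b)

include hT' htq hes hidx hθ hfrob hn in
/-- **`ρ` EXISTS AT THE GIVEN NORMALISATION** (literal of `Num/ExportT.RelGenT`) -/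
theorem exists_input [Invertible (2 : O)] (hc : c * c = 1) (hεc : ε c = -1) :
    ∃ hin : InputG h c g₀ h₀, IsContMat ↥T' (repG h hin) ∧
      mapMat (residue ↥T') (repG h hin) =
        mapMat (ResidueField.map (algebraMap O ↥T')) (resMatOf rbar b) :=
  exists_inputG h rbar hn
    (residue_tT O t hcomm mI r0 hr0 T' hT' h f q htq hes hidx θ hθ rbar hfrob) hc hεc

include hT' htq hes hidx hθ hfrob hn in
/-- the same with `c` the complex conjugation and `ε` the cyclotomic character -/
theorem exists_input_conj [Invertible (2 : O)] (p : ℕ) [Fact p.Prime] (ι : ℤ_[p] →+* O)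
    (hε : ∀ σ, ε σ = cycChar p ι σ) (hcc : c = complexConjugation) :
    ∃ hin : InputG h c g₀ h₀, IsContMat ↥T' (repG h hin) ∧
      mapMat (residue ↥T') (repG h hin) =
        mapMat (ResidueField.map (algebraMap O ↥T')) (resMatOf rbar b) := by
  refine exists_input O t hcomm mI r0 hr0 T' hT' h f q htq hes hidx θ hθ rbar hfrob hn ?_ ?_
  · rw [hcc]
    exact complexConjugation_mul_self
  · rw [hcc, hε]
    exact Conj.cycChar_conj p ι

variable (hin : InputG h c g₀ h₀)

include hT' htq hes hidx hθ hfrob hn in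
/-- for EVERY input at the normalisation, `repG h hin` reduces to `ρ̄` in the basis `b` -/
theorem mapMat_repG' :
    mapMat (residue ↥T') (repG h hin) =
      mapMat (ResidueField.map (algebraMap O ↥T')) (resMatOf rbar b) :=
  mapMat_repG h hin rbar hn
    (residue_tT O t hcomm mI r0 hr0 T' hT' h f q htq hes hidx θ hθ rbar hfrob)

include hT' htq hes hidx hθ hfrob hn in
/-- the residual representation of `ρ` is `ρ̄`, in the Prelude's vocabulary -/
theorem residual_rhoG_isEquiv' :
    (rhoG h hin).residual.IsEquiv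
      (rbar.baseChangeAlong (ResidueField.map (algebraMap O ↥T'))) :=
  residual_rhoG_isEquiv h hin rbar hn
    (residue_tT O t hcomm mI r0 hr0 T' hT' h f q htq hes hidx θ hθ rbar hfrob)

include hes in
/-- **`tr ρ(Frob_{q j}) = T'_{q j}`** -/
theorem trace_rhoG_frob (j : J') (A : ValuationSubring Qbar) (hA : A.LiesOverPrime (q j))
    (τ : GQ) (hτ : A.IsFrobeniusAt τ (q j)) :
    (rhoG h hin).trace τ = tq O t hcomm mI T' f htq j := by
  rw [trace_rhoG]
  exact tT_frob O t hcomm mI r0 hr0 T' h f q htq hes j A hA τ hτ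

include hes in
/-- **(N2): `T'` is generated over `O` by the traces of `ρ`**, when it is by the `T'_{q j}` -/
theorem adjoin_trace_repG (hq : ∀ j, (q j).Prime)
    (hgen : Algebra.adjoin O (Set.range (tq O t hcomm mI T' f htq)) = ⊤) :
    Algebra.adjoin O (Set.range fun σ : GQ => (repG h hin σ).trace) = ⊤ := by
  rw [eq_top_iff, ← hgen]
  refine Algebra.adjoin_mono ?_
  rintro _ ⟨j, rfl⟩
  obtain ⟨A, τ, hA, hτ⟩ :=
    Fermat.Agent.Lib.FrobeniusExists.exists_valuationSubring_isFrobeniusAt (q j) (hq j)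
  exact ⟨τ, (trace_repG h hin τ).trans (tT_frob O t hcomm mI r0 hr0 T' h f q htq hes j A hA τ hτ)⟩

include hes in
/-- an `O`-algebra homomorphism out of `T'` is determined by its values on the traces of `ρ`
(`Num/RelTanT.TraceSepM (repG h hin)` is the case `B = k[ε]`, by unfolding) -/
theorem algHom_ext_of_trace (hq : ∀ j, (q j).Prime)
    (hgen : Algebra.adjoin O (Set.range (tq O t hcomm mI T' f htq)) = ⊤)
    {B : Type*} [Semiring B] [Algebra O B] (φ ψ : ↥T' →ₐ[O] B)
    (hφψ : ∀ σ : GQ, φ ((repG h hin σ).trace) = ψ ((repG h hin σ).trace)) : φ = ψ := by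
  refine AlgHom.ext_of_adjoin_eq_top
    (adjoin_trace_repG O t hcomm mI r0 hr0 T' h f q htq hes hin hq hgen) ?_
  rintro x ⟨σ, rfl⟩
  exact hφψ σ

/-- **`ρ` is unramified at `ℓ`** when the inertia groups at `ℓ` act trivially on `Lam0` -/
theorem isUnramifiedAt_rhoG' (ℓ : ℕ)
    (hℓ : ∀ P : ValuationSubring Qbar, P.LiesOverPrime ℓ → ∀ σ ∈ P.inertiaSubgroupIn ℚ,
      r0 σ = 1) : (rhoG h hin).IsUnramifiedAt ℓ := by
  refine isUnramifiedAt_rhoG h hin ℓ fun P hP σ hσ => ?_
  have h3 : LamDatum.rC O t r0 hr0 σ = 1 := Subtype.ext (hℓ P hP σ hσ)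
  rw [LamDatum.rLam_apply, h3, map_one]

end main

end lam

end Fermat.Agent.S43.Rho.MainGen

end
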