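/-
PROJECT R (S43), block L1 = `Rho/**`, brick `Rho/TrSub` (helper3; the chief's brick (5)(d)):
THE GENERIC SUBALGEBRA `T' ≤ T ≤ End_{R₀}(Λ)` OF A COMMUTATIVE LOCAL HECKE ALGEBRA.

Setting: `R₀` a commutative ring (think: a complete noetherian local ring `𝒪`), `Λ` an `R₀`-module
(think: finite free), `T` a subalgebra of `End_{R₀}(Λ)` that is commutative, finite over `R₀` and
local (the instances of `Rho/LamInst`, `Rho/LamInstD` on the full Hecke algebra), and `T' ≤ T` ANY
subalgebra (think: the closed subalgebra generated by the traces, `Algebra.adjoin R₀ S`).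

RESULTS (everything for `T'` from the same thing for `T`)
* `isMulCommutative_of_le` : `T'` is commutative;
* `finite_subalgebra`, `isNoetherianRing_subalgebra` : every subalgebra of `End Λ` is finite over a
  noetherian `R₀` (`Λ` finite), hence a noetherian ring when commutative;
* `isIntegral_inclusion`, `isLocalHom_inclusion`, `isLocalHom_inclusion_toRingHom` : `T` is integral
  over `T'`, so the inclusion is a local homomorphism (and it is injective, `inclusion_injective`);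
* `isLocalRing_of_le` : `T'` is LOCAL;
* `isLocalHom_algebraMap_of_le` : `R₀ → T'` is local when `R₀ → T` is;
* `isUnit_of_isUnit_inclusion`, `isUnit_mk_of_le`, `inv_mem_of_le` : a unit of `T` lying in `T'` is
  a unit of `T'`; `invertibleTwoOfLe`;
* `mem_maximalIdeal_iff`, `maximalIdeal_eq_comap` : `𝔪_{T'} = 𝔪_T ∩ T'`;
* `residue_inclusion`, `injective_residueField_map_inclusion` ;
* `surjective_residue_comp_of_le`, `surjective_residueField_map_of_le`,
  `bijective_residueField_map_inclusion` : if `R₀ → T/𝔪_T` is onto, so is `R₀ → T'/𝔪_{T'}`, and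
  then `T'/𝔪_{T'} → T/𝔪_T` is bijective;
* `isAdicComplete_subalgebra` : a commutative local subalgebra of `End Λ` over a complete
  noetherian local `R₀` (with `R₀ → T'` local) is complete for its maximal ideal;
* `datum_of_le'`, `datum_of_le`, `datum_of_tr_mem` : `Dens.Datum` descends to `T'` as soon as the
  Eichler-Shimura coefficients (= the traces of the Frobenius elements) lie in `T'`;
* `adjoin_le_of_subset`, `datum_adjoin` : `Algebra.adjoin R₀ S`, `S ⊆ T`, is such a `T'`;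
* `trAlg`, `trAlg_le`, `tr_mem_trAlg`, `datum_trAlg` : the trace algebra
  `R₀[t(g) : g ∈ G_ℚ] ≤ T` carries the datum.
-/
import Mathlib
import Fermat.Prelude.Thm_IsLocalRing_isAdicComplete_of_module_finite
import Fermat.Agent.S43.Rho.Dens

set_option autoImplicit false

noncomputable section

namespace Fermat.Agent.S43.Rho.TrSub

open IsLocalRing
open Fermat.Agent.S31.Core
open scoped IsMulCommutative

/-! ### Algebra: commutativity, finiteness, locality, units, residue fields, completeness -/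

section algebra

variable {R₀ : Type*} [CommRing R₀] {Λ : Type*} [AddCommGroup Λ] [Module R₀ Λ]
  {T T' : Subalgebra R₀ (Module.End R₀ Λ)}

/-- **`T'` is commutative.** -/
theorem isMulCommutative_of_le [IsMulCommutative ↥T] (hle : T' ≤ T) : IsMulCommutative ↥T' := by
  refine ⟨⟨fun x y => ?_⟩⟩
  have h := mul_comm (Subalgebra.inclusion hle x) (Subalgebra.inclusion hle y)
  apply Subalgebra.inclusion_injective hle
  rw [map_mul, map_mul]
  exact h

/-- Every subalgebra of `End Λ` is finite over a noetherian `R₀` (`Λ` finite). -/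
theorem finite_subalgebra [IsNoetherianRing R₀] [Module.Finite R₀ Λ]
    (T' : Subalgebra R₀ (Module.End R₀ Λ)) : Module.Finite R₀ ↥T' := by
  have h : IsNoetherian R₀ (Module.End R₀ Λ) := isNoetherian_linearMap R₀ Λ Λ
  have h2 : IsNoetherian R₀ (Subalgebra.toSubmodule T') := isNoetherian_submodule' _
  exact Module.IsNoetherian.finite R₀ (Subalgebra.toSubmodule T')

/-- A commutative subalgebra of `End Λ` is a noetherian ring (`R₀` noetherian, `Λ` finite). -/
theorem isNoetherianRing_subalgebra [IsNoetherianRing R₀] [Module.Finite R₀ Λ]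
    (T' : Subalgebra R₀ (Module.End R₀ Λ)) [IsMulCommutative ↥T'] : IsNoetherianRing ↥T' :=
  have := finite_subalgebra T'
  IsNoetherianRing.of_finite R₀ ↥T'

theorem inclusion_injective (hle : T' ≤ T) : Function.Injective (Subalgebra.inclusion hle) :=
  Subalgebra.inclusion_injective hle

/-- **`T` is integral over `T'`** (it is finite over `R₀`). -/
theorem isIntegral_inclusion [IsMulCommutative ↥T] [IsMulCommutative ↥T'] [Module.Finite R₀ ↥T]
    (hle : T' ≤ T) : (Subalgebra.inclusion hle).toRingHom.IsIntegral := by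
  refine RingHom.IsIntegral.tower_top (algebraMap R₀ ↥T') (Subalgebra.inclusion hle).toRingHom ?_
  have h1 : (Subalgebra.inclusion hle).toRingHom.comp (algebraMap R₀ ↥T') = algebraMap R₀ ↥T :=
    (Subalgebra.inclusion hle).comp_algebraMap
  rw [h1]
  exact algebraMap_isIntegral_iff.2 (Algebra.IsIntegral.of_finite R₀ ↥T)

/-- **The inclusion `T' → T` is a local homomorphism**, as a ring homomorphism. -/
theorem isLocalHom_inclusion_toRingHom [IsMulCommutative ↥T] [Module.Finite R₀ ↥T] (hle : T' ≤ T) :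
    IsLocalHom (Subalgebra.inclusion hle).toRingHom := by
  have := isMulCommutative_of_le hle
  exact (isIntegral_inclusion hle).isLocalHom (Subalgebra.inclusion_injective hle)

/-- **The inclusion `T' → T` is a local homomorphism.** -/
theorem isLocalHom_inclusion [IsMulCommutative ↥T] [Module.Finite R₀ ↥T] (hle : T' ≤ T) :
    IsLocalHom (Subalgebra.inclusion hle) :=
  ⟨fun a ha => (isLocalHom_inclusion_toRingHom hle).map_nonunit a ha⟩

/-- **A unit of `T` that lies in `T'` is a unit of `T'`.** -/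
theorem isUnit_of_isUnit_inclusion [IsMulCommutative ↥T] [Module.Finite R₀ ↥T] (hle : T' ≤ T)
    {u : ↥T'} (hu : IsUnit (Subalgebra.inclusion hle u)) : IsUnit u :=
  (isLocalHom_inclusion hle).map_nonunit u hu

/-- The same, on elements of `End Λ`. -/
theorem isUnit_mk_of_le [IsMulCommutative ↥T] [Module.Finite R₀ ↥T] (hle : T' ≤ T)
    {u : Module.End R₀ Λ} (hu : u ∈ T') (h : IsUnit (⟨u, hle hu⟩ : ↥T)) :
    IsUnit (⟨u, hu⟩ : ↥T') :=
  isUnit_of_isUnit_inclusion hle (u := ⟨u, hu⟩) h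

/-- The inverse in `T` of an element of `T'` lies in `T'`. -/
theorem inv_mem_of_le [IsMulCommutative ↥T] [Module.Finite R₀ ↥T] (hle : T' ≤ T)
    {u v : Module.End R₀ Λ} (hu : u ∈ T') (hv : v ∈ T) (huv : u * v = 1) : v ∈ T' := by
  have h1 : IsUnit (⟨u, hle hu⟩ : ↥T) :=
    IsUnit.of_mul_eq_one (⟨v, hv⟩ : ↥T) (Subtype.ext huv)
  obtain ⟨w, hw⟩ := isUnit_mk_of_le hle hu h1
  have h2 : u * ((↑w⁻¹ : ↥T') : Module.End R₀ Λ) = 1 := by
    have h3 : ((w : ↥T') : Module.End R₀ Λ) = u := congrArg Subtype.val hw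
    rw [← h3, ← Subalgebra.coe_mul, Units.mul_inv, Subalgebra.coe_one]
  have hvu : v * u = 1 := by
    have h4 := mul_comm (⟨u, hle hu⟩ : ↥T) ⟨v, hv⟩
    have h5 : v * u = u * v := (congrArg Subtype.val h4).symm
    rw [h5, huv]
  have h6 : v = ((↑w⁻¹ : ↥T') : Module.End R₀ Λ) := by
    calc v = v * (u * ((↑w⁻¹ : ↥T') : Module.End R₀ Λ)) := by rw [h2, mul_one]
      _ = (v * u) * ((↑w⁻¹ : ↥T') : Module.End R₀ Λ) := (mul_assoc _ _ _).symm
      _ = ((↑w⁻¹ : ↥T') : Module.End R₀ Λ) := by rw [hvu, one_mul]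
  rw [h6]
  exact Subtype.property _

/-- **`T'` is a local ring.** -/
theorem isLocalRing_of_le [IsMulCommutative ↥T] [Module.Finite R₀ ↥T] [IsLocalRing ↥T]
    (hle : T' ≤ T) : IsLocalRing ↥T' :=
  haveI := isLocalHom_inclusion_toRingHom hle
  RingHom.domain_isLocalRing (Subalgebra.inclusion hle).toRingHom

/-- **`R₀ → T'` is a local homomorphism** when `R₀ → T` is. -/
theorem isLocalHom_algebraMap_of_le [IsLocalHom (algebraMap R₀ ↥T)] (hle : T' ≤ T) :
    IsLocalHom (algebraMap R₀ ↥T') := by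
  refine ⟨fun a ha => ?_⟩
  have h1 : IsUnit (Subalgebra.inclusion hle (algebraMap R₀ ↥T' a)) := ha.map _
  rw [AlgHom.commutes] at h1
  exact isUnit_of_map_unit (algebraMap R₀ ↥T) a h1

/-- `2` is invertible in `T'` when it is in `T`. -/
@[reducible] def invertibleTwoOfLe [IsMulCommutative ↥T] [Module.Finite R₀ ↥T] (hle : T' ≤ T)
    [Invertible (2 : ↥T)] : Invertible (2 : ↥T') :=
  (isUnit_of_isUnit_inclusion hle (u := (2 : ↥T'))
    (by rw [map_ofNat]; exact isUnit_of_invertible (2 : ↥T))).invertible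

section residue

variable [IsMulCommutative ↥T] [IsMulCommutative ↥T'] [IsLocalRing ↥T] [IsLocalRing ↥T']

/-- **`𝔪_{T'} = 𝔪_T ∩ T'`.** -/
theorem mem_maximalIdeal_iff [Module.Finite R₀ ↥T] (hle : T' ≤ T) (x : ↥T') :
    x ∈ maximalIdeal ↥T' ↔ Subalgebra.inclusion hle x ∈ maximalIdeal ↥T := by
  rw [mem_maximalIdeal, mem_maximalIdeal, mem_nonunits_iff, mem_nonunits_iff, not_iff_not]
  exact ⟨fun h => h.map _, fun h => isUnit_of_isUnit_inclusion hle h⟩

theorem maximalIdeal_eq_comap [Module.Finite R₀ ↥T] (hle : T' ≤ T) :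
    maximalIdeal ↥T' = (maximalIdeal ↥T).comap (Subalgebra.inclusion hle).toRingHom :=
  Ideal.ext fun x => mem_maximalIdeal_iff hle x

/-- the residue map of `T` on `T'` factors through the residue map of `T'` -/
theorem residue_inclusion [Module.Finite R₀ ↥T] (hle : T' ≤ T) :
    haveI := isLocalHom_inclusion_toRingHom hle
    ∀ x : ↥T', ResidueField.map (Subalgebra.inclusion hle).toRingHom (residue ↥T' x) =
      residue ↥T (Subalgebra.inclusion hle x) := fun _ => rfl

/-- **If `R₀ → T/𝔪_T` is onto, so is `R₀ → T'/𝔪_{T'}`** (the `hres` of the lifting brick). -/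
theorem surjective_residue_comp_of_le (hle : T' ≤ T)
    (hres : Function.Surjective (residue ↥T ∘ algebraMap R₀ ↥T)) :
    Function.Surjective (residue ↥T' ∘ algebraMap R₀ ↥T') := by
  intro y
  obtain ⟨x, rfl⟩ := residue_surjective y
  obtain ⟨a, ha⟩ := hres (residue ↥T (Subalgebra.inclusion hle x))
  refine ⟨a, ?_⟩
  rw [Function.comp_apply] at ha ⊢
  rw [← sub_eq_zero, ← map_sub, residue_eq_zero_iff, mem_maximalIdeal, mem_nonunits_iff]
  rw [← sub_eq_zero, ← map_sub, residue_eq_zero_iff, mem_maximalIdeal, mem_nonunits_iff,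
    ← (Subalgebra.inclusion hle).commutes a, ← map_sub] at ha
  exact fun h => ha (h.map _)

/-- The same with `ResidueField.map`. -/
theorem surjective_residueField_map_of_le [IsLocalRing R₀] [IsLocalHom (algebraMap R₀ ↥T')]
    (hle : T' ≤ T) (hres : Function.Surjective (residue ↥T ∘ algebraMap R₀ ↥T)) :
    Function.Surjective (ResidueField.map (algebraMap R₀ ↥T')) := by
  intro y
  obtain ⟨a, ha⟩ := surjective_residue_comp_of_le hle hres y
  exact ⟨residue R₀ a, ha⟩

/-- `T'/𝔪_{T'} → T/𝔪_T` is injective (a homomorphism of fields). -/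
theorem injective_residueField_map_inclusion [Module.Finite R₀ ↥T] (hle : T' ≤ T) :
    haveI := isLocalHom_inclusion_toRingHom hle
    Function.Injective (ResidueField.map (Subalgebra.inclusion hle).toRingHom) :=
  haveI := isLocalHom_inclusion_toRingHom hle
  (ResidueField.map (Subalgebra.inclusion hle).toRingHom).injective

/-- **`T'/𝔪_{T'} → T/𝔪_T` is bijective when `R₀ → T/𝔪_T` is onto.** -/
theorem bijective_residueField_map_inclusion [Module.Finite R₀ ↥T] (hle : T' ≤ T)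
    (hres : Function.Surjective (residue ↥T ∘ algebraMap R₀ ↥T)) :
    haveI := isLocalHom_inclusion_toRingHom hle
    Function.Bijective (ResidueField.map (Subalgebra.inclusion hle).toRingHom) := by
  have := isLocalHom_inclusion_toRingHom hle
  refine ⟨(ResidueField.map (Subalgebra.inclusion hle).toRingHom).injective, fun y => ?_⟩
  obtain ⟨a, rfl⟩ := hres y
  refine ⟨residue ↥T' (algebraMap R₀ ↥T' a), ?_⟩
  rw [residue_inclusion hle, AlgHom.commutes, Function.comp_apply]

end residue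

/-- **A commutative local subalgebra of `End Λ` is complete for its maximal ideal** (`R₀` complete
noetherian local, `Λ` finite, `R₀ → T'` local). -/
theorem isAdicComplete_subalgebra [IsLocalRing R₀] [IsNoetherianRing R₀]
    [IsAdicComplete (maximalIdeal R₀) R₀] [Module.Finite R₀ Λ]
    (T' : Subalgebra R₀ (Module.End R₀ Λ)) [IsMulCommutative ↥T'] [IsLocalRing ↥T']
    [IsLocalHom (algebraMap R₀ ↥T')] : IsAdicComplete (maximalIdeal ↥T') ↥T' :=
  have := finite_subalgebra T'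
  IsLocalRing.isAdicComplete_of_module_finite (𝒪 := R₀) (T := ↥T')

end algebra

/-! ### The density datum descends -/

section datum

variable {R₀ : Type*} [CommRing R₀] {Λ : Type*} [AddCommGroup Λ] [Module R₀ Λ]
  {Sg : Finset ℕ} {I₀ : Ideal R₀} {r : GQ →* Module.End R₀ Λ} {ε : GQ →* R₀}
  {T T' : Subalgebra R₀ (Module.End R₀ Λ)}

/-- **`Dens.Datum` descends to a subalgebra**, closedness as a hypothesis. -/
theorem datum_of_le' (h : Dens.Datum Sg I₀ r ε T) (hle : T' ≤ T)
    (hes : ∀ ℓ : ℕ, ℓ.Prime → ℓ ∉ Sg → ∀ A : ValuationSubring Qbar, A.LiesOverPrime ℓ →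
      ∀ τ : GQ, A.IsFrobeniusAt τ ℓ →
        ∃ a ∈ T', r τ * r τ - a * r τ + ((ℓ : ℕ) : Module.End R₀ Λ) = 0)
    (hclosed : ∀ x : Module.End R₀ Λ,
      (∀ n : ℕ, ∃ b ∈ T', x - b ∈ smallEnd (V := Λ) (I₀ ^ n)) → x ∈ T') :
    Dens.Datum Sg I₀ r ε T' where
  cont_r := h.cont_r
  cont_ε := h.cont_ε
  frob_ε := h.frob_ε
  comm := fun x hx g => h.comm x (hle hx) g
  es := hes
  closed := hclosed

/-- **`Dens.Datum` descends to a subalgebra** (`R₀` noetherian, `I₀` in the radical, `Λ` finite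
free: every subalgebra is closed). -/
theorem datum_of_le [IsNoetherianRing R₀] [Module.Free R₀ Λ] [Module.Finite R₀ Λ]
    (hI : I₀ ≤ Ideal.jacobson ⊥) (h : Dens.Datum Sg I₀ r ε T) (hle : T' ≤ T)
    (hes : ∀ ℓ : ℕ, ℓ.Prime → ℓ ∉ Sg → ∀ A : ValuationSubring Qbar, A.LiesOverPrime ℓ →
      ∀ τ : GQ, A.IsFrobeniusAt τ ℓ →
        ∃ a ∈ T', r τ * r τ - a * r τ + ((ℓ : ℕ) : Module.End R₀ Λ) = 0) :
    Dens.Datum Sg I₀ r ε T' :=
  datum_of_le' h hle hes (Dens.closed_subalgebra hI T')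

/-- The same over a local ring with `I₀` a proper ideal. -/
theorem datum_of_le_local [IsLocalRing R₀] [IsNoetherianRing R₀] [Module.Free R₀ Λ]
    [Module.Finite R₀ Λ] (hI : I₀ ≠ ⊤) (h : Dens.Datum Sg I₀ r ε T) (hle : T' ≤ T)
    (hes : ∀ ℓ : ℕ, ℓ.Prime → ℓ ∉ Sg → ∀ A : ValuationSubring Qbar, A.LiesOverPrime ℓ →
      ∀ τ : GQ, A.IsFrobeniusAt τ ℓ →
        ∃ a ∈ T', r τ * r τ - a * r τ + ((ℓ : ℕ) : Module.End R₀ Λ) = 0) :
    Dens.Datum Sg I₀ r ε T' :=
  datum_of_le (Dens.le_jacobson_bot_of_ne_top hI) h hle hes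

/-- The Eichler-Shimura coefficient IS the trace: it is enough that the traces of the Frobenius
elements lie in `T'`. -/
theorem datum_of_tr_mem [IsNoetherianRing R₀] [Module.Free R₀ Λ] [Module.Finite R₀ Λ]
    (hI : I₀ ≤ Ideal.jacobson ⊥) (h : Dens.Datum Sg I₀ r ε T) (hle : T' ≤ T)
    (htr : ∀ ℓ : ℕ, ℓ.Prime → ℓ ∉ Sg → ∀ A : ValuationSubring Qbar, A.LiesOverPrime ℓ →
      ∀ τ : GQ, A.IsFrobeniusAt τ ℓ → Dens.tr r ε τ ∈ T') :
    Dens.Datum Sg I₀ r ε T' :=
  datum_of_le hI h hle fun ℓ hℓ hℓS A hA τ hτ =>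
    ⟨Dens.tr r ε τ, htr ℓ hℓ hℓS A hA τ hτ, Dens.es_tr τ (h.frob_ε ℓ hℓ hℓS A hA τ hτ)⟩

/-- Conversely the traces of ALL elements lie in a subalgebra carrying a datum. -/
theorem es_of_tr_mem (h : Dens.Datum Sg I₀ r ε T)
    (htr : ∀ ℓ : ℕ, ℓ.Prime → ℓ ∉ Sg → ∀ A : ValuationSubring Qbar, A.LiesOverPrime ℓ →
      ∀ τ : GQ, A.IsFrobeniusAt τ ℓ → Dens.tr r ε τ ∈ T') :
    ∀ ℓ : ℕ, ℓ.Prime → ℓ ∉ Sg → ∀ A : ValuationSubring Qbar, A.LiesOverPrime ℓ →
      ∀ τ : GQ, A.IsFrobeniusAt τ ℓ →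
        ∃ a ∈ T', r τ * r τ - a * r τ + ((ℓ : ℕ) : Module.End R₀ Λ) = 0 :=
  fun ℓ hℓ hℓS A hA τ hτ =>
    ⟨Dens.tr r ε τ, htr ℓ hℓ hℓS A hA τ hτ, Dens.es_tr τ (h.frob_ε ℓ hℓ hℓS A hA τ hτ)⟩

/-! ### `Algebra.adjoin R₀ S`, `S ⊆ T` -/

theorem adjoin_le_of_subset {S : Set (Module.End R₀ Λ)} (hS : S ⊆ T) : Algebra.adjoin R₀ S ≤ T :=
  Algebra.adjoin_le hS

/-- **The subalgebra generated by a set `S ⊆ T` containing the Eichler-Shimura coefficients
carries the datum.** -/
theorem datum_adjoin [IsNoetherianRing R₀] [Module.Free R₀ Λ] [Module.Finite R₀ Λ]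
    (hI : I₀ ≤ Ideal.jacobson ⊥) (h : Dens.Datum Sg I₀ r ε T) {S : Set (Module.End R₀ Λ)}
    (hS : S ⊆ T)
    (hes : ∀ ℓ : ℕ, ℓ.Prime → ℓ ∉ Sg → ∀ A : ValuationSubring Qbar, A.LiesOverPrime ℓ →
      ∀ τ : GQ, A.IsFrobeniusAt τ ℓ →
        ∃ a ∈ S, r τ * r τ - a * r τ + ((ℓ : ℕ) : Module.End R₀ Λ) = 0) :
    Dens.Datum Sg I₀ r ε (Algebra.adjoin R₀ S) :=
  datum_of_le hI h (Algebra.adjoin_le hS) fun ℓ hℓ hℓS A hA τ hτ => by
    obtain ⟨a, ha, hr⟩ := hes ℓ hℓ hℓS A hA τ hτ
    exact ⟨a, Algebra.subset_adjoin ha, hr⟩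

/-! ### The trace algebra -/

/-- the subalgebra generated by all the traces `t(g) = r(g) + ε(g) r(g)⁻¹` -/
def trAlg (r : GQ →* Module.End R₀ Λ) (ε : GQ →* R₀) : Subalgebra R₀ (Module.End R₀ Λ) :=
  Algebra.adjoin R₀ (Set.range (Dens.tr r ε))

theorem tr_mem_trAlg (g : GQ) : Dens.tr r ε g ∈ trAlg r ε :=
  Algebra.subset_adjoin ⟨g, rfl⟩

/-- the trace algebra lies in every subalgebra carrying a datum -/
theorem trAlg_le (h : Dens.Datum Sg I₀ r ε T) : trAlg r ε ≤ T :=
  Algebra.adjoin_le (by rintro _ ⟨g, rfl⟩; exact Dens.tr_mem h g)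

/-- **the trace algebra carries the datum** -/
theorem datum_trAlg [IsNoetherianRing R₀] [Module.Free R₀ Λ] [Module.Finite R₀ Λ]
    (hI : I₀ ≤ Ideal.jacobson ⊥) (h : Dens.Datum Sg I₀ r ε T) :
    Dens.Datum Sg I₀ r ε (trAlg r ε) :=
  datum_of_tr_mem hI h (trAlg_le h) fun _ _ _ _ _ τ _ => tr_mem_trAlg τ

/-- a subalgebra of `T` contains the trace algebra as soon as it contains the traces of the
Frobenius elements (density + closedness) -/
theorem trAlg_le_of_tr_mem [IsNoetherianRing R₀] [Module.Free R₀ Λ] [Module.Finite R₀ Λ]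
    (hI : I₀ ≤ Ideal.jacobson ⊥) (h : Dens.Datum Sg I₀ r ε T) (hle : T' ≤ T)
    (htr : ∀ ℓ : ℕ, ℓ.Prime → ℓ ∉ Sg → ∀ A : ValuationSubring Qbar, A.LiesOverPrime ℓ →
      ∀ τ : GQ, A.IsFrobeniusAt τ ℓ → Dens.tr r ε τ ∈ T') :
    trAlg r ε ≤ T' :=
  trAlg_le (datum_of_tr_mem hI h hle htr)

end datum

end Fermat.Agent.S43.Rho.TrSub
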