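/-
PROJECT R (S43, row 37), block L1 = `Rho/**` (architect helper22), file `Rho/MainD` (helper27):
THE INSTANCES OF `Rho/MainGen` ON THE MODULE OF RECORD WITH THE DIAMONDS (`Rho/LamInstD`, `S₀`
threaded), FOR EVERY COEFFICIENT SUBALGEBRA `T' ≤ T_Q` CONTAINING THE `T'_r`, IN PARTICULAR
`T' = T_Q` (the full Hecke algebra, diamonds included: the bridge, the types, the display) AND
`T' = TQtr` (the subalgebra generated by the `T'_r` = the trace algebra: NUM, `Θ` onto), the chief's
two-subalgebra design.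

`Λ_Q := LamInstD.LamQ M m p H O S₀ 𝔪`, `𝔪` a maximal ideal of `MvPolynomial (J M p S₀ ⊕ (ℤ/M)ˣ) O`.
Residual data: `θ : J M p S₀ → ResidueField O` with `X (inl j) - C a ∈ 𝔪` for a lift `a` of `θ j`,
`ρ̄` over `ResidueField O` with characteristic polynomial `X² - θ_r X + r` at the Frobenius elements
at the `r` of the index set, a normalisation `(c, g₀, h₀, b)` of `ρ̄` (`ExistsNorm.Norm`).

Consumers: `haveI := LamInstD.finite_LamQ M m p H O S₀ 𝔪 hM`, then for `T'` the four lines
`haveI := isMulCommutative_sub .. T' hle`, `haveI := isLocalRing_sub .. T' hle`,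
`haveI := isLocalHom_algebraMap_sub .. T'`, `letI := invertibleTwoSub .. T'`
(`T' = T_Q` : `LamInstD.isMulCommutative_TQ`, `isLocalHom_algebraMap_TQ`, `hle := le_rfl`,
`htq := tQ_mem_TQ ..`; `T' = TQtr` : `isMulCommutative_TQtr`, `isLocalRing_TQtr`,
`isLocalHom_algebraMap_TQtr`, `hle := TQtr_le ..`, `htq := tQ_mem_TQtr ..`).

* `isMulCommutative_sub`, `isLocalRing_sub`, `isLocalHom_algebraMap_sub`, `invertibleTwoSub`,
  `finite_sub`, `isAdicComplete_sub`, `finite_residueField_sub` : the instances of `T'`;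
* `tT_inclusion`, `uinv_inclusion`, `repG_inclusion` (generic, any density datum) : for inputs
  `hin'` over `T'` and `hin''` over `T'' ⊇ T'` at the SAME `(c, g₀, h₀)`,
  `repG h'' hin'' g = (repG h' hin' g).map (inclusion)`;
* `hesD`, `hidxD`, `datumSub` : the density datum on `T'`; `tqSub j : T'`, `coe_tqSub`;
* `tT_frob`, `residue_tqSub`, `residue_tT`, `exists_input`, `exists_input_conj`, `mapMat_repG`,
  `residual_rhoG_isEquiv`, `trace_rhoG_frob`, `detIsCyclotomic_rhoG`, `isUnramifiedAt_rhoG`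
  (at EVERY `ℓ ∤ M p`, in `S₀` or not), `isFlatAt_rhoG` : the package of `Rho/MainGen` +
  `Rho/Props/FlatSub` for `MainGen.rhoG (datumSub ..) hin`, every hypothesis of theirs discharged
  (the remaining statements of `MainGen` PART A, `trace_rhoG`, `det_rhoG`, `rhoG_eq`, .., apply as
  they are);
* with `hgen : adjoin O (range tqSub) = ⊤` : `surjective_residue_comp` (the `hres` of
  `RSide/LiftHyp`), `surjective_residueField_map`, `adjoin_trace_repG`, `algHom_ext_of_trace`
  (**(N2)**);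
* `tQ_mem_TQ`; `TQtr`, `TQtr_le`, `tQ_mem_TQtr`, `isMulCommutative_TQtr`, `isLocalRing_TQtr`,
  `isLocalHom_algebraMap_TQtr`, `isLocalHom_algebraMap_TQ`, `adjoin_tqSub_TQtr` (the `hgen` at
  `T' := TQtr`);
* `surjective_residue_comp_TQ`, `surjective_residue_comp_of_le` : the residue field of the full
  `T_Q` (and of every `T' ≤ T_Q`) is the residue field of `O`, when every variable of
  `MvPolynomial (K M p S₀) O` (diamonds included) is congruent to a scalar modulo `𝔪`
  (helper2's `LamGen.adjoin_range_ofP_X`).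
-/
import Mathlib
import Fermat.Agent.S43.Rho.LamInstD
import Fermat.Agent.S43.Rho.TrSub
import Fermat.Agent.S43.Rho.MainGen
import Fermat.Agent.S43.Rho.Props.FlatSub
import Fermat.Agent.S43.Rho.Units
import Fermat.Agent.S43.Rho.LamGen

set_option autoImplicit false
set_option linter.unusedSectionVars false
set_option linter.style.haveILetI false

noncomputable section

namespace Fermat.Agent.S43.Rho.MainD

open IsLocalRing Polynomial
open Fermat.Agent.S31.Core Fermat.Agent.S43.Rho
open Fermat.Agent.S43.Rho.Lam Fermat.Agent.S43.Hecke.PolyModule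
open Fermat.Agent.S43.Rho.Feed
open Fermat.Agent.S43.Rho.LamInst (J Sg)
open Fermat.Agent.S43.Rho.LamInstD (K tK hcommK rOcommK LamQ TQ rQ tQ dQ)
open Fermat.Agent.S53.Dictionary hiding GQ
open scoped IsMulCommutative

attribute [local instance] Glue.smulCommClassT Glue.algebraEnd

variable (M : ℕ) [NeZero M] (m : ℕ) (p : ℕ) [hp : Fact p.Prime] (H : Subgroup (ZMod M)ˣ)
  (O : Type) [CommRing O] [Algebra ℤ_[p] O] [IsLocalRing O] [IsNoetherianRing O]
  [IsAdicComplete (maximalIdeal O) O] (S₀ : Finset ℕ)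
  (mI : Ideal (MvPolynomial (K M p S₀) O)) [mI.IsMaximal]

/-! ### The instances of a subalgebra `T' ≤ T_Q`

Everything from `[Nontrivial (LamQ ..)]` and `[Module.Finite O (LamQ ..)]`
(`haveI := LamInstD.finite_LamQ M m p H O S₀ 𝔪 hM`). -/

section inst

variable [Nontrivial (LamQ M m p H O S₀ mI)] [Module.Finite O (LamQ M m p H O S₀ mI)]
  (T' : Subalgebra O (Module.End O (LamQ M m p H O S₀ mI)))
  (hle : T' ≤ TQ M m p H O S₀ mI)

include hle in
/-- `T'` is commutative -/
theorem isMulCommutative_sub : IsMulCommutative ↥T' :=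
  haveI := LamInstD.isMulCommutative_TQ M m p H O S₀ mI
  TrSub.isMulCommutative_of_le hle

include hle in
/-- `T'` is local -/
theorem isLocalRing_sub : IsLocalRing ↥T' :=
  haveI := LamInstD.isMulCommutative_TQ M m p H O S₀ mI
  haveI : Module.Finite O ↥(TQ M m p H O S₀ mI) := MainGen.finite_sub _
  TrSub.isLocalRing_of_le hle

/-- `O → T'` is local -/
theorem isLocalHom_algebraMap_sub : IsLocalHom (algebraMap O ↥T') :=
  Exists.isLocalHom_algebraMap T'

/-- `2` is invertible in `T'` -/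
@[reducible] def invertibleTwoSub [Invertible (2 : O)] : Invertible (2 : ↥T') :=
  Glue.invertibleTwo T'

/-- `T'` is finite over `O` -/
theorem finite_sub : Module.Finite O ↥T' :=
  MainGen.finite_sub T'

end inst

/-! ### Generic: the matrices over `T'` and over `T'' ⊇ T'` at the same normalisation -/

section incl

variable {R₀ : Type} [CommRing R₀] [IsLocalRing R₀] [IsNoetherianRing R₀]
  {Λ : Type} [AddCommGroup Λ] [Module R₀ Λ] [Module.Finite R₀ Λ]
  {Sg : Finset ℕ} {r : GQ →* Module.End R₀ Λ} {ε : GQ →* R₀}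
  {T' T'' : Subalgebra R₀ (Module.End R₀ Λ)}
  [IsMulCommutative ↥T'] [IsLocalRing ↥T'] [IsLocalHom (algebraMap R₀ ↥T')] [Invertible (2 : ↥T')]
  [IsMulCommutative ↥T''] [IsLocalRing ↥T''] [IsLocalHom (algebraMap R₀ ↥T'')]
  [Invertible (2 : ↥T'')]
  (h' : Dens.Datum Sg (maximalIdeal R₀) r ε T') (h'' : Dens.Datum Sg (maximalIdeal R₀) r ε T'')
  (hle : T' ≤ T'') {c g₀ h₀ : GQ}
  (hin' : MainGen.InputG h' c g₀ h₀) (hin'' : MainGen.InputG h'' c g₀ h₀)

/-- the trace function over `T''` is the image of the trace function over `T'` -/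
theorem tT_inclusion (g : GQ) : Dens.tT h'' g = Subalgebra.inclusion hle (Dens.tT h' g) :=
  Subtype.ext rfl

theorem tT_eq_inclusion :
    Dens.tT h'' = fun g => (Subalgebra.inclusion hle).toRingHom (Dens.tT h' g) :=
  funext fun g => tT_inclusion h' h'' hle g

include hin' in
theorem uinv_inclusion :
    CH.uinv hin'' = Subalgebra.inclusion hle (CH.uinv hin') := by
  have h1 := CH.uinv_mul hin''
  have h2 : Subalgebra.inclusion hle (CH.uinv hin') *
      Subalgebra.inclusion hle (CH.xT (Dens.tT h') c g₀ h₀) = 1 := by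
    rw [← map_mul, CH.uinv_mul, map_one]
  have h3 : Subalgebra.inclusion hle (CH.xT (Dens.tT h') c g₀ h₀) =
      CH.xT (Dens.tT h'') c g₀ h₀ := by
    rw [tT_eq_inclusion h' h'' hle]
    exact Units.map_xT (Subalgebra.inclusion hle).toRingHom (Dens.tT h') c g₀ h₀
  rw [h3] at h2
  exact hin''.ux.mul_left_injective (h1.trans h2.symm)

/-- **the matrix over `T''` is the image of the matrix over `T'`**, for inputs at the same
`(c, g₀, h₀)` (the statement of `Props/TypeExt.rep_eq_map` for two coefficient subalgebras) -/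
theorem repG_inclusion (g : GQ) :
    MainGen.repG h'' hin'' g = (MainGen.repG h' hin' g).map (Subalgebra.inclusion hle) := by
  rw [MainGen.repG_eq, MainGen.repG_eq, CH.rep_apply, CH.rep_apply]
  refine Matrix.ext fun i j => ?_
  fin_cases i <;> fin_cases j
  · show CH.aT (Dens.tT h'') c g = Subalgebra.inclusion hle (CH.aT (Dens.tT h') c g)
    rw [tT_eq_inclusion h' h'' hle]
    exact (Units.map_aT (Subalgebra.inclusion hle).toRingHom (Dens.tT h') c g).symm
  · show CH.xT (Dens.tT h'') c g h₀ = Subalgebra.inclusion hle (CH.xT (Dens.tT h') c g h₀)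
    rw [tT_eq_inclusion h' h'' hle]
    exact (Units.map_xT (Subalgebra.inclusion hle).toRingHom (Dens.tT h') c g h₀).symm
  · show CH.uinv hin'' * CH.xT (Dens.tT h'') c g₀ g =
      Subalgebra.inclusion hle (CH.uinv hin' * CH.xT (Dens.tT h') c g₀ g)
    rw [uinv_inclusion h' h'' hle hin' hin'', map_mul]
    congr 1
    rw [tT_eq_inclusion h' h'' hle]
    exact (Units.map_xT (Subalgebra.inclusion hle).toRingHom (Dens.tT h') c g₀ g).symm
  · show CH.dT (Dens.tT h'') c g = Subalgebra.inclusion hle (CH.dT (Dens.tT h') c g)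
    rw [tT_eq_inclusion h' h'' hle]
    exact (Units.map_dT (Subalgebra.inclusion hle).toRingHom (Dens.tT h') c g).symm

end incl

/-! ### The package for a subalgebra `T' ≤ T_Q` containing the `T'_r`

Consumers: `haveI := LamInstD.finite_LamQ M m p H O S₀ 𝔪 hM` (the instance binder
`[Module.Finite O (LamQ ..)]` below), then the instances of `T'` of the first section. -/

section sub

variable [Nontrivial (LamQ M m p H O S₀ mI)] [Module.Finite O (LamQ M m p H O S₀ mI)]
  (T' : Subalgebra O (Module.End O (LamQ M m p H O S₀ mI)))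
  (hle : T' ≤ TQ M m p H O S₀ mI)
  (htq : ∀ j : J M p S₀, (ofP O mI (WithOps (tK M m p H O S₀) (hcommK M m p H O S₀))
    (MvPolynomial.X (Sum.inl j)) : Module.End O (LamQ M m p H O S₀ mI)) ∈ T')
  (hM : 5 ≤ M) (hH : ¬ p ∣ Nat.card H) (hHm : ∀ d : (ZMod M)ˣ, d ^ (2 * m + 1) ∈ H)
  (hpO : (p : O) ∈ maximalIdeal O)

include hHm in
/-- the Eichler-Shimura relation and the value of the cyclotomic character at the Frobenius
elements at the primes of the index set: the `hes` of `Rho/MainGen` -/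
theorem hesD (j : J M p S₀) (A : ValuationSubring Qbar) (hA : A.LiesOverPrime ((j.1 : ℕ)))
    (τ : GQ) (hτ : A.IsFrobeniusAt τ ((j.1 : ℕ))) :
    Inst.eps p O τ = (((j.1 : ℕ) : ℕ) : O) ∧
      Inst.rO M m p H O τ * Inst.rO M m p H O τ -
        tK M m p H O S₀ (Sum.inl j) * Inst.rO M m p H O τ +
          (((j.1 : ℕ) : ℕ) : Module.End O (Inst.LamO M m p H O)) = 0 :=
  ⟨Inst.frob_eps p O j.1.2 j.2.2.1 A hA τ hτ,
    Inst.esO M m p H O hHm j.1 j.2.1 j.2.2.1 A hA τ hτ⟩

/-- every prime outside the bad set is in the index set: the `hidx` of `Rho/MainGen` -/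
theorem hidxD (ℓ : ℕ) (hℓ : ℓ.Prime) (hℓS : ℓ ∉ Sg M p S₀) : ∃ j : J M p S₀, (j.1 : ℕ) = ℓ :=
  ⟨⟨⟨ℓ, hℓ⟩, LamInst.coprime_of_notMem_Sg M p S₀ hℓ hℓS⟩, rfl⟩

include hle htq hM hH hHm hpO in
/-- **the density datum on `T'`** -/
theorem datumSub :
    Dens.Datum (Sg M p S₀) (maximalIdeal O) (rQ M m p H O S₀ mI) (Inst.eps p O) T' := by
  haveI := LamInstD.free_LamQ M m p H O S₀ mI hM
  refine TrSub.datum_of_le_local (Ideal.IsPrime.ne_top inferInstance)
    (LamInstD.datum M m p H O S₀ mI hM hH hHm hpO) hle ?_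
  intro ℓ hℓ hℓS A hA τ hτ
  obtain ⟨h1, h2, h3⟩ := LamInst.coprime_of_notMem_Sg M p S₀ hℓ hℓS
  exact ⟨_, htq ⟨⟨ℓ, hℓ⟩, h1, h2, h3⟩,
    LamDatum.es_loc O (tK M m p H O S₀) (hcommK M m p H O S₀) mI (Inst.rO M m p H O)
      (rOcommK M m p H O S₀) τ (Sum.inl ⟨⟨ℓ, hℓ⟩, h1, h2, h3⟩) ℓ
      (Inst.esO M m p H O hHm ⟨ℓ, hℓ⟩ h1 h2 A hA τ hτ)⟩

/-- the operator `T'_r` as an element of `T'` -/
def tqSub (j : J M p S₀) : ↥T' :=
  MainGen.tq O (tK M m p H O S₀) (hcommK M m p H O S₀) mI T' Sum.inl htq j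

theorem coe_tqSub (j : J M p S₀) :
    ((tqSub M m p H O S₀ mI T' htq j : ↥T') : Module.End O (LamQ M m p H O S₀ mI)) =
      ((tQ M m p H O S₀ mI j : ↥(TQ M m p H O S₀ mI)) : Module.End O (LamQ M m p H O S₀ mI)) :=
  rfl

variable [IsMulCommutative ↥T'] [IsLocalRing ↥T'] [IsLocalHom (algebraMap O ↥T')]

/-- `T'` is complete -/
theorem isAdicComplete_sub : IsAdicComplete (maximalIdeal ↥T') ↥T' :=
  MainGen.isAdicComplete_sub T'

/-- the residue field of `T'` is finite when the residue field of `O` is -/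
theorem finite_residueField_sub [Finite (ResidueField O)] : Finite (ResidueField ↥T') :=
  MainGen.finite_residueField_sub T'

/-- **`t(τ) = T'_r`** in `T'`, for `τ` a Frobenius element at `r` in the index set -/
theorem tT_frob (j : J M p S₀) (A : ValuationSubring Qbar) (hA : A.LiesOverPrime ((j.1 : ℕ)))
    (τ : GQ) (hτ : A.IsFrobeniusAt τ ((j.1 : ℕ))) :
    Dens.tT (datumSub M m p H O S₀ mI T' hle htq hM hH hHm hpO) τ =
      tqSub M m p H O S₀ mI T' htq j :=
  MainGen.tT_frob O (tK M m p H O S₀) (hcommK M m p H O S₀) mI (Inst.rO M m p H O)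
    (rOcommK M m p H O S₀) T' (datumSub M m p H O S₀ mI T' hle htq hM hH hHm hpO) Sum.inl
    (fun j => (j.1 : ℕ)) htq (hesD M m p H O S₀ hHm) j A hA τ hτ

section residual

variable (θ : J M p S₀ → ResidueField O)
  (hθ : ∀ j : J M p S₀, ∃ a : O, residue O a = θ j ∧
    (MvPolynomial.X (Sum.inl j) - MvPolynomial.C a : MvPolynomial (K M p S₀) O) ∈ mI)
  (rbar : ResidualGaloisRep (ResidueField O))
  (hfrob : ∀ (j : J M p S₀) (A : ValuationSubring Qbar), A.LiesOverPrime ((j.1 : ℕ)) →
    ∀ τ : GQ, A.IsFrobeniusAt τ ((j.1 : ℕ)) →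
      LinearMap.charpoly (rbar.ρ τ) =
        X ^ 2 - C (θ j) * X + C (((j.1 : ℕ) : ℕ) : ResidueField O))

include hle hθ in
/-- **`T'_r mod 𝔪_{T'} = θ_r`** -/
theorem residue_tqSub (j : J M p S₀) :
    residue ↥T' (tqSub M m p H O S₀ mI T' htq j) =
      ResidueField.map (algebraMap O ↥T') (θ j) :=
  MainGen.residue_tq O (tK M m p H O S₀) (hcommK M m p H O S₀) mI T' hle Sum.inl htq θ hθ j

include hθ hfrob in
/-- **`t(g) mod 𝔪_{T'} = tr ρ̄(g)`** for every `g` -/
theorem residue_tT (g : GQ) :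
    residue ↥T' (Dens.tT (datumSub M m p H O S₀ mI T' hle htq hM hH hHm hpO) g) =
      ResidueField.map (algebraMap O ↥T')
        (LinearMap.trace (ResidueField O) rbar.V (rbar.ρ g)) :=
  MainGen.residue_tT O (tK M m p H O S₀) (hcommK M m p H O S₀) mI (Inst.rO M m p H O)
    (rOcommK M m p H O S₀) T' hle (datumSub M m p H O S₀ mI T' hle htq hM hH hHm hpO) Sum.inl
    (fun j => (j.1 : ℕ)) htq (hesD M m p H O S₀ hHm) (hidxD M p S₀) θ hθ rbar hfrob g

end residual

/-! #### the input at the given normalisation, the properties of `MainGen.rhoG (datumSub ..) hin` -/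

section rho

variable [Invertible (2 : ↥T')]
  (θ : J M p S₀ → ResidueField O)
  (hθ : ∀ j : J M p S₀, ∃ a : O, residue O a = θ j ∧
    (MvPolynomial.X (Sum.inl j) - MvPolynomial.C a : MvPolynomial (K M p S₀) O) ∈ mI)
  (rbar : ResidualGaloisRep (ResidueField O))
  (hfrob : ∀ (j : J M p S₀) (A : ValuationSubring Qbar), A.LiesOverPrime ((j.1 : ℕ)) →
    ∀ τ : GQ, A.IsFrobeniusAt τ ((j.1 : ℕ)) →
      LinearMap.charpoly (rbar.ρ τ) =
        X ^ 2 - C (θ j) * X + C (((j.1 : ℕ) : ℕ) : ResidueField O))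
  {c g₀ h₀ : GQ} {b : Module.Basis (Fin 2) (ResidueField O) rbar.V}
  (hn : ExistsNorm.Norm rbar c g₀ h₀ b)

include hθ hfrob hn in
/-- **`ρ_{T'}` EXISTS AT THE GIVEN NORMALISATION** (literal of `Num/ExportT.RelGenT`) -/
theorem exists_input [Invertible (2 : O)] (hc : c * c = 1) (hεc : Inst.eps p O c = -1) :
    ∃ hin : MainGen.InputG (datumSub M m p H O S₀ mI T' hle htq hM hH hHm hpO) c g₀ h₀,
      IsContMat ↥T'
          (MainGen.repG (datumSub M m p H O S₀ mI T' hle htq hM hH hHm hpO) hin) ∧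
        mapMat (residue ↥T')
            (MainGen.repG (datumSub M m p H O S₀ mI T' hle htq hM hH hHm hpO) hin) =
          mapMat (ResidueField.map (algebraMap O ↥T')) (resMatOf rbar b) :=
  MainGen.exists_input O (tK M m p H O S₀) (hcommK M m p H O S₀) mI (Inst.rO M m p H O)
    (rOcommK M m p H O S₀) T' hle (datumSub M m p H O S₀ mI T' hle htq hM hH hHm hpO) Sum.inl
    (fun j => (j.1 : ℕ)) htq (hesD M m p H O S₀ hHm) (hidxD M p S₀) θ hθ rbar hfrob hn hc hεc

include hθ hfrob hn in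
/-- the same with `c` the complex conjugation -/
theorem exists_input_conj [Invertible (2 : O)] (hcc : c = complexConjugation) :
    ∃ hin : MainGen.InputG (datumSub M m p H O S₀ mI T' hle htq hM hH hHm hpO) c g₀ h₀,
      IsContMat ↥T'
          (MainGen.repG (datumSub M m p H O S₀ mI T' hle htq hM hH hHm hpO) hin) ∧
        mapMat (residue ↥T')
            (MainGen.repG (datumSub M m p H O S₀ mI T' hle htq hM hH hHm hpO) hin) =
          mapMat (ResidueField.map (algebraMap O ↥T')) (resMatOf rbar b) :=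
  MainGen.exists_input_conj O (tK M m p H O S₀) (hcommK M m p H O S₀) mI (Inst.rO M m p H O)
    (rOcommK M m p H O S₀) T' hle (datumSub M m p H O S₀ mI T' hle htq hM hH hHm hpO) Sum.inl
    (fun j => (j.1 : ℕ)) htq (hesD M m p H O S₀ hHm) (hidxD M p S₀) θ hθ rbar hfrob hn p
    (algebraMap ℤ_[p] O) (fun _ => rfl) hcc

variable (hin : MainGen.InputG (datumSub M m p H O S₀ mI T' hle htq hM hH hHm hpO) c g₀ h₀)

include hθ hfrob hn in
/-- for EVERY input at the normalisation, the matrix representation reduces to `ρ̄` in `b` -/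
theorem mapMat_repG :
    mapMat (residue ↥T')
        (MainGen.repG (datumSub M m p H O S₀ mI T' hle htq hM hH hHm hpO) hin) =
      mapMat (ResidueField.map (algebraMap O ↥T')) (resMatOf rbar b) :=
  MainGen.mapMat_repG' O (tK M m p H O S₀) (hcommK M m p H O S₀) mI (Inst.rO M m p H O)
    (rOcommK M m p H O S₀) T' hle (datumSub M m p H O S₀ mI T' hle htq hM hH hHm hpO) Sum.inl
    (fun j => (j.1 : ℕ)) htq (hesD M m p H O S₀ hHm) (hidxD M p S₀) θ hθ rbar hfrob hn hin

include hθ hfrob hn in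
/-- **the residual representation of `ρ_{T'}` is `ρ̄`**, in the Prelude's vocabulary -/
theorem residual_rhoG_isEquiv :
    (MainGen.rhoG (datumSub M m p H O S₀ mI T' hle htq hM hH hHm hpO) hin).residual.IsEquiv
      (rbar.baseChangeAlong (ResidueField.map (algebraMap O ↥T'))) :=
  MainGen.residual_rhoG_isEquiv' O (tK M m p H O S₀) (hcommK M m p H O S₀) mI
    (Inst.rO M m p H O) (rOcommK M m p H O S₀) T' hle
    (datumSub M m p H O S₀ mI T' hle htq hM hH hHm hpO) Sum.inl
    (fun j => (j.1 : ℕ)) htq (hesD M m p H O S₀ hHm) (hidxD M p S₀) θ hθ rbar hfrob hn hin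

/-- **`tr ρ_{T'}(Frob_r) = T'_r`** -/
theorem trace_rhoG_frob (j : J M p S₀) (A : ValuationSubring Qbar)
    (hA : A.LiesOverPrime ((j.1 : ℕ))) (τ : GQ) (hτ : A.IsFrobeniusAt τ ((j.1 : ℕ))) :
    (MainGen.rhoG (datumSub M m p H O S₀ mI T' hle htq hM hH hHm hpO) hin).trace τ =
      tqSub M m p H O S₀ mI T' htq j :=
  (MainGen.trace_rhoG _ hin τ).trans
    (tT_frob M m p H O S₀ mI T' hle htq hM hH hHm hpO j A hA τ hτ)

/-- **`det ρ_{T'}` is cyclotomic** -/
theorem detIsCyclotomic_rhoG :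
    (MainGen.rhoG (datumSub M m p H O S₀ mI T' hle htq hM hH hHm hpO) hin).DetIsCyclotomic p :=
  MainGen.detIsCyclotomic_rhoG _ hin p (algebraMap ℤ_[p] O) (fun _ => rfl) hpO

/-- **`ρ_{T'}` is unramified at every `ℓ ∤ M p`** (in `S₀` or not) -/
theorem isUnramifiedAt_rhoG {ℓ : ℕ} (hℓ : ℓ.Prime) (h1 : ℓ.Coprime M) (h2 : ℓ ≠ p) :
    (MainGen.rhoG (datumSub M m p H O S₀ mI T' hle htq hM hH hHm hpO) hin).IsUnramifiedAt ℓ :=
  MainGen.isUnramifiedAt_rhoG _ hin ℓ fun P hP σ hσ =>
    LamInstD.rQ_eq_one_of_inertia M m p H O S₀ mI hℓ h1 h2 P hP σ hσ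

/-- **`ρ_{T'}` is flat at `p`** (`p ∤ M`, finite residue field) -/
theorem isFlatAt_rhoG [Finite (ResidueField O)] (hpM : ¬ p ∣ M) :
    (MainGen.rhoG (datumSub M m p H O S₀ mI T' hle htq hM hH hHm hpO) hin).IsFlatAt p :=
  Props.FlatSub.isFlatAt_rhoG' M m p H O (tK M m p H O S₀) (hcommK M m p H O S₀) mI
    (rOcommK M m p H O S₀) hM hpM hH hpO T'
    (datumSub M m p H O S₀ mI T' hle htq hM hH hHm hpO) hin

/-! #### when `T'` is generated by the `T'_r` -/

section gen

variable (hgen : Algebra.adjoin O (Set.range (tqSub M m p H O S₀ mI T' htq)) = ⊤)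

include hle hθ hgen in
/-- **the residue field of `T'` is the residue field of `O`** (the `hres` of `RSide/LiftHyp`) -/
theorem surjective_residue_comp : Function.Surjective (residue ↥T' ∘ algebraMap O ↥T') :=
  MainGen.surjective_residue_comp O (tK M m p H O S₀) (hcommK M m p H O S₀) mI T' hle Sum.inl htq
    θ hθ hgen

include hle hθ hgen in
theorem surjective_residueField_map :
    Function.Surjective
      (ResidueField.map (algebraMap O ↥T') : ResidueField O →+* ResidueField ↥T') :=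
  MainGen.surjective_residueField_map O (tK M m p H O S₀) (hcommK M m p H O S₀) mI T' hle Sum.inl
    htq θ hθ hgen

include hgen in
/-- **(N2): `T'` is generated over `O` by the traces of `ρ_{T'}`** -/
theorem adjoin_trace_repG :
    Algebra.adjoin O (Set.range fun σ : GQ =>
      (MainGen.repG (datumSub M m p H O S₀ mI T' hle htq hM hH hHm hpO) hin σ).trace) = ⊤ :=
  MainGen.adjoin_trace_repG O (tK M m p H O S₀) (hcommK M m p H O S₀) mI (Inst.rO M m p H O)
    (rOcommK M m p H O S₀) T' (datumSub M m p H O S₀ mI T' hle htq hM hH hHm hpO) Sum.inl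
    (fun j => (j.1 : ℕ)) htq (hesD M m p H O S₀ hHm) hin (fun j => j.1.2) hgen

include hgen in
/-- an `O`-algebra homomorphism out of `T'` is determined by its values on the traces of `ρ_{T'}`
(`Num/RelTanT.TraceSepM` is the case `B = k[ε]`, by unfolding) -/
theorem algHom_ext_of_trace {B : Type*} [Semiring B] [Algebra O B] (φ ψ : ↥T' →ₐ[O] B)
    (hφψ : ∀ σ : GQ,
      φ ((MainGen.repG (datumSub M m p H O S₀ mI T' hle htq hM hH hHm hpO) hin σ).trace) =
        ψ ((MainGen.repG (datumSub M m p H O S₀ mI T' hle htq hM hH hHm hpO) hin σ).trace)) :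
    φ = ψ :=
  MainGen.algHom_ext_of_trace O (tK M m p H O S₀) (hcommK M m p H O S₀) mI (Inst.rO M m p H O)
    (rOcommK M m p H O S₀) T' (datumSub M m p H O S₀ mI T' hle htq hM hH hHm hpO) Sum.inl
    (fun j => (j.1 : ℕ)) htq (hesD M m p H O S₀ hHm) hin (fun j => j.1.2) hgen φ ψ hφψ

end gen

end rho

end sub

/-! ### The two coefficient algebras of record: `T_Q` (full) and `TQtr` (generated by the `T'_r`) -/

section two

/-- `T'_r ∈ T_Q` : the `htq` of the package at `T' := T_Q` (with `hle := le_rfl`) -/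
theorem tQ_mem_TQ (j : J M p S₀) :
    (ofP O mI (WithOps (tK M m p H O S₀) (hcommK M m p H O S₀))
      (MvPolynomial.X (Sum.inl j)) : Module.End O (LamQ M m p H O S₀ mI)) ∈ TQ M m p H O S₀ mI :=
  Subtype.property _

/-- **the subalgebra of `T_Q` generated over `O` by the `T'_r`** (no diamonds): the trace algebra
of the chief's two-subalgebra design -/
def TQtr : Subalgebra O (Module.End O (LamQ M m p H O S₀ mI)) :=
  Algebra.adjoin O (Set.range fun j : J M p S₀ =>
    (ofP O mI (WithOps (tK M m p H O S₀) (hcommK M m p H O S₀)) (MvPolynomial.X (Sum.inl j)) :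
      Module.End O (LamQ M m p H O S₀ mI)))

theorem TQtr_le : TQtr M m p H O S₀ mI ≤ TQ M m p H O S₀ mI :=
  Algebra.adjoin_le (by rintro _ ⟨j, rfl⟩; exact Subtype.property _)

/-- `T'_r ∈ TQtr` : the `htq` of the package at `T' := TQtr` (with `hle := TQtr_le`) -/
theorem tQ_mem_TQtr (j : J M p S₀) :
    (ofP O mI (WithOps (tK M m p H O S₀) (hcommK M m p H O S₀))
      (MvPolynomial.X (Sum.inl j)) : Module.End O (LamQ M m p H O S₀ mI)) ∈ TQtr M m p H O S₀ mI :=
  Algebra.subset_adjoin ⟨j, rfl⟩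

variable [Nontrivial (LamQ M m p H O S₀ mI)] [Module.Finite O (LamQ M m p H O S₀ mI)]

/-- `TQtr` is commutative -/
theorem isMulCommutative_TQtr : IsMulCommutative ↥(TQtr M m p H O S₀ mI) :=
  isMulCommutative_sub M m p H O S₀ mI _ (TQtr_le M m p H O S₀ mI)

/-- `TQtr` is local -/
theorem isLocalRing_TQtr : IsLocalRing ↥(TQtr M m p H O S₀ mI) :=
  isLocalRing_sub M m p H O S₀ mI _ (TQtr_le M m p H O S₀ mI)

/-- `O → TQtr` is local -/
theorem isLocalHom_algebraMap_TQtr : IsLocalHom (algebraMap O ↥(TQtr M m p H O S₀ mI)) :=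
  isLocalHom_algebraMap_sub M m p H O S₀ mI _

/-- `O → T_Q` is local -/
theorem isLocalHom_algebraMap_TQ : IsLocalHom (algebraMap O ↥(TQ M m p H O S₀ mI)) :=
  isLocalHom_algebraMap_sub M m p H O S₀ mI _

/-- **`TQtr` is generated by the `T'_r`** : the `hgen` of the package at `T' := TQtr` -/
theorem adjoin_tqSub_TQtr :
    Algebra.adjoin O (Set.range
      (tqSub M m p H O S₀ mI (TQtr M m p H O S₀ mI) (tQ_mem_TQtr M m p H O S₀ mI))) = ⊤ :=
  haveI := isMulCommutative_TQtr M m p H O S₀ mI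
  haveI := isLocalRing_TQtr M m p H O S₀ mI
  haveI := isLocalHom_algebraMap_TQtr M m p H O S₀ mI
  MainGen.adjoin_tq_of_eq_adjoin O (tK M m p H O S₀) (hcommK M m p H O S₀) mI
    (TQtr M m p H O S₀ mI) Sum.inl (tQ_mem_TQtr M m p H O S₀ mI) rfl

variable [IsLocalHom (algebraMap O ↥(TQ M m p H O S₀ mI))]

/-- **the residue field of the full `T_Q` is the residue field of `O`**, when every variable
(diamonds included) is congruent to a scalar modulo `𝔪` -/
theorem surjective_residue_comp_TQ (θK : K M p S₀ → ResidueField O)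
    (hθK : ∀ k : K M p S₀, ∃ a : O, residue O a = θK k ∧
      (MvPolynomial.X k - MvPolynomial.C a : MvPolynomial (K M p S₀) O) ∈ mI) :
    Function.Surjective
      (residue ↥(TQ M m p H O S₀ mI) ∘ algebraMap O ↥(TQ M m p H O S₀ mI)) :=
  haveI := LamInstD.isMulCommutative_TQ M m p H O S₀ mI
  MainGen.surjective_residue_comp O (tK M m p H O S₀) (hcommK M m p H O S₀) mI
    (TQ M m p H O S₀ mI) le_rfl id (fun _ => Subtype.property _) θK hθK
    (LamGen.adjoin_range_ofP_X O mI (WithOps (tK M m p H O S₀) (hcommK M m p H O S₀)))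

/-- the same for every `T' ≤ T_Q` -/
theorem surjective_residue_comp_of_le (θK : K M p S₀ → ResidueField O)
    (hθK : ∀ k : K M p S₀, ∃ a : O, residue O a = θK k ∧
      (MvPolynomial.X k - MvPolynomial.C a : MvPolynomial (K M p S₀) O) ∈ mI)
    (T' : Subalgebra O (Module.End O (LamQ M m p H O S₀ mI))) (hle : T' ≤ TQ M m p H O S₀ mI)
    [IsMulCommutative ↥T'] [IsLocalRing ↥T'] :
    Function.Surjective (residue ↥T' ∘ algebraMap O ↥T') :=
  haveI := LamInstD.isMulCommutative_TQ M m p H O S₀ mI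
  TrSub.surjective_residue_comp_of_le hle
    (surjective_residue_comp_TQ M m p H O S₀ mI θK hθK)

end two

end Fermat.Agent.S43.Rho.MainD

end
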