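/-
PROJECT R (S43, row 37), block L1 = `Rho/**` (architect helper22), file `Rho/MainLift` (helper27):
THE TWO INSTANCE STATEMENTS (H1) `LiftHypM` AND (H3) `TraceSepM` OF `Num/RelTanT` FOR THE PAIR
`(R, rR) := (T', MainGen.repG (datumSub ..) hin)`, `T' ≤ T_Q` A COEFFICIENT SUBALGEBRA GENERATED BY
THE `T'_r` (IN PARTICULAR `T' = TQtr`), ON `Rho/LamInstD`.

Binders of `Rho/MainD` (section `sub` + `rho` + `gen`).  `hres := MainD.surjective_residue_comp ..`,
`hR := MainGen.isContMat_repG _ hin`.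

* `traceSepM` : (H3), from (N2) (`MainD.algHom_ext_of_trace` at `B := k[ε]`);
* `isEquiv_rhoG_ofMat` : `MainGen.rhoG h hin` is `ofMat (repG h hin) _` (the `heq` of
  `RSide/LiftHyp`);
* `liftHypM_fl_of_unip` : (H1), flat case, the unipotent clause at the primes of `Smin` as a
  hypothesis on `MainGen.rhoG ..`;
* `isUnipotentOnInertiaAt_two` : the unipotent clause at `2` from the gate cubic at `2` on `LamQ`
  (`Rho/Feed/GateLevel.rQ_unipotent_two_D_prime`) and `ρ̄` unipotent on inertia at `2`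
  (helper15's `TypeDatum.isUnipotentOnInertiaAt_rhoT_two`);
* `liftHypM_fl` : (H1), flat case, `Smin = {2, p}` : NOTHING left but the gate cubic at `2`;
* `rbarM_eq_resMatOf`, `mapMat_repG_rbarM` : the `hrR` of `Num/RelTanT` in NUM's vocabulary
  (`rbarM rbarGL`, `rbarGL : G_ℚ → GL₂(k)` the form of `ρ̄` in the basis `b`).
-/
import Mathlib
import Fermat.Agent.S43.Rho.MainD
import Fermat.Agent.S43.Rho.Props.TypeDatum
import Fermat.Agent.S43.RSide.LiftHyp

set_option autoImplicit false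
set_option linter.unusedSectionVars false
set_option linter.style.haveILetI false

noncomputable section

namespace Fermat.Agent.S43.Rho.MainLift

open IsLocalRing Polynomial
open Fermat.Agent.S31.Core Fermat.Agent.S43.Rho
open Fermat.Agent.S43.Rho.Lam Fermat.Agent.S43.Hecke.PolyModule
open Fermat.Agent.S43.Rho.Feed
open Fermat.Agent.S43.Rho.LamInst (J Sg)
open Fermat.Agent.S43.Rho.LamInstD (K tK hcommK rOcommK LamQ TQ rQ tQ dQ)
open Fermat.Agent.S53.Dictionary hiding GQ
open Fermat.Agent.S53.TangentBound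
open Fermat.Agent.S56.Coh.CocDefs
open Fermat.Agent.S43.Num.RelTanT
open scoped IsMulCommutative

attribute [local instance] Glue.smulCommClassT Glue.algebraEnd
attribute [local instance] algDual

variable (M : ℕ) [NeZero M] (m : ℕ) (p : ℕ) [hp : Fact p.Prime] (H : Subgroup (ZMod M)ˣ)
  (O : Type) [CommRing O] [Algebra ℤ_[p] O] [IsLocalRing O] [IsNoetherianRing O]
  [IsAdicComplete (maximalIdeal O) O] (S₀ : Finset ℕ)
  (mI : Ideal (MvPolynomial (K M p S₀) O)) [mI.IsMaximal]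
  [Nontrivial (LamQ M m p H O S₀ mI)] [Module.Finite O (LamQ M m p H O S₀ mI)]
  (T' : Subalgebra O (Module.End O (LamQ M m p H O S₀ mI)))
  (hle : T' ≤ TQ M m p H O S₀ mI)
  (htq : ∀ j : J M p S₀, (ofP O mI (WithOps (tK M m p H O S₀) (hcommK M m p H O S₀))
    (MvPolynomial.X (Sum.inl j)) : Module.End O (LamQ M m p H O S₀ mI)) ∈ T')
  (hM : 5 ≤ M) (hH : ¬ p ∣ Nat.card H) (hHm : ∀ d : (ZMod M)ˣ, d ^ (2 * m + 1) ∈ H)
  (hpO : (p : O) ∈ maximalIdeal O)
  [IsMulCommutative ↥T'] [IsLocalRing ↥T'] [IsLocalHom (algebraMap O ↥T')] [Invertible (2 : ↥T')]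
  {c g₀ h₀ : GQ}
  (hin : MainGen.InputG (MainD.datumSub M m p H O S₀ mI T' hle htq hM hH hHm hpO) c g₀ h₀)
  (hgen : Algebra.adjoin O (Set.range (MainD.tqSub M m p H O S₀ mI T' htq)) = ⊤)

include hgen in
/-- **(H3)** : a tangent vector of `T'` is determined by its values on the traces of `ρ_{T'}` -/
theorem traceSepM :
    TraceSepM (𝒪 := O) (R := ↥T')
      (MainGen.repG (MainD.datumSub M m p H O S₀ mI T' hle htq hM hH hHm hpO) hin) :=
  fun φ ψ h =>
    MainD.algHom_ext_of_trace M m p H O S₀ mI T' hle htq hM hH hHm hpO hin hgen φ ψ h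

/-- `MainGen.rhoG h hin` is the `GaloisRepAdic` of its matrix representation -/
theorem isEquiv_rhoG_ofMat :
    (MainGen.rhoG (MainD.datumSub M m p H O S₀ mI T' hle htq hM hH hHm hpO) hin).IsEquiv
      (ofMat (MainGen.repG (MainD.datumSub M m p H O S₀ mI T' hle htq hM hH hHm hpO) hin)
        (MainGen.isContMat_repG _ hin)) := by
  rw [← MainGen.rhoG_eq]
  exact isEquiv_refl _

variable (hres : Function.Surjective (residue ↥T' ∘ algebraMap O ↥T'))

/-- **(H1), flat case**, the unipotent clause at the primes of `Smin` as a hypothesis: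
`det` cyclotomic, flat at `p` (`p ∤ M`), unramified outside `M p` are discharged -/
theorem liftHypM_fl_of_unip [Finite (ResidueField O)] (hpM : ¬ p ∣ M) (Smin T Q : Finset ℕ)
    (hS : ∀ q : ℕ, q.Prime → q ∉ Smin ∪ (T ∪ Q) → q.Coprime M ∧ q ≠ p)
    (hunip : ∀ q ∈ Smin, q.Prime → q ≠ p →
      (MainGen.rhoG (MainD.datumSub M m p H O S₀ mI T' hle htq hM hH hHm hpO)
        hin).IsUnipotentOnInertiaAt q) :
    LiftHypM hres
      (MainGen.repG (MainD.datumSub M m p H O S₀ mI T' hle htq hM hH hHm hpO) hin)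
      (MainGen.isContMat_repG _ hin) p Smin T Q (Pfl p) :=
  Fermat.Agent.S43.RSide.LiftHyp.liftHypM_fl hres _ _ p Smin T Q
    (MainGen.rhoG (MainD.datumSub M m p H O S₀ mI T' hle htq hM hH hHm hpO) hin)
    (isEquiv_rhoG_ofMat M m p H O S₀ mI T' hle htq hM hH hHm hpO hin)
    (MainD.detIsCyclotomic_rhoG M m p H O S₀ mI T' hle htq hM hH hHm hpO hin)
    (MainD.isFlatAt_rhoG M m p H O S₀ mI T' hle htq hM hH hHm hpO hin hpM) hunip
    (fun q hq hqS => MainD.isUnramifiedAt_rhoG M m p H O S₀ mI T' hle htq hM hH hHm hpO hin hq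
      (hS q hq hqS).1 (hS q hq hqS).2)

section two

variable (θ : J M p S₀ → ResidueField O)
  (hθ : ∀ j : J M p S₀, ∃ a : O, residue O a = θ j ∧
    (MvPolynomial.X (Sum.inl j) - MvPolynomial.C a : MvPolynomial (K M p S₀) O) ∈ mI)
  (rbar : ResidualGaloisRep (ResidueField O))
  (hfrob : ∀ (j : J M p S₀) (A : ValuationSubring Qbar), A.LiesOverPrime ((j.1 : ℕ)) →
    ∀ τ : GQ, A.IsFrobeniusAt τ ((j.1 : ℕ)) →
      LinearMap.charpoly (rbar.ρ τ) =
        X ^ 2 - C (θ j) * X + C (((j.1 : ℕ) : ℕ) : ResidueField O))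
  {b : Module.Basis (Fin 2) (ResidueField O) rbar.V}
  (hn : ExistsNorm.Norm rbar c g₀ h₀ b)
  (hp2 : p ≠ 2) (h3 : IsUnit (3 : O))
  (hunip2 : ∀ A : ValuationSubring Qbar, A.LiesOverPrime 2 →
    ∀ s ∈ A.inertiaSubgroupIn ℚ, (rbar.ρ s - 1) * (rbar.ρ s - 1) = 0)
  (hcube2 : ∀ A : ValuationSubring Qbar, A.LiesOverPrime 2 →
    ∀ s ∈ A.inertiaSubgroupIn ℚ,
      (rQ M m p H O S₀ mI s - 1) * (rQ M m p H O S₀ mI s - 1) * (rQ M m p H O S₀ mI s - 1) = 0)

/-- the two matrix forms of `ρ̄` agree: `rbarM` of a `GL₂`-valued form (NUM's vocabulary) and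
`resMatOf ρ̄ b` (the vocabulary of `Rho/**`) -/
theorem rbarM_eq_resMatOf {k : Type} [Field k] (ρbar : ResidualGaloisRep k)
    (b : Module.Basis (Fin 2) k ρbar.V) (rbarGL : GQ →* GL (Fin 2) k)
    (hb : ∀ g, (rbarGL g : Matrix (Fin 2) (Fin 2) k) = LinearMap.toMatrix b b (ρbar.ρ g)) :
    Fermat.Agent.S56.Tan.Cocycle.rbarM rbarGL = resMatOf ρbar b :=
  MonoidHom.ext fun g => (hb g).trans (resMatOf_apply ρbar b g).symm

include hθ hfrob hn in
/-- **the `hrR` of `Num/RelTanT` / `FeedQ`** : for EVERY input at the normalisation, the matrix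
representation reduces to `rbarM rbarGL`, `rbarGL` the `GL₂`-valued form of `ρ̄` in the basis `b` -/
theorem mapMat_repG_rbarM (rbarGL : GQ →* GL (Fin 2) (ResidueField O))
    (hb : ∀ g, (rbarGL g : Matrix (Fin 2) (Fin 2) (ResidueField O)) =
      LinearMap.toMatrix b b (rbar.ρ g)) :
    mapMat (residue ↥T')
        (MainGen.repG (MainD.datumSub M m p H O S₀ mI T' hle htq hM hH hHm hpO) hin) =
      mapMat (ResidueField.map (algebraMap O ↥T'))
        (Fermat.Agent.S56.Tan.Cocycle.rbarM rbarGL) := by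
  rw [rbarM_eq_resMatOf rbar b rbarGL hb]
  exact MainD.mapMat_repG M m p H O S₀ mI T' hle htq hM hH hHm hpO θ hθ rbar hfrob hn hin

include hθ hfrob hn hp2 h3 hunip2 hcube2 in
/-- **`ρ_{T'}` is unipotent on inertia at `2`** (`p ≠ 2`, `3` a unit of `O`), from the gate cubic at
`2` on `LamQ` and `ρ̄` unipotent on inertia at `2` -/
theorem isUnipotentOnInertiaAt_two :
    (MainGen.rhoG (MainD.datumSub M m p H O S₀ mI T' hle htq hM hH hHm hpO)
      hin).IsUnipotentOnInertiaAt 2 :=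
  Props.TypeDatum.isUnipotentOnInertiaAt_rhoT_two
    (MainD.datumSub M m p H O S₀ mI T' hle htq hM hH hHm hpO) hin hp.out hpO rbar b
    (MainD.mapMat_repG M m p H O S₀ mI T' hle htq hM hH hHm hpO θ hθ rbar hfrob hn hin) hp2 h3
    hunip2
    (fun A hA s hs =>
      Fermat.Agent.S30.Algebra.Cyclotomic.cycChar_inertia p (algebraMap ℤ_[p] O) Nat.prime_two
        hp2.symm A hA s hs)
    hcube2

include hθ hfrob hn hp2 h3 hunip2 hcube2 in
/-- **(H1), flat case, `Smin = {2, p}`** : nothing left but the gate cubic at `2` -/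
theorem liftHypM_fl [Finite (ResidueField O)] (hpM : ¬ p ∣ M) (T Q : Finset ℕ)
    (hS : ∀ q : ℕ, q.Prime → q ∉ ({2, p} : Finset ℕ) ∪ (T ∪ Q) → q.Coprime M ∧ q ≠ p) :
    LiftHypM hres
      (MainGen.repG (MainD.datumSub M m p H O S₀ mI T' hle htq hM hH hHm hpO) hin)
      (MainGen.isContMat_repG _ hin) p {2, p} T Q (Pfl p) := by
  refine liftHypM_fl_of_unip M m p H O S₀ mI T' hle htq hM hH hHm hpO hin hres hpM {2, p} T Q hS
    fun q hq hqp hqne => ?_
  have h2 : q = 2 := by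
    rcases Finset.mem_insert.mp hq with h | h
    · exact h
    · exact absurd (Finset.mem_singleton.mp h) hqne
  subst h2
  exact isUnipotentOnInertiaAt_two M m p H O S₀ mI T' hle htq hM hH hHm hpO hin θ hθ rbar hfrob
    hn hp2 h3 hunip2 hcube2

end two

end Fermat.Agent.S43.Rho.MainLift

end
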