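import Fermat.Agent.S43.Rho.Exists

/-!
# PROJECT R (S43), block L1: `ρ_T` EXISTS, WITH THE NORMALISATION AS AN INPUT

`Rho/Exists.exists_rhoT` chooses `(g₀, h₀, b)` inside.  The consumers (`RSide/TraceCompat.compat_rep`,
the three data `T_Q`, `T_∅`, the level-zero lattice) need the SAME `(c, g₀, h₀, b)` at every level
and on both sides.  Here the choice is made ONCE, from the residual representation alone:

* `Norm ρbar c g₀ h₀ b` : `ρ̄ c = diag(1, -1)`, `ρ̄ g₀ 0 1 ≠ 0`, `ρ̄ h₀ 1 0 = 1` in the basis `b`;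
* `exists_norm` : it exists for every absolutely irreducible `ρ̄` with `c² = 1`, `det ρ̄ c = -1`;
* `input_of_norm` (pure algebra, any group): a normalisation and `π ∘ t = ψ ∘ tr ρ̄` give the input of
  `Rho/CH` at THESE `c g₀ h₀`;
* `map_rep_of_norm` : for EVERY input at these `c g₀ h₀` the representation `CH.rep hin` reduces to
  `ρ̄` in the basis `b`, an equality of matrices;
* `exists_rhoT_of_norm` / `exists_rhoT_residue_of_norm` : the assembly for a density datum.
-/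

set_option autoImplicit false
set_option linter.unusedSectionVars false
set_option linter.style.haveILetI false

noncomputable section

namespace Fermat.Agent.S43.Rho.ExistsNorm

open IsLocalRing Polynomial
open Fermat.Agent.S31.Core Fermat.Agent.S43.Rho
open Fermat.Agent.S53.Dictionary hiding GQ

/-! ### The normalisation, for any group -/

section algebra

variable {G : Type*} [Group G] {k₀ : Type*} [Field k₀] {V : Type*} [AddCommGroup V] [Module k₀ V]

/-- **the normalisation of `Rho/CH`, read on the residual representation**: in the basis `b` the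
involution `c` is `diag(1, -1)`, the entry `0 1` of `g₀` is non-zero and the entry `1 0` of `h₀`
is `1`. -/
structure NormG (ρ : G →* Module.End k₀ V) (c g₀ h₀ : G) (b : Module.Basis (Fin 2) k₀ V) :
    Prop where
  mat_c : LinearMap.toMatrix b b (ρ c) = !![1, 0; 0, -1]
  mat_g : LinearMap.toMatrix b b (ρ g₀) 0 1 ≠ 0
  mat_h : LinearMap.toMatrix b b (ρ h₀) 1 0 = 1

variable {ρ : G →* Module.End k₀ V} {c g₀ h₀ : G} {b : Module.Basis (Fin 2) k₀ V}

theorem NormG.apply_zero (hn : NormG ρ c g₀ h₀ b) : ρ c (b 0) = b 0 := by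
  have h := LinearMap.toMatrix_mulVec_repr b b (ρ c) (b 0)
  rw [hn.mat_c, Module.Basis.repr_self] at h
  have h2 : b.repr (ρ c (b 0)) = b.repr (b 0) := by
    rw [Module.Basis.repr_self]
    ext i
    have hi := congrFun h i
    rw [← hi]
    fin_cases i <;> simp [Matrix.mulVec, dotProduct, Finsupp.single_apply]
  exact b.repr.injective h2

theorem NormG.apply_one (hn : NormG ρ c g₀ h₀ b) : ρ c (b 1) = -b 1 := by
  have h := LinearMap.toMatrix_mulVec_repr b b (ρ c) (b 1)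
  rw [hn.mat_c, Module.Basis.repr_self] at h
  have h2 : b.repr (ρ c (b 1)) = b.repr (-b 1) := by
    rw [map_neg, Module.Basis.repr_self]
    ext i
    have hi := congrFun h i
    rw [← hi]
    fin_cases i <;> simp [Matrix.mulVec, dotProduct, Finsupp.single_apply]
  exact b.repr.injective h2

/-- **a normalisation exists** as soon as the `ρ g` span `End V` and `ρ c` is an involution of
determinant `-1`. -/
theorem exists_normG [Invertible (2 : k₀)] (ρ : G →* Module.End k₀ V)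
    (h2 : Module.finrank k₀ V = 2) (hspan : Submodule.span k₀ (Set.range ρ) = ⊤) (c : G)
    (hc : c * c = 1) (hdet : LinearMap.det (ρ c) = -1) :
    ∃ (g₀ h₀ : G) (b : Module.Basis (Fin 2) k₀ V), NormG ρ c g₀ h₀ b := by
  have hf : ρ c * ρ c = 1 := by rw [← map_mul, hc, map_one]
  obtain ⟨b₀, hb0, hb1⟩ := Units.exists_basis_of_involution h2 (ρ c) hf hdet
  obtain ⟨g₀, hg₀⟩ := Units.exists_entry_ne_zero b₀ ρ hspan 0 1
  obtain ⟨h₀, hh₀⟩ := Units.exists_entry_ne_zero b₀ ρ hspan 1 0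
  obtain ⟨b, hbc, hbh, hb01⟩ := RhoTOfCH.exists_rescale b₀ (ρ c) (ρ h₀) (Units.mat_c hb0 hb1) hh₀
  refine ⟨g₀, h₀, b, hbc, ?_, hbh⟩
  rw [hb01 (ρ g₀)]
  exact mul_ne_zero hh₀ hg₀

variable {T : Type*} [CommRing T] [Invertible (2 : T)] [IsLocalRing T]
  {E : Type*} [Ring E] [Algebra T E] {r : G →* E} {t : G → T} {d : G →* T}
  {k : Type*} [Field k] [Invertible (2 : k)]

/-- **the input of `Rho/CH` at a GIVEN normalisation** -/
theorem input_of_norm [Invertible (2 : k₀)] (hP : CH.Pre r t d c) (hn : NormG ρ c g₀ h₀ b)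
    (π : T →+* k) [IsLocalHom π] (ψ : k₀ →+* k)
    (htr : ∀ g, π (t g) = ψ (LinearMap.trace k₀ V (ρ g))) : CH.Input r t d c g₀ h₀ := by
  have hb0 := hn.apply_zero
  have hb1 := hn.apply_one
  have hg₀ : Units.mat b ρ g₀ 0 1 ≠ 0 := hn.mat_g
  have hh₀ : Units.mat b ρ h₀ 1 0 ≠ 0 := by
    change LinearMap.toMatrix b b (ρ h₀) 1 0 ≠ 0
    rw [hn.mat_h]
    exact one_ne_zero
  have hx : CH.xT (Units.tb ρ) c g₀ h₀ ≠ 0 := by
    rw [Units.xT_tb hb0 hb1]
    exact mul_ne_zero hg₀ hh₀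
  have hy : CH.yT (Units.tb ρ) c h₀ g₀ ≠ 0 := by
    rw [Units.yT_tb hb0 hb1]
    exact mul_ne_zero hh₀ hg₀
  have ht : ∀ g, π (t g) = (fun g => ψ (Units.tb ρ g)) g := htr
  have hx' : CH.xT (fun g => ψ (Units.tb ρ g)) c g₀ h₀ ≠ 0 := by
    rw [← Units.map_xT ψ (Units.tb ρ) c]
    exact (map_ne_zero ψ).mpr hx
  have hy' : CH.yT (fun g => ψ (Units.tb ρ g)) c h₀ g₀ ≠ 0 := by
    rw [← Units.map_yT ψ (Units.tb ρ) c]
    exact (map_ne_zero ψ).mpr hy
  exact
    { toPre := hP
      ux := Units.isUnit_xT π t _ ht c hx'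
      uy := Units.isUnit_yT π t _ ht c hy' }

/-- **for EVERY input at the given normalisation, `CH.rep hin` reduces to `ρ̄` in the basis `b`**
(an equality of matrices; `π` any ring homomorphism, no locality). -/
theorem map_rep_of_norm {T : Type*} [CommRing T] [Invertible (2 : T)]
    {E : Type*} [Ring E] [Algebra T E] {r : G →* E} {t : G → T} {d : G →* T}
    {k : Type*} [Field k]
    (hin : CH.Input r t d c g₀ h₀) (hn : NormG ρ c g₀ h₀ b) (π : T →+* k) (ψ : k₀ →+* k)
    (htr : ∀ g, π (t g) = ψ (LinearMap.trace k₀ V (ρ g))) (g : G) :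
    (CH.rep hin g).map π = (LinearMap.toMatrix b b (ρ g)).map ψ := by
  let rb : G →* Matrix (Fin 2) (Fin 2) k :=
    ((ψ.mapMatrix : Matrix (Fin 2) (Fin 2) k₀ →+* Matrix (Fin 2) (Fin 2) k) :
      Matrix (Fin 2) (Fin 2) k₀ →* Matrix (Fin 2) (Fin 2) k).comp
      (((LinearMap.toMatrixAlgEquiv b : Module.End k₀ V ≃ₐ[k₀] Matrix (Fin 2) (Fin 2) k₀) :
        Module.End k₀ V →* Matrix (Fin 2) (Fin 2) k₀).comp ρ)
  have hrb : ∀ g, rb g = (LinearMap.toMatrix b b (ρ g)).map ψ := fun g => rfl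
  rw [← hrb g]
  refine RhoTOfCH.map_rep hin π rb (fun g => ?_) ?_ ?_ g
  · rw [htr g, hrb g, LinearMap.trace_eq_matrix_trace k₀ b, Matrix.trace_fin_two,
      Matrix.trace_fin_two, map_add, Matrix.map_apply, Matrix.map_apply]
  · rw [hrb c, hn.mat_c]
    ext i j
    fin_cases i <;> fin_cases j <;> simp
  · rw [hrb h₀, Matrix.map_apply, hn.mat_h, map_one]

end algebra

/-! ### The normalisation of a residual Galois representation -/

section galois

variable {k₀ : Type} [Field k₀]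

/-- **the normalisation, for a residual Galois representation** (chosen ONCE, from `ρ̄` alone) -/
abbrev Norm (ρbar : ResidualGaloisRep k₀) (c g₀ h₀ : GQ) (b : Module.Basis (Fin 2) k₀ ρbar.V) :
    Prop :=
  NormG ρbar.ρ c g₀ h₀ b

theorem Norm.resMatOf_c {ρbar : ResidualGaloisRep k₀} {c g₀ h₀ : GQ}
    {b : Module.Basis (Fin 2) k₀ ρbar.V} (hn : Norm ρbar c g₀ h₀ b) :
    resMatOf ρbar b c = !![1, 0; 0, -1] := hn.mat_c

theorem Norm.resMatOf_g {ρbar : ResidualGaloisRep k₀} {c g₀ h₀ : GQ}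
    {b : Module.Basis (Fin 2) k₀ ρbar.V} (hn : Norm ρbar c g₀ h₀ b) :
    resMatOf ρbar b g₀ 0 1 ≠ 0 := hn.mat_g

theorem Norm.resMatOf_h {ρbar : ResidualGaloisRep k₀} {c g₀ h₀ : GQ}
    {b : Module.Basis (Fin 2) k₀ ρbar.V} (hn : Norm ρbar c g₀ h₀ b) :
    resMatOf ρbar b h₀ 1 0 = 1 := hn.mat_h

/-- **a normalisation exists** for every absolutely irreducible `ρ̄` and every `c` with `c² = 1`,
`det ρ̄ c = -1`. -/
theorem exists_norm [Invertible (2 : k₀)] (ρbar : ResidualGaloisRep k₀)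
    (habs : ρbar.IsAbsolutelyIrreducible) (c : GQ) (hc : c * c = 1)
    (hdet : LinearMap.det (ρbar.ρ c) = -1) :
    ∃ (g₀ h₀ : GQ) (b : Module.Basis (Fin 2) k₀ ρbar.V), Norm ρbar c g₀ h₀ b :=
  exists_normG ρbar.ρ ρbar.finrank_eq
    (Fermat.Agent.S53.Centralizer.span_range_eq_top_of_isAbsolutelyIrreducible ρbar habs) c hc hdet

end galois

/-! ### The density datum -/

section datum

open scoped IsMulCommutative

variable {R₀ : Type} [CommRing R₀] [IsLocalRing R₀] {Λ : Type} [AddCommGroup Λ] [Module R₀ Λ]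
  [Module.Finite R₀ Λ]
  {Sg : Finset ℕ} {r : GQ →* Module.End R₀ Λ} {ε : GQ →* R₀}
  {T : Subalgebra R₀ (Module.End R₀ Λ)}
  [IsNoetherianRing R₀] [IsMulCommutative ↥T] [IsLocalRing ↥T]
  [IsLocalHom (algebraMap R₀ ↥T)] [Invertible (2 : ↥T)]

attribute [local instance] Glue.smulCommClassT Glue.algebraEnd

/-- **`ρ_T` EXISTS AT A GIVEN NORMALISATION**: the input of `Rho/CH` at the given `c g₀ h₀`, the
continuity, and the residual representation in the given basis `b`, as an equality of matrices. -/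
theorem exists_rhoT_of_norm (h : Dens.Datum Sg (maximalIdeal R₀) r ε T) {c g₀ h₀ : GQ}
    (hc : c * c = 1) (hεc : ε c = -1) {k₀ k : Type} [Field k₀] [Field k] [Invertible (2 : k₀)]
    [Invertible (2 : k)] (ρbar : ResidualGaloisRep k₀) {b : Module.Basis (Fin 2) k₀ ρbar.V}
    (hn : Norm ρbar c g₀ h₀ b) (π : ↥T →+* k) [IsLocalHom π] (ψ : k₀ →+* k)
    (htr : ∀ g, π (Dens.tT h g) = ψ (LinearMap.trace k₀ ρbar.V (ρbar.ρ g))) :
    ∃ hin : CH.Input (E := Module.End ↥T Λ) (Dens.rT h) (Dens.tT h) (Glue.dHom ε T) c g₀ h₀,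
      IsContMat ↥T (CH.rep hin) ∧ mapMat π (CH.rep hin) = mapMat ψ (resMatOf ρbar b) := by
  have hin : CH.Input (E := Module.End ↥T Λ) (Dens.rT h) (Dens.tT h) (Glue.dHom ε T) c g₀ h₀ :=
    input_of_norm (Glue.pre h c hc hεc) hn π ψ htr
  refine ⟨hin, Exists.isContMat_rep h hin, ?_⟩
  ext σ : 1
  rw [mapMat_apply', mapMat_apply', resMatOf_apply]
  exact map_rep_of_norm hin hn π ψ htr σ

/-- the same for ANY input at the given normalisation (e.g. one obtained at another level) -/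
theorem mapMat_rep_of_norm (h : Dens.Datum Sg (maximalIdeal R₀) r ε T) {c g₀ h₀ : GQ}
    (hin : CH.Input (E := Module.End ↥T Λ) (Dens.rT h) (Dens.tT h) (Glue.dHom ε T) c g₀ h₀)
    {k₀ k : Type} [Field k₀] [Field k] (ρbar : ResidualGaloisRep k₀)
    {b : Module.Basis (Fin 2) k₀ ρbar.V} (hn : Norm ρbar c g₀ h₀ b) (π : ↥T →+* k) (ψ : k₀ →+* k)
    (htr : ∀ g, π (Dens.tT h g) = ψ (LinearMap.trace k₀ ρbar.V (ρbar.ρ g))) :
    mapMat π (CH.rep hin) = mapMat ψ (resMatOf ρbar b) := by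
  ext σ : 1
  rw [mapMat_apply', mapMat_apply', resMatOf_apply]
  exact map_rep_of_norm hin hn π ψ htr σ

/-- **`ρ_T` EXISTS AT A GIVEN NORMALISATION**, in the literal of `Num/ExportT.RelGenT`. -/
theorem exists_rhoT_residue_of_norm (h : Dens.Datum Sg (maximalIdeal R₀) r ε T) {c g₀ h₀ : GQ}
    (hc : c * c = 1) (hεc : ε c = -1) [Invertible (2 : ResidueField R₀)]
    [Invertible (2 : ResidueField ↥T)] (ρbar : ResidualGaloisRep (ResidueField R₀))
    {b : Module.Basis (Fin 2) (ResidueField R₀) ρbar.V} (hn : Norm ρbar c g₀ h₀ b)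
    (htr : ∀ g, residue ↥T (Dens.tT h g) =
      ResidueField.map (algebraMap R₀ ↥T) (LinearMap.trace (ResidueField R₀) ρbar.V (ρbar.ρ g))) :
    ∃ hin : CH.Input (E := Module.End ↥T Λ) (Dens.rT h) (Dens.tT h) (Glue.dHom ε T) c g₀ h₀,
      IsContMat ↥T (CH.rep hin) ∧
        mapMat (residue ↥T) (CH.rep hin) =
          mapMat (ResidueField.map (algebraMap R₀ ↥T)) (resMatOf ρbar b) :=
  exists_rhoT_of_norm h hc hεc ρbar hn (residue ↥T) (ResidueField.map (algebraMap R₀ ↥T)) htr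

end datum

end Fermat.Agent.S43.Rho.ExistsNorm

end
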