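/-
S43 (row 37), PROJECT R, block L1 = `Rho/**` (route (gamma)), file `LamRes` (helper22).
Imports Mathlib + `Rho/Lam`.

**The residue map of the Hecke algebra and the support condition.**  `ev : P →+* K` a homomorphism
to a field with kernel `m` (in the application `Loc.evalHom θ : MvPolynomial J O →+* ResidueField O`,
kernel `Loc.maxId θ` by definition).

* `resT O m N ev hev : T O m N →+* K`, `resT_ofP : resT .. (ofP O m N Q) = ev Q` (so
  "`t_j` modulo `𝔪_T` is `θ j`"), `isLocalHom_resT`, `resT_algebraMap`;
* `nontrivial_loc` : if some `P`-linear quotient of `N` contains a nonzero vector killed by `m` (a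
  system of eigenvalues `θ` occurring in `N / ϖ N`), then `Loc m N` is nontrivial.
-/
import Mathlib
import Fermat.Agent.S43.Rho.Lam

set_option autoImplicit false

namespace Fermat.Agent.S43.Rho.LamRes

open Fermat.Agent.S43.Rho.Lam

variable (O : Type) [CommRing O] {P : Type} [CommRing P] [Algebra O P] (m : Ideal P) [m.IsMaximal]
  (N : Type) [AddCommGroup N] [Module O N] [Module P N] [IsScalarTower O P N]
  {K : Type*} [Field K] (ev : P →+* K) (hev : RingHom.ker ev = m)

include hev in
theorem isUnit_ev (y : m.primeCompl) : IsUnit (ev y) :=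
  isUnit_iff_ne_zero.mpr fun h => y.2 (hev.le ((RingHom.mem_ker).mpr h))

/-- the residue map of the local ring `P_m` -/
noncomputable def resA : Localization.AtPrime m →+* K :=
  IsLocalization.lift (M := m.primeCompl) (g := ev) (isUnit_ev m ev hev)

theorem resA_algebraMap (Q : P) :
    resA m ev hev (algebraMap P (Localization.AtPrime m) Q) = ev Q :=
  IsLocalization.lift_eq _ Q

theorem resA_eq_zero_of_not_isUnit {a : Localization.AtPrime m} (ha : ¬ IsUnit a) :
    resA m ev hev a = 0 := by
  obtain ⟨Q, s, rfl⟩ := IsLocalization.exists_mk'_eq m.primeCompl a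
  rw [IsLocalization.AtPrime.isUnit_mk'_iff (Localization.AtPrime m) m] at ha
  have hQ : Q ∈ m := by
    by_contra hQ
    exact ha hQ
  rw [resA, IsLocalization.lift_mk'_spec, mul_zero, ← RingHom.mem_ker, hev]
  exact hQ

/-- the kernel of `P_m → T` lies in the kernel of the residue map -/
theorem ker_toT_le [Nontrivial (Loc m N)] :
    RingHom.ker (toT O m N).toRingHom ≤ RingHom.ker (resA m ev hev) := by
  intro a ha
  rw [RingHom.mem_ker] at ha ⊢
  refine resA_eq_zero_of_not_isUnit m ev hev fun hu => ?_
  have h1 : IsUnit ((toT O m N).toRingHom a) := hu.map _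
  rw [ha] at h1
  exact not_isUnit_zero h1

/-- **the residue map of the Hecke algebra** -/
noncomputable def resT [Nontrivial (Loc m N)] : T O m N →+* K :=
  RingHom.liftOfSurjective (toT O m N).toRingHom (toT_surjective O m N)
    ⟨resA m ev hev, ker_toT_le O m N ev hev⟩

theorem resT_toT [Nontrivial (Loc m N)] (a : Localization.AtPrime m) :
    resT O m N ev hev (toT O m N a) = resA m ev hev a :=
  RingHom.liftOfRightInverse_comp_apply _ _ _ _ a

/-- the operators reduce to the system of eigenvalues -/
theorem resT_ofP [Nontrivial (Loc m N)] (Q : P) : resT O m N ev hev (ofP O m N Q) = ev Q := by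
  show resT O m N ev hev (toT O m N (algebraMap P (Localization.AtPrime m) Q)) = ev Q
  rw [resT_toT, resA_algebraMap]

theorem isLocalHom_resT [Nontrivial (Loc m N)] : IsLocalHom (resT O m N ev hev) := by
  refine ⟨fun x hx => ?_⟩
  obtain ⟨a, rfl⟩ := toT_surjective O m N x
  rw [resT_toT] at hx
  have ha : IsUnit a := by
    by_contra ha
    rw [resA_eq_zero_of_not_isUnit m ev hev ha] at hx
    exact not_isUnit_zero hx
  exact ha.map (toT O m N)

/-- on scalars the residue map is `ev` on constants -/
theorem resT_algebraMap [Nontrivial (Loc m N)] (c : O) :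
    resT O m N ev hev (algebraMap O (T O m N) c) = ev (algebraMap O P c) := by
  rw [← resT_ofP O m N ev hev, AlgHom.commutes]

/-! ### the support condition -/

omit [Module O N] [IsScalarTower O P N] in
/-- **a system of eigenvalues occurring in a quotient of `N` makes the localisation nontrivial** -/
theorem nontrivial_loc {N' : Type*} [AddCommGroup N'] [Module P N'] (π : N →ₗ[P] N')
    (x : N) (hx : π x ≠ 0) (hm : ∀ Q ∈ m, Q • π x = 0) : Nontrivial (Loc m N) := by
  refine ⟨⟨LocalizedModule.mk x 1, 0, fun h => hx ?_⟩⟩
  rw [← LocalizedModule.zero_mk 1, LocalizedModule.mk_eq] at h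
  obtain ⟨u, hu⟩ := h
  rw [one_smul, one_smul, smul_zero] at hu
  -- `u ∉ m` is invertible modulo `m`
  obtain ⟨a, q, hq, haq⟩ := Ideal.IsMaximal.exists_inv ‹m.IsMaximal› u.2
  have h1 : (u : P) • x = 0 := hu
  calc π x = (a * (u : P) + q) • π x := by rw [haq, one_smul]
    _ = a • π ((u : P) • x) + q • π x := by rw [add_smul, mul_smul, map_smul]
    _ = 0 := by rw [h1, map_zero, smul_zero, hm q hq, add_zero]

end Fermat.Agent.S43.Rho.LamRes
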