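/-
S43 (row 37), PROJECT R, block L1 = `Rho/**` (route (gamma)), file `LamBridge` (helper22).
Imports `Rho/Lam` only.

**The roof form of the bridge `T(Tate side) ↠ T(Betti side)`.**  `O`, `P`, `m` as in `Rho/Lam`.
`N` the Tate side, `M` the Betti side, `X` a common ambient `P`-module (the full
`Hom(Γ₁(M), O)`), `β : M → X` and `ι : N → X` linear over `P`.  If `β` is injective after
localisation at `m` and the image of `β` lies in the image of `ι` after localisation at `m`
(`∀ x, ∃ s ∉ m, s • β x ∈ range ι`), then every element of `P_m` that kills `Loc m N` kills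
`Loc m M`:

* `locMap m β : Loc m M →ₗ[P_m] Loc m X`, `locMap_mk`, `locMap_injective`;
* `exists_locMap_eq` : the image of `Loc m M` lies in the image of `Loc m N`;
* `jL : Loc m M →ₗ[P_m] Loc m N` (when `locMap m ι` is injective), `locMap_jL`, `jL_injective`, `jL_mk`;
* `roof : T O m N →ₐ[O] T O m M`, `roof_toT`, `roof_ofP`, `roof_surjective`, `roof_smul`;
* `mapRep`, `trace_mapRep`, `det_mapRep` : a representation over `T O m N` pushed to `T O m M`.
-/
import Mathlib
import Fermat.Agent.S43.Rho.Lam

set_option autoImplicit false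
set_option linter.unusedSectionVars false

noncomputable section

namespace Fermat.Agent.S43.Rho.LamBridge

open Fermat.Agent.S43.Rho.Lam

variable (O : Type) [CommRing O] {P : Type} [CommRing P] [Algebra O P] (m : Ideal P) [m.IsMaximal]
  {N : Type} [AddCommGroup N] [Module O N] [Module P N] [IsScalarTower O P N]
  {M : Type} [AddCommGroup M] [Module O M] [Module P M] [IsScalarTower O P M]
  {X : Type} [AddCommGroup X] [Module O X] [Module P X] [IsScalarTower O P X]

/-- the localisation of a `P`-linear map, over `P` -/
def locMapP (β : M →ₗ[P] X) : Loc m M →ₗ[P] Loc m X :=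
  IsLocalizedModule.map m.primeCompl (LocalizedModule.mkLinearMap m.primeCompl M)
    (LocalizedModule.mkLinearMap m.primeCompl X) β

/-- the localisation of a `P`-linear map, over the local ring `P_m` -/
def locMap (β : M →ₗ[P] X) : Loc m M →ₗ[Localization.AtPrime m] Loc m X :=
  LinearMap.extendScalarsOfIsLocalization m.primeCompl (Localization.AtPrime m) (locMapP m β)

theorem locMap_mk (β : M →ₗ[P] X) (x : M) (s : m.primeCompl) :
    locMap m β (LocalizedModule.mk x s) = LocalizedModule.mk (β x) s :=
  IsLocalizedModule.map_LocalizedModules m.primeCompl β x s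

theorem locMap_injective (β : M →ₗ[P] X) (hβ : Function.Injective β) :
    Function.Injective (locMap m β) :=
  IsLocalizedModule.map_injective m.primeCompl (LocalizedModule.mkLinearMap m.primeCompl M)
    (LocalizedModule.mkLinearMap m.primeCompl X) β hβ

/-- injectivity after localisation from the elementwise statement `(ker β)_m = 0` -/
theorem locMap_injective_of (β : M →ₗ[P] X)
    (hβ : ∀ x : M, β x = 0 → ∃ s : m.primeCompl, (s : P) • x = 0) :
    Function.Injective (locMap m β) := by
  rw [← LinearMap.ker_eq_bot, LinearMap.ker_eq_bot']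
  intro v hv
  induction v using LocalizedModule.induction_on with
  | h x s =>
    rw [locMap_mk, ← LocalizedModule.zero_mk s, LocalizedModule.mk_eq] at hv
    obtain ⟨c, hc⟩ := hv
    rw [smul_zero, smul_zero, ← mul_smul, Submonoid.smul_def, ← map_smul] at hc
    obtain ⟨s', hs'⟩ := hβ _ hc
    rw [← LocalizedModule.zero_mk s, LocalizedModule.mk_eq]
    refine ⟨s' * c, ?_⟩
    rw [smul_zero, smul_zero, ← mul_smul, Submonoid.smul_def]
    rw [← mul_smul] at hs'
    convert hs' using 2
    push_cast
    ring

variable (β : M →ₗ[P] X) (ι : N →ₗ[P] X)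

/-- the image of the localised Betti side lies in the image of the localised Tate side -/
theorem exists_locMap_eq (hroof : ∀ x : M, ∃ s : m.primeCompl, (s : P) • β x ∈ LinearMap.range ι)
    (v : Loc m M) : ∃ w : Loc m N, locMap m ι w = locMap m β v := by
  induction v using LocalizedModule.induction_on with
  | h x s =>
    obtain ⟨s', n, hn⟩ := hroof x
    refine ⟨LocalizedModule.mk n (s' * s), ?_⟩
    rw [locMap_mk, locMap_mk, hn, LocalizedModule.mk_eq]
    refine ⟨1, ?_⟩
    simp only [one_smul, Submonoid.smul_def, mul_smul]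
    rw [smul_comm]

/-- **the arrow form of the roof**: when the Tate leg is injective after localisation, the localised
Betti side embeds into the localised Tate side -/
def jL (hι : Function.Injective (locMap m ι))
    (hroof : ∀ x : M, ∃ s : m.primeCompl, (s : P) • β x ∈ LinearMap.range ι) :
    Loc m M →ₗ[Localization.AtPrime m] Loc m N :=
  ((LinearEquiv.ofInjective (locMap m ι) hι).symm : _ →ₗ[Localization.AtPrime m] Loc m N).comp
    (LinearMap.codRestrict (LinearMap.range (locMap m ι)) (locMap m β) fun v => by
      obtain ⟨w, hw⟩ := exists_locMap_eq m β ι hroof v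
      exact ⟨w, hw⟩)

theorem locMap_jL (hι : Function.Injective (locMap m ι))
    (hroof : ∀ x : M, ∃ s : m.primeCompl, (s : P) • β x ∈ LinearMap.range ι) (v : Loc m M) :
    locMap m ι (jL m β ι hι hroof v) = locMap m β v := by
  have h := LinearEquiv.apply_symm_apply (LinearEquiv.ofInjective (locMap m ι) hι)
    (LinearMap.codRestrict (LinearMap.range (locMap m ι)) (locMap m β) (fun v => by
      obtain ⟨w, hw⟩ := exists_locMap_eq m β ι hroof v
      exact ⟨w, hw⟩) v)
  exact congrArg Subtype.val h

theorem jL_injective (hι : Function.Injective (locMap m ι))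
    (hroof : ∀ x : M, ∃ s : m.primeCompl, (s : P) • β x ∈ LinearMap.range ι)
    (hβ : Function.Injective (locMap m β)) : Function.Injective (jL m β ι hι hroof) := by
  intro v v' h
  apply hβ
  rw [← locMap_jL m β ι hι hroof, ← locMap_jL m β ι hι hroof, h]

theorem jL_mk (hι : Function.Injective (locMap m ι))
    (hroof : ∀ x : M, ∃ s : m.primeCompl, (s : P) • β x ∈ LinearMap.range ι)
    (x : M) (s : m.primeCompl) (n : N) (s' : m.primeCompl) (hn : ι n = (s' : P) • β x) :
    jL m β ι hι hroof (LocalizedModule.mk x s) = LocalizedModule.mk n (s' * s) := by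
  apply hι
  rw [locMap_jL, locMap_mk, locMap_mk, hn, LocalizedModule.mk_eq]
  refine ⟨1, ?_⟩
  simp only [one_smul, Submonoid.smul_def, mul_smul]
  rw [smul_comm]

/-- what kills the Tate side kills the Betti side -/
theorem ker_act_le (hβ : Function.Injective (locMap m β))
    (hroof : ∀ x : M, ∃ s : m.primeCompl, (s : P) • β x ∈ LinearMap.range ι) :
    RingHom.ker (toT O m N).toRingHom ≤ RingHom.ker (toT O m M).toRingHom := by
  intro a ha
  rw [RingHom.mem_ker] at ha ⊢
  apply T_faithful
  intro v
  apply hβ
  have h0 : toT O m N a = 0 := ha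
  obtain ⟨w, hw⟩ := exists_locMap_eq m β ι hroof v
  show locMap m β (toT O m M a • v) = locMap m β 0
  rw [toT_smul, map_smul, map_zero, ← hw, ← map_smul, ← toT_smul O m N a, h0, zero_smul, map_zero]

/-- **the roof bridge** `T(N) → T(M)` -/
def roof (hβ : Function.Injective (locMap m β))
    (hroof : ∀ x : M, ∃ s : m.primeCompl, (s : P) • β x ∈ LinearMap.range ι) :
    T O m N →ₐ[O] T O m M :=
  AlgHom.liftOfSurjective (toT O m N) (toT_surjective O m N) (toT O m M)
    (ker_act_le O m β ι hβ hroof)

variable (hβ : Function.Injective (locMap m β))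
  (hroof : ∀ x : M, ∃ s : m.primeCompl, (s : P) • β x ∈ LinearMap.range ι)

theorem roof_toT (a : Localization.AtPrime m) :
    roof O m β ι hβ hroof (toT O m N a) = toT O m M a :=
  AlgHom.liftOfSurjective_apply _ _ _ _ a

theorem roof_ofP (Q : P) : roof O m β ι hβ hroof (ofP O m N Q) = ofP O m M Q :=
  roof_toT O m β ι hβ hroof _

theorem roof_surjective : Function.Surjective (roof O m β ι hβ hroof) := by
  intro y
  obtain ⟨a, rfl⟩ := toT_surjective O m M y
  exact ⟨toT O m N a, roof_toT O m β ι hβ hroof a⟩

/-- the two legs are equivariant for the roof bridge -/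
theorem roof_smul (x : T O m N) (v : Loc m M) (w : Loc m N) (hw : locMap m ι w = locMap m β v) :
    locMap m β (roof O m β ι hβ hroof x • v) = locMap m ι (x • w) := by
  obtain ⟨a, rfl⟩ := toT_surjective O m N x
  rw [roof_toT, toT_smul, toT_smul, map_smul, map_smul, hw]

/-- the roof bridge is a local homomorphism when the Betti side is not zero -/
theorem isLocalHom_roof [Nontrivial (Loc m M)] [Nontrivial (Loc m N)] :
    IsLocalHom (roof O m β ι hβ hroof).toRingHom := by
  refine ⟨fun x hx => ?_⟩
  obtain ⟨a, rfl⟩ := toT_surjective O m N x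
  have h1 : IsUnit (toT O m M a) := by
    have := roof_toT O m β ι hβ hroof a
    rw [← this]
    exact hx
  have h2 : IsUnit a := (instIsLocalHomToT O m M).map_nonunit a h1
  exact h2.map (toT O m N)

/-- **pushing a representation along the roof bridge** -/
def mapRep {G : Type*} [Group G] (ρ : G →* GL (Fin 2) (T O m N)) : G →* GL (Fin 2) (T O m M) :=
  (Matrix.GeneralLinearGroup.map (roof O m β ι hβ hroof).toRingHom).comp ρ

theorem mapRep_apply {G : Type*} [Group G] (ρ : G →* GL (Fin 2) (T O m N)) (g : G) (a b : Fin 2) :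
    (mapRep O m β ι hβ hroof ρ g : Matrix (Fin 2) (Fin 2) (T O m M)) a b =
      roof O m β ι hβ hroof ((ρ g : Matrix (Fin 2) (Fin 2) (T O m N)) a b) := rfl

theorem trace_mapRep {G : Type*} [Group G] (ρ : G →* GL (Fin 2) (T O m N)) (g : G) :
    Matrix.trace (mapRep O m β ι hβ hroof ρ g : Matrix (Fin 2) (Fin 2) (T O m M)) =
      roof O m β ι hβ hroof (Matrix.trace (ρ g : Matrix (Fin 2) (Fin 2) (T O m N))) := by
  simp only [Matrix.trace, Matrix.diag, map_sum, mapRep_apply]

theorem det_mapRep {G : Type*} [Group G] (ρ : G →* GL (Fin 2) (T O m N)) (g : G) :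
    Matrix.det (mapRep O m β ι hβ hroof ρ g : Matrix (Fin 2) (Fin 2) (T O m M)) =
      roof O m β ι hβ hroof (Matrix.det (ρ g : Matrix (Fin 2) (Fin 2) (T O m N))) := by
  rw [Matrix.det_fin_two, Matrix.det_fin_two, map_sub, map_mul, map_mul]
  rfl

end Fermat.Agent.S43.Rho.LamBridge
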