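/-
S43 (row 37), PROJECT R, block L1 = `Rho/**` (route (gamma)), file `LamTate` (helper22).
Imports `Rho/LamInstD`, helper2's `JH/Compare/Coeff`, helper20's `Hecke/Inst/BridgeOps`.

**The Tate leg of the roof `Betti → Hom(Γ₁(M), O) ← Tate`.**  `P := MvPolynomial (K M p S₀) O`,
`K M p = J M p ⊕ (ZMod M)ˣ` (the primes `r ∤ M p` and the diamonds).

* `fJ : J M p S₀ → HIdx M`, `eJ : J M p S₀ → (ZMod M)ˣ` (`r ↦ r ^ m`): the parameters of helper20's
  `opsB` / `ops1` / `betaP` for which `X (inl r)` is the twisted operator `⟨r^m⟩ T_r`;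
* `iota0 : LamO M m p H O →ₗ[O] (Additive (Gamma1 M) →+ O)` : inclusion of the `H`-invariants,
  untwisting, helper2's comparison `cmpO`, inclusion of the parabolic homs; `iota0_tK`;
* `iotaP : WithOps (tK ..) (hcommK ..) →ₗ[P] WithOps (ops1 O fJ eJ) (ops1_comm ..)`, INJECTIVE
  (`p ∤ |H|`);
* `mem_range_iota0` / `mem_range_iotaP` : every parabolic hom fixed by the diamonds of `H` is in the
  range.
-/
import Mathlib
import Fermat.Agent.S43.Rho.LamInstD
import Fermat.Agent.S43.JH.Compare.Coeff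
import Fermat.Agent.S43.Hecke.Inst.BridgeOps

set_option autoImplicit false
set_option linter.unusedSectionVars false

noncomputable section

namespace Fermat.Agent.S43.Rho.LamTate

open CongruenceSubgroup TensorProduct ModularCurve.Period
open Fermat.Agent.S43.Hecke.PolyModule
open Fermat.Agent.S43.Rho.Feed.Inst Fermat.Agent.S43.Rho.Feed.Base
open Fermat.Agent.S43.JH.Seam Fermat.Agent.S43.JH.Summand Fermat.Agent.S43.JH.Tw
open Fermat.Agent.S43.JH.Part
open Fermat.Agent.S43.JH.Compare.Coeff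
open Fermat.Agent.S43.Rho.LamInst (J)
open Fermat.Agent.S43.Rho.LamInstD (K tK hcommK)
open Fermat.Agent.S48.B.Hecke.Gamma1Cosets Fermat.Agent.S48.B.Hecke.Parabolic1
open Fermat.Agent.S48.B.Hecke.Diamond1
open Fermat.Agent.S43.Hecke.Inst.Comm (HIdx)
open Fermat.Agent.S43.Hecke.Inst.Restrict1 (primeOf primeOf_prime)
open Fermat.Agent.S43.Hecke.Inst.BridgeOps (ops1 ops1_comm ops1_inl_apply ops1_inr_apply)
open scoped MatrixGroups

variable (M : ℕ) [NeZero M] (m : ℕ) (p : ℕ) [hp : Fact p.Prime] (H : Subgroup (ZMod M)ˣ)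
  (O : Type) [CommRing O] [Algebra ℤ_[p] O] (S₀ : Finset ℕ)

/-! ### the parameters of the Betti side -/

/-- the index of `T_r` (`r ∤ M p`) in the index set of the Betti side -/
def fJ : J M p S₀ → HIdx M := fun j =>
  Sum.inl ⟨(j.1 : ℕ), j.1.2, (Nat.Prime.coprime_iff_not_dvd j.1.2).mp j.2.1⟩

/-- the diamond twist `r ^ m` of the twisted Hecke operator `T'_r = ⟨r^m⟩ T_r` -/
def eJ : J M p S₀ → (ZMod M)ˣ := fun j => ZMod.unitOfCoprime (j.1 : ℕ) j.2.1 ^ m

theorem primeOf_fJ (j : J M p S₀) : primeOf (fJ M p S₀ j) = (j.1 : ℕ) := rfl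

/-! ### base change of intertwining maps -/

theorem baseChange_comm {A B : Type*} [AddCommGroup A] [Module ℤ_[p] A] [AddCommGroup B]
    [Module ℤ_[p] B] (f : A →ₗ[ℤ_[p]] B) (g : Module.End ℤ_[p] A) (g' : Module.End ℤ_[p] B)
    (h : ∀ a, f (g a) = g' (f a)) (z : O ⊗[ℤ_[p]] A) :
    f.baseChange O (g.baseChange O z) = g'.baseChange O (f.baseChange O z) := by
  have h1 : f ∘ₗ g = g' ∘ₗ f := LinearMap.ext h
  rw [← LinearMap.comp_apply, ← LinearMap.baseChange_comp, h1, LinearMap.baseChange_comp,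
    LinearMap.comp_apply]

/-! ### the four arrows -/

/-- the inclusion of the `H`-invariants, over `O` -/
def inclO : LamO M m p H O →ₗ[O] O ⊗[ℤ_[p]] TpTw M m p :=
  (TpJHTw M m p H).subtype.baseChange O

/-- the projection onto the `H`-invariants, over `O` -/
def projO (hH : ¬ p ∣ Nat.card H) : O ⊗[ℤ_[p]] TpTw M m p →ₗ[O] LamO M m p H O :=
  (projH M m p H hH).baseChange O

/-- untwisting: `TpTw M m p` is `TpJ1 M p` as a module -/
def untw : O ⊗[ℤ_[p]] TpTw M m p →ₗ[O] O ⊗[ℤ_[p]] TpJ1 M p :=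
  ((toT M m p).symm : TpTw M m p →ₗ[ℤ_[p]] TpJ1 M p).baseChange O

/-- twisting back -/
def retw : O ⊗[ℤ_[p]] TpJ1 M p →ₗ[O] O ⊗[ℤ_[p]] TpTw M m p :=
  ((toT M m p) : TpJ1 M p →ₗ[ℤ_[p]] TpTw M m p).baseChange O

theorem projO_inclO (hH : ¬ p ∣ Nat.card H) (w : LamO M m p H O) :
    projO M m p H O hH (inclO M m p H O w) = w := by
  unfold projO inclO
  rw [← LinearMap.comp_apply, ← LinearMap.baseChange_comp]
  have h1 : projH M m p H hH ∘ₗ (TpJHTw M m p H).subtype = LinearMap.id :=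
    LinearMap.ext fun y => projH_coe M m p H hH y
  rw [h1, LinearMap.baseChange_id, LinearMap.id_apply]

theorem inclO_projO (hH : ¬ p ∣ Nat.card H) (y : O ⊗[ℤ_[p]] TpTw M m p) :
    inclO M m p H O (projO M m p H O hH y) = (eHTw M m p H hH).baseChange O y := by
  unfold projO inclO
  rw [← LinearMap.comp_apply, ← LinearMap.baseChange_comp]
  rfl

theorem inclO_injective (hH : ¬ p ∣ Nat.card H) : Function.Injective (inclO M m p H O) :=
  Function.LeftInverse.injective (projO_inclO M m p H O hH)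

theorem untw_retw (x : O ⊗[ℤ_[p]] TpJ1 M p) : untw M m p O (retw M m p O x) = x := by
  unfold untw retw
  rw [← LinearMap.comp_apply, ← LinearMap.baseChange_comp]
  have h1 : ((toT M m p).symm : TpTw M m p →ₗ[ℤ_[p]] TpJ1 M p) ∘ₗ
      ((toT M m p) : TpJ1 M p →ₗ[ℤ_[p]] TpTw M m p) = LinearMap.id :=
    LinearMap.ext fun y => (toT M m p).symm_apply_apply y
  rw [h1, LinearMap.baseChange_id, LinearMap.id_apply]

theorem retw_untw (y : O ⊗[ℤ_[p]] TpTw M m p) : retw M m p O (untw M m p O y) = y := by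
  unfold untw retw
  rw [← LinearMap.comp_apply, ← LinearMap.baseChange_comp]
  have h1 : ((toT M m p) : TpJ1 M p →ₗ[ℤ_[p]] TpTw M m p) ∘ₗ
      ((toT M m p).symm : TpTw M m p →ₗ[ℤ_[p]] TpJ1 M p) = LinearMap.id :=
    LinearMap.ext fun y => (toT M m p).apply_symm_apply y
  rw [h1, LinearMap.baseChange_id, LinearMap.id_apply]

theorem untw_injective : Function.Injective (untw M m p O) :=
  Function.LeftInverse.injective (retw_untw M m p O)

/-! ### equivariance of the arrows -/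

theorem inclO_tO (r : Nat.Primes) (hr : (r : ℕ).Coprime M) (hrp : (r : ℕ) ≠ p)
    (w : LamO M m p H O) :
    inclO M m p H O (tO M m p H O r hr hrp w) =
      (heckeTwT M m p r hr).baseChange O (inclO M m p H O w) :=
  baseChange_comm p O (TpJHTw M m p H).subtype (heckeH M m p H r hr hrp) (heckeTwT M m p r hr)
    (fun _ => rfl) w

theorem inclO_dO (d : (ZMod M)ˣ) (w : LamO M m p H O) :
    inclO M m p H O (dO M m p H O d w) = (diaTwT M m p d).baseChange O (inclO M m p H O w) :=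
  baseChange_comm p O (TpJHTw M m p H).subtype (diaH M m p H d) (diaTwT M m p d)
    (fun _ => rfl) w

theorem untw_heckeTwT (r : Nat.Primes) (hr : (r : ℕ).Coprime M) (y : O ⊗[ℤ_[p]] TpTw M m p) :
    untw M m p O ((heckeTwT M m p r hr).baseChange O y) =
      (diaT M p (ZMod.unitOfCoprime (r : ℕ) hr ^ m)).baseChange O
        ((heckeT M p r).baseChange O (untw M m p O y)) := by
  have h := baseChange_comm p O ((toT M m p).symm : TpTw M m p →ₗ[ℤ_[p]] TpJ1 M p)
    (heckeTwT M m p r hr) (diaT M p (ZMod.unitOfCoprime (r : ℕ) hr ^ m) * heckeT M p r)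
    (fun a => by
      rw [heckeTwT_eq, cjT_apply]
      exact (toT M m p).symm_apply_apply _) y
  rw [Module.End.mul_eq_comp, LinearMap.baseChange_comp, LinearMap.comp_apply] at h
  exact h

theorem untw_diaTwT (d : (ZMod M)ˣ) (y : O ⊗[ℤ_[p]] TpTw M m p) :
    untw M m p O ((diaTwT M m p d).baseChange O y) =
      (diaT M p d).baseChange O (untw M m p O y) :=
  baseChange_comm p O ((toT M m p).symm : TpTw M m p →ₗ[ℤ_[p]] TpJ1 M p)
    (diaTwT M m p d) (diaT M p d)
    (fun a => by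
      rw [diaTwT_eq, cjT_apply]
      exact (toT M m p).symm_apply_apply _) y

/-! ### the Tate leg -/

variable [Module.Flat ℤ O]

/-- **the Tate leg**: the module of record inside `Hom(Γ₁(M), O)` -/
def iota0 (hM : 5 ≤ M) : LamO M m p H O →ₗ[O] (Additive (Gamma1 M) →+ O) :=
  (parabolicHoms O (Gamma1 M) O).subtype ∘ₗ (cmpO M p O hM).toLinearMap ∘ₗ untw M m p O ∘ₗ
    inclO M m p H O

theorem iota0_apply (hM : 5 ≤ M) (w : LamO M m p H O) :
    iota0 M m p H O hM w =
      ((cmpO M p O hM (untw M m p O (inclO M m p H O w)) : parabolicHoms O (Gamma1 M) O) :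
        Additive (Gamma1 M) →+ O) := rfl

theorem iota0_mem_parabolicHoms (hM : 5 ≤ M) (w : LamO M m p H O) :
    iota0 M m p H O hM w ∈ parabolicHoms O (Gamma1 M) O :=
  (cmpO M p O hM (untw M m p O (inclO M m p H O w))).2

theorem iota0_injective (hM : 5 ≤ M) (hH : ¬ p ∣ Nat.card H) :
    Function.Injective (iota0 M m p H O hM) := by
  intro w w' h
  rw [iota0_apply, iota0_apply] at h
  exact inclO_injective M m p H O hH (untw_injective M m p O
    ((cmpO M p O hM).injective (Subtype.ext h)))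

theorem iota0_tO (hM : 5 ≤ M) (j : J M p S₀) (w : LamO M m p H O) :
    iota0 M m p H O hM (tO M m p H O j.1 j.2.1 j.2.2.1 w) =
      diamondOp (eJ M m p S₀ j) (tau1All M (j.1 : ℕ) j.1.2 (iota0 M m p H O hM w)) := by
  rw [iota0_apply, iota0_apply, inclO_tO, untw_heckeTwT, cmpO_diaT,
    cmpO_heckeT M p O hM j.1 ((Nat.Prime.coprime_iff_not_dvd j.1.2).mp j.2.1), coe_diamondPar,
    coe_tau1Par]
  rfl

theorem iota0_dO (hM : 5 ≤ M) (d : (ZMod M)ˣ) (w : LamO M m p H O) :
    iota0 M m p H O hM (dO M m p H O d w) = diamondOp d (iota0 M m p H O hM w) := by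
  rw [iota0_apply, iota0_apply, inclO_dO, untw_diaTwT, cmpO_diaT, coe_diamondPar]
  rfl

/-- **the Tate leg intertwines the operators of record with helper20's `ops1`** -/
theorem iota0_tK (hM : 5 ≤ M) (k : K M p S₀) (w : LamO M m p H O) :
    iota0 M m p H O hM (tK M m p H O S₀ k w) =
      ops1 O (fJ M p S₀) (eJ M m p S₀) k (iota0 M m p H O hM w) := by
  rcases k with j | d
  · rw [ops1_inl_apply]
    exact iota0_tO M m p H O S₀ hM j w
  · rw [ops1_inr_apply]
    exact iota0_dO M m p H O hM d w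

/-- **the Tate leg, linear over the polynomial ring** -/
def iotaP (hM : 5 ≤ M) :
    WithOps (tK M m p H O S₀) (hcommK M m p H O S₀) →ₗ[MvPolynomial (K M p S₀) O]
      WithOps (ops1 O (fJ M p S₀) (eJ M m p S₀)) (ops1_comm O (fJ M p S₀) (eJ M m p S₀)) :=
  WithOps.map (iota0 M m p H O hM) (fun k w => iota0_tK M m p H O S₀ hM k w)

theorem iotaP_apply (hM : 5 ≤ M) (x : WithOps (tK M m p H O S₀) (hcommK M m p H O S₀)) :
    WithOps.equiv (ops1 O (fJ M p S₀) (eJ M m p S₀)) (ops1_comm O (fJ M p S₀) (eJ M m p S₀))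
        (iotaP M m p H O S₀ hM x) =
      iota0 M m p H O hM (WithOps.equiv (tK M m p H O S₀) (hcommK M m p H O S₀) x) := rfl

theorem iotaP_injective (hM : 5 ≤ M) (hH : ¬ p ∣ Nat.card H) :
    Function.Injective (iotaP M m p H O S₀ hM) := by
  intro x y hxy
  apply (WithOps.equiv (tK M m p H O S₀) (hcommK M m p H O S₀)).injective
  apply iota0_injective M m p H O hM hH
  rw [← iotaP_apply, ← iotaP_apply, hxy]

/-! ### the range of the Tate leg -/

theorem diamondOp_iota0_of_mem (hM : 5 ≤ M) {d : (ZMod M)ˣ} (hd : d ∈ H) (w : LamO M m p H O) :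
    diamondOp d (iota0 M m p H O hM w) = iota0 M m p H O hM w := by
  rw [← iota0_dO]
  congr 1
  show bc ℤ_[p] O (LamH M m p H) (diaH M m p H d) w = w
  rw [diaH_of_mem M m p H hd, map_one, Module.End.one_apply]

open Classical in
/-- an element of `O ⊗ TpJ1` fixed by the diamonds of `H` is fixed by the idempotent `e_H` -/
theorem eH_baseChange_of_fixed (hH : ¬ p ∣ Nat.card H) (x : O ⊗[ℤ_[p]] TpJ1 M p)
    (hx : ∀ d ∈ H, (diaT M p d).baseChange O x = x) : (eH M p H hH).baseChange O x = x := by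
  have h1 : (eH M p H hH).baseChange O =
      (((isUnit_card M p H hH).unit⁻¹ : ℤ_[p]ˣ) : ℤ_[p]) •
        ∑ h : H, (diaT M p (h : (ZMod M)ˣ)).baseChange O := by
    show bc ℤ_[p] O (TpJ1 M p) (eH M p H hH) = _
    rw [eH, avgT_eq, map_smul, map_sum]
    rfl
  rw [h1, LinearMap.smul_apply, LinearMap.sum_apply,
    Finset.sum_congr rfl (fun h _ => hx h.1 h.2), Finset.sum_const, Finset.card_univ,
    Fintype.card_eq_nat_card, ← Nat.cast_smul_eq_nsmul ℤ_[p], smul_smul]
  have : (((isUnit_card M p H hH).unit⁻¹ : ℤ_[p]ˣ) : ℤ_[p]) * (Nat.card H : ℤ_[p]) = 1 :=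
    (isUnit_card M p H hH).val_inv_mul
  rw [this, one_smul]

theorem retw_eH (hH : ¬ p ∣ Nat.card H) (x : O ⊗[ℤ_[p]] TpJ1 M p) :
    retw M m p O ((eH M p H hH).baseChange O x) =
      (eHTw M m p H hH).baseChange O (retw M m p O x) :=
  baseChange_comm p O ((toT M m p) : TpJ1 M p →ₗ[ℤ_[p]] TpTw M m p) (eH M p H hH)
    (eHTw M m p H hH)
    (fun a => by
      rw [eHTw, cjT_apply]
      exact congrArg _ (congrArg _ ((toT M m p).symm_apply_apply a).symm)) x

/-- **every parabolic hom fixed by the diamonds of `H` comes from the module of record** -/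
theorem mem_range_iota0 (hM : 5 ≤ M) (hH : ¬ p ∣ Nat.card H) (φ : Additive (Gamma1 M) →+ O)
    (hpar : φ ∈ parabolicHoms O (Gamma1 M) O) (hinv : ∀ d ∈ H, diamondOp d φ = φ) :
    ∃ w : LamO M m p H O, iota0 M m p H O hM w = φ := by
  set x : O ⊗[ℤ_[p]] TpJ1 M p := (cmpO M p O hM).symm ⟨φ, hpar⟩ with hx
  have hcx : cmpO M p O hM x = ⟨φ, hpar⟩ := (cmpO M p O hM).apply_symm_apply _
  have h1 : ∀ d ∈ H, (diaT M p d).baseChange O x = x := by
    intro d hd
    apply (cmpO M p O hM).injective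
    rw [cmpO_diaT, hcx]
    exact Subtype.ext (hinv d hd)
  have h2 := eH_baseChange_of_fixed M p H O hH x h1
  have h3 : (eHTw M m p H hH).baseChange O (retw M m p O x) = retw M m p O x := by
    rw [← retw_eH, h2]
  refine ⟨projO M m p H O hH (retw M m p O x), ?_⟩
  rw [iota0_apply, inclO_projO, h3, untw_retw, hcx]

theorem mem_range_iotaP (hM : 5 ≤ M) (hH : ¬ p ∣ Nat.card H)
    (z : WithOps (ops1 O (fJ M p S₀) (eJ M m p S₀)) (ops1_comm O (fJ M p S₀) (eJ M m p S₀)))
    (hpar : WithOps.equiv _ _ z ∈ parabolicHoms O (Gamma1 M) O)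
    (hinv : ∀ d ∈ H, diamondOp d (WithOps.equiv _ _ z) = WithOps.equiv _ _ z) :
    z ∈ LinearMap.range (iotaP M m p H O S₀ hM) := by
  obtain ⟨w, hw⟩ := mem_range_iota0 M m p H O hM hH _ hpar hinv
  refine ⟨(WithOps.equiv (tK M m p H O S₀) (hcommK M m p H O S₀)).symm w, ?_⟩
  apply (WithOps.equiv (ops1 O (fJ M p S₀) (eJ M m p S₀)) (ops1_comm O (fJ M p S₀) (eJ M m p S₀))).injective
  rw [iotaP_apply, LinearEquiv.apply_symm_apply, hw]

/-- the range of the Tate leg consists of parabolic homs fixed by the diamonds of `H` -/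
theorem iotaP_mem (hM : 5 ≤ M) (x : WithOps (tK M m p H O S₀) (hcommK M m p H O S₀)) :
    WithOps.equiv _ _ (iotaP M m p H O S₀ hM x) ∈ parabolicHoms O (Gamma1 M) O ∧
      ∀ d ∈ H, diamondOp d (WithOps.equiv _ _ (iotaP M m p H O S₀ hM x)) =
        WithOps.equiv _ _ (iotaP M m p H O S₀ hM x) :=
  ⟨iota0_mem_parabolicHoms M m p H O hM _, fun _ hd => diamondOp_iota0_of_mem M m p H O hM hd _⟩

end Fermat.Agent.S43.Rho.LamTate
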