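import Fermat.Agent.S43.Rho.RhoT
import Fermat.Agent.S43.Rho.CH
import Fermat.Agent.S53.Dictionary

/-!
# PROJECT R (S43), block L1, route (gamma): `ρ_T` for the representation of `Rho/CH`, in the
vocabulary of main's `S53/Dictionary` (`Mat`, `IsContMat`, `ofMat`, `mapMat`)

`h : CH.Input r t d c g₀ h₀` over a local ring `T` with `2` invertible, `T` acting faithfully on a
finite module `Λ` over a Noetherian local ring `𝒪` (`ι : T →ₐ[𝒪] End_𝒪 Λ` injective), and the trace
function `t` continuous in the sense of `Rho/Dens.tr_cont`.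

* `isContMat` : `IsContMat T (CH.rep h)`;
* `rhoT := ofMat (CH.rep h) _ : GaloisRepAdic T`, `trace_rhoT`, `det_rhoT`, `rhoT_eq_one_iff`;
* `mapMat_rep` : **the residual representation by formula**: for every ring homomorphism
  `π : T →+* B` and every matrix representation `rb` over `B` with `tr rb = π ∘ t`,
  `rb c = diag(1, -1)` and `rb h₀ 1 0 = 1`: `mapMat π (CH.rep h) = rb`, an EQUALITY of matrices;
* `mapMat_residue_rep` : the same in the literal of `Num/ExportT.RelGenT`;
* `exists_rescale` : every basis diagonalising `c` can be rescaled so that `rb h₀ 1 0 = 1`.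
-/

set_option autoImplicit false

noncomputable section

namespace Fermat.Agent.S43.Rho.RhoTOfCH

open IsLocalRing Matrix
open Fermat.Agent.S31.Core (smallEnd)
open Fermat.Agent.S53.Dictionary

local notation "Qb" => AlgebraicClosure ℚ

/-! ### The entries of `Rho/RhoT` are those of `Rho/CH` -/

section entries

variable {G : Type*} [Group G] {T : Type*} [CommRing T] [Invertible (2 : T)] (t : G → T) (c : G)

theorem aF_eq : RhoT.aF t (⅟2 : T) c = CH.aT t c := rfl

theorem ddF_eq : RhoT.ddF t (⅟2 : T) c = CH.dT t c := rfl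

theorem xF_eq : RhoT.xF t (⅟2 : T) c = CH.xT t c := rfl

theorem two_mul_half : (2 : T) * ⅟2 = 1 := mul_invOf_self 2

end entries

/-! ### The residual representation, by formula -/

section special

variable {G : Type*} [Group G] {T : Type*} [CommRing T] [Invertible (2 : T)]
  {E : Type*} [Ring E] [Algebra T E] {r : G →* E} {t : G → T} {d : G →* T} {c g₀ h₀ : G}
  (h : CH.Input r t d c g₀ h₀)

theorem rep_apply' (g : G) :
    CH.rep h g = !![RhoT.aF t (⅟2 : T) c g, RhoT.xF t (⅟2 : T) c g h₀;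
      CH.uinv h * RhoT.xF t (⅟2 : T) c g₀ g, RhoT.ddF t (⅟2 : T) c g] :=
  CH.rep_apply h g

theorem xF_mul_uinv : RhoT.xF t (⅟2 : T) c g₀ h₀ * CH.uinv h = 1 := by
  rw [mul_comm]
  exact CH.uinv_mul h

theorem diagonal_one_one {B : Type*} [CommRing B] :
    (Matrix.diagonal ![1, 1] : Matrix (Fin 2) (Fin 2) B) = 1 := by
  rw [← Matrix.diagonal_one]
  congr 1
  funext i
  fin_cases i <;> rfl

/-- **the image of `CH.rep h` under `π` IS `rb`**, for every ring homomorphism `π` and every matrix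
representation `rb` with `tr rb = π ∘ t`, `rb c = diag(1, -1)`, `rb h₀ 1 0 = 1`. -/
theorem map_rep {B : Type*} [CommRing B] (π : T →+* B) (rb : G →* Matrix (Fin 2) (Fin 2) B)
    (htr : ∀ g, π (t g) = Matrix.trace (rb g)) (hc : rb c = !![1, 0; 0, -1])
    (h1 : rb h₀ 1 0 = 1) (g : G) : (CH.rep h g).map π = rb g := by
  have hβγ := RhoT.nu_beta_mul_gamma t (⅟2 : T) c g₀ h₀ (CH.uinv h) π rb htr hc two_mul_half
    (xF_mul_uinv h)
  rw [h1, mul_one] at hβγ
  rw [rep_apply' h g, RhoT.map_matrix t (⅟2 : T) c g₀ h₀ (CH.uinv h) π rb htr hc two_mul_half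
    (xF_mul_uinv h) g, h1, hβγ, diagonal_one_one, one_mul, mul_one]

end special

/-! ### `ρ_T` -/

section rhoT

variable {𝒪 : Type*} [CommRing 𝒪] [IsLocalRing 𝒪] [IsNoetherianRing 𝒪]
  {Lam : Type*} [AddCommGroup Lam] [Module 𝒪 Lam] [Module.Finite 𝒪 Lam]
  {T : Type} [CommRing T] [IsLocalRing T] [Algebra 𝒪 T] [IsLocalHom (algebraMap 𝒪 T)]
  [Invertible (2 : T)]
  {E : Type*} [Ring E] [Algebra T E] {r : GQ →* E} {t : GQ → T} {d : GQ →* T} {c g₀ h₀ : GQ}
  (h : CH.Input r t d c g₀ h₀)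
  (ι : T →ₐ[𝒪] Module.End 𝒪 Lam) (hι : Function.Injective ι)
  (htc : ∀ n : ℕ, ∃ L : IntermediateField ℚ Qb, FiniteDimensional ℚ L ∧
    ∀ u : GQ, (∀ x ∈ L, u x = x) → ∀ g : GQ,
      ι (t (u * g) - t g) ∈ smallEnd (V := Lam) (maximalIdeal 𝒪 ^ n))

include hι htc in
/-- **the representation of `Rho/CH` is adically continuous** -/
theorem isContMat : IsContMat T (CH.rep h) :=
  RhoT.matAdicContinuous ι hι t htc (⅟2 : T) c g₀ h₀ (CH.uinv h) (CH.rep h) (rep_apply' h)

/-- **`ρ_T`**, as a `GaloisRepAdic T` (main's `S53.Dictionary.ofMat`) -/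
def rhoT : GaloisRepAdic T := ofMat (CH.rep h) (isContMat h ι hι htc)

theorem rhoT_ρ_apply (σ : GQ) (v : Fin 2 → T) :
    (rhoT h ι hι htc).ρ σ v = (CH.rep h σ).mulVec v :=
  ofMat_ρ_apply _ _ σ v

theorem rhoT_ρ (σ : GQ) : (rhoT h ι hι htc).ρ σ = Matrix.toLin' (CH.rep h σ) := rfl

theorem trace_rhoT (σ : GQ) : (rhoT h ι hι htc).trace σ = t σ :=
  (Matrix.trace_toLin'_eq (CH.rep h σ)).trans (CH.trace_rep h σ)

theorem det_ρ_rhoT (σ : GQ) : LinearMap.det ((rhoT h ι hι htc).ρ σ) = d σ :=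
  (LinearMap.det_toLin' (CH.rep h σ)).trans (CH.det_rep h σ)

theorem det_rhoT (σ : GQ) : (((rhoT h ι hι htc).det σ : Tˣ) : T) = d σ :=
  det_ρ_rhoT h ι hι htc σ

/-- the kernel of `ρ_T` is the kernel of the matrix representation -/
theorem rhoT_eq_one_iff (σ : GQ) : (rhoT h ι hι htc).ρ σ = 1 ↔ CH.rep h σ = 1 := by
  rw [rhoT_ρ]
  constructor
  · intro h'
    apply (Matrix.toLin' (R := T) (m := Fin 2) (n := Fin 2)).injective
    rw [h', Matrix.toLin'_one]
    rfl
  · intro h'
    rw [h', Matrix.toLin'_one]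
    rfl

/-- `ρ_T` is unramified at `q` as soon as the matrices of the inertia groups are trivial -/
theorem isUnramifiedAt_rhoT (q : ℕ)
    (hq : ∀ P : ValuationSubring Qb, P.LiesOverPrime q → ∀ σ ∈ P.inertiaSubgroupIn ℚ,
      CH.rep h σ = 1) : (rhoT h ι hι htc).IsUnramifiedAt q :=
  fun P hP σ hσ => (rhoT_eq_one_iff h ι hι htc σ).mpr (hq P hP σ hσ)

end rhoT

/-! ### The residual representation in the literal of `Num/ExportT` -/

section residual

variable {T : Type} [CommRing T] [Invertible (2 : T)]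
  {E : Type*} [Ring E] [Algebra T E] {r : GQ →* E} {t : GQ → T} {d : GQ →* T} {c g₀ h₀ : GQ}
  (h : CH.Input r t d c g₀ h₀)

/-- **residual representation by formula**, `mapMat` form -/
theorem mapMat_rep {B : Type} [CommRing B] (π : T →+* B) (rb : GQ →* Mat B)
    (htr : ∀ g, π (t g) = Matrix.trace (rb g)) (hc : rb c = !![1, 0; 0, -1])
    (h1 : rb h₀ 1 0 = 1) : mapMat π (CH.rep h) = rb := by
  ext σ : 1
  rw [mapMat_apply']
  exact map_rep h π rb htr hc h1 σ

theorem mapMat_diag {A B : Type} [CommRing A] [CommRing B] (φ : A →+* B) (rb : GQ →* Mat A)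
    (c : GQ) (hc : rb c = !![1, 0; 0, -1]) : mapMat φ rb c = !![1, 0; 0, -1] := by
  rw [mapMat_apply', hc]
  ext i j
  fin_cases i <;> fin_cases j <;> simp

theorem trace_mapMat {A B : Type} [CommRing A] [CommRing B] (φ : A →+* B) (rb : GQ →* Mat A)
    (σ : GQ) : Matrix.trace (mapMat φ rb σ) = φ (Matrix.trace (rb σ)) := by
  rw [Matrix.trace_fin_two, Matrix.trace_fin_two, map_add, mapMat_apply, mapMat_apply]

variable [IsLocalRing T] {𝒪 : Type} [CommRing 𝒪] [IsLocalRing 𝒪] [Algebra 𝒪 T]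
  [IsLocalHom (algebraMap 𝒪 T)]

/-- **`ρ_T mod 𝔪_T = rbar`**, in the literal of `Num/ExportT.RelGenT` (`rb := rbarM rbar`):
`rb` a matrix form of `ρ̄` over `k = 𝒪 / 𝔪` in a basis with `rb c = diag(1, -1)`, `rb h₀ 1 0 = 1`,
and `t ≡ tr rb` modulo `𝔪_T`. -/
theorem mapMat_residue_rep (rb : GQ →* Mat (ResidueField 𝒪))
    (htr : ∀ g, residue T (t g) = ResidueField.map (algebraMap 𝒪 T) (Matrix.trace (rb g)))
    (hc : rb c = !![1, 0; 0, -1]) (h1 : rb h₀ 1 0 = 1) :
    mapMat (residue T) (CH.rep h) = mapMat (ResidueField.map (algebraMap 𝒪 T)) rb := by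
  refine mapMat_rep h (residue T) _ (fun g => ?_) (mapMat_diag _ rb c hc) ?_
  · rw [trace_mapMat, htr g]
  · rw [mapMat_apply, h1, map_one]

end residual

/-! ### Rescaling a basis -/

section rescale

variable {k : Type*} [Field k] {V : Type*} [AddCommGroup V] [Module k V]

/-- the matrix of `f` in the basis `(b 0, lam • b 1)` -/
theorem toMatrix_unitsSMul (b : Module.Basis (Fin 2) k V) (w : Fin 2 → kˣ) (f : Module.End k V)
    (i j : Fin 2) :
    LinearMap.toMatrix (b.unitsSMul w) (b.unitsSMul w) f i j =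
      ((w i)⁻¹ : kˣ) * (w j : k) * LinearMap.toMatrix b b f i j := by
  rw [LinearMap.toMatrix_apply, LinearMap.toMatrix_apply, Module.Basis.repr_unitsSMul,
    Module.Basis.unitsSMul_apply, Units.smul_def, Units.smul_def, map_smul, map_smul,
    Finsupp.smul_apply, smul_eq_mul, smul_eq_mul, mul_assoc]

/-- **rescaling**: a basis in which `f_c = diag(1, -1)` and `(f_h) 1 0 ≠ 0` can be rescaled so
that moreover `(f_h) 1 0 = 1`; the entries `0 1` are multiplied by the unit `(f_h) 1 0`. -/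
theorem exists_rescale (b : Module.Basis (Fin 2) k V) (fc fh : Module.End k V)
    (hc : LinearMap.toMatrix b b fc = !![1, 0; 0, -1])
    (hh : LinearMap.toMatrix b b fh 1 0 ≠ 0) :
    ∃ b' : Module.Basis (Fin 2) k V, LinearMap.toMatrix b' b' fc = !![1, 0; 0, -1] ∧
      LinearMap.toMatrix b' b' fh 1 0 = 1 ∧
      ∀ f : Module.End k V, LinearMap.toMatrix b' b' f 0 1 =
        LinearMap.toMatrix b b fh 1 0 * LinearMap.toMatrix b b f 0 1 := by
  set lam : kˣ := Units.mk0 _ hh with hlam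
  refine ⟨b.unitsSMul ![1, lam], ?_, ?_, fun f => ?_⟩
  · ext i j
    rw [toMatrix_unitsSMul, hc]
    fin_cases i <;> fin_cases j <;> simp
  · rw [toMatrix_unitsSMul]
    simp only [Matrix.cons_val_one, Matrix.cons_val_zero, Matrix.cons_val_fin_one, Units.val_one,
      mul_one, hlam, Units.val_inv_eq_inv_val, Units.val_mk0]
    exact inv_mul_cancel₀ hh
  · rw [toMatrix_unitsSMul]
    simp [hlam]

end rescale

end Fermat.Agent.S43.Rho.RhoTOfCH

end
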