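import Fermat.Agent.S43.Rho.RhoTOfCH
import Fermat.Agent.S43.Rho.Glue

/-!
# PROJECT R (S43), block L1: THE ASSEMBLY `ρ_T EXISTS`

From the density datum of `Rho/Dens` (`T ⊆ End_𝒪 Λ` a commutative local subalgebra, closed, with the
Eichler–Shimura relations) and an absolutely irreducible odd residual representation `ρ̄` with
`t mod 𝔪_T = tr ρ̄`:

* `exists_input_basis` (pure algebra, any group): there are `g₀ h₀`, an input `hin` of `Rho/CH` and
  a basis `b` of `ρ̄` such that `(CH.rep hin g).map π = (matrix of ρ̄ g in b).map ψ` for EVERY `g`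
  (an equality of matrices: the basis diagonalises `ρ̄ c` and is normalised at `h₀`);
* `isLocalHom_algebraMap` : `𝒪 → T` is local (Nakayama);
* `isContMat_rep` : `CH.rep hin` is adically continuous (`Dens.tr_cont` + Artin–Rees);
* `exists_rhoT` : the two together;
* `exists_rhoT_residue` : in the literal of `Num/ExportT.RelGenT`
  (`mapMat (residue T) rR = mapMat (ResidueField.map (algebraMap 𝒪 T)) (resMatOf ρ̄ b)`);
* `trace_eq_of_frob` : the hypothesis `t mod 𝔪_T = tr ρ̄` from the characteristic polynomials at the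
  Frobenius elements (`Dens.tr_residual`).
-/

set_option autoImplicit false
set_option linter.unusedSectionVars false
set_option linter.style.haveILetI false

noncomputable section

namespace Fermat.Agent.S43.Rho.Exists

open IsLocalRing Polynomial
open Fermat.Agent.S31.Core Fermat.Agent.S43.Rho
open Fermat.Agent.S53.Dictionary hiding GQ

/-! ### The input and the normalised basis -/

section algebra

variable {G : Type*} [Group G] {T : Type*} [CommRing T] [Invertible (2 : T)] [IsLocalRing T]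
  {E : Type*} [Ring E] [Algebra T E] {r : G →* E} {t : G → T} {d : G →* T} {c : G}
  {k₀ : Type*} [Field k₀] [Invertible (2 : k₀)] {k : Type*} [Field k] [Invertible (2 : k)]
  {V : Type*} [AddCommGroup V] [Module k₀ V]

/-- **the input of `Rho/CH` and the normalised basis of the residual representation** -/
theorem exists_input_basis (hP : CH.Pre r t d c) (ρ : G →* Module.End k₀ V)
    (h2 : Module.finrank k₀ V = 2) (hspan : Submodule.span k₀ (Set.range ρ) = ⊤)
    (hdet : LinearMap.det (ρ c) = -1) (π : T →+* k) [IsLocalHom π] (ψ : k₀ →+* k)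
    (htr : ∀ g, π (t g) = ψ (LinearMap.trace k₀ V (ρ g))) :
    ∃ (g₀ h₀ : G) (hin : CH.Input r t d c g₀ h₀) (b : Module.Basis (Fin 2) k₀ V),
      LinearMap.toMatrix b b (ρ c) = !![1, 0; 0, -1] ∧ LinearMap.toMatrix b b (ρ h₀) 1 0 = 1 ∧
      ∀ g, (CH.rep hin g).map π = (LinearMap.toMatrix b b (ρ g)).map ψ := by
  have hf : ρ c * ρ c = 1 := by rw [← map_mul, hP.c_sq, map_one]
  obtain ⟨b₀, hb0, hb1⟩ := Units.exists_basis_of_involution h2 (ρ c) hf hdet
  obtain ⟨g₀, hg₀⟩ := Units.exists_entry_ne_zero b₀ ρ hspan 0 1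
  obtain ⟨h₀, hh₀⟩ := Units.exists_entry_ne_zero b₀ ρ hspan 1 0
  have hx : CH.xT (Units.tb ρ) c g₀ h₀ ≠ 0 := by
    rw [Units.xT_tb hb0 hb1]
    exact mul_ne_zero hg₀ hh₀
  have hy : CH.yT (Units.tb ρ) c h₀ g₀ ≠ 0 := by
    rw [Units.yT_tb hb0 hb1]
    exact mul_ne_zero hh₀ hg₀
  have ht : ∀ g, π (t g) = (fun g => ψ (Units.tb ρ g)) g := htr
  have hx' : CH.xT (fun g => ψ (Units.tb ρ g)) c g₀ h₀ ≠ 0 := by
    rw [← Units.map_xT ψ (Units.tb ρ) c]
    exact (map_ne_zero ψ).mpr hx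
  have hy' : CH.yT (fun g => ψ (Units.tb ρ g)) c h₀ g₀ ≠ 0 := by
    rw [← Units.map_yT ψ (Units.tb ρ) c]
    exact (map_ne_zero ψ).mpr hy
  have hin : CH.Input r t d c g₀ h₀ :=
    { toPre := hP
      ux := Units.isUnit_xT π t _ ht c hx'
      uy := Units.isUnit_yT π t _ ht c hy' }
  obtain ⟨b, hbc, hbh, -⟩ := RhoTOfCH.exists_rescale b₀ (ρ c) (ρ h₀) (Units.mat_c hb0 hb1) hh₀
  -- the matrix representation over `k`
  let rb : G →* Matrix (Fin 2) (Fin 2) k :=
    ((ψ.mapMatrix : Matrix (Fin 2) (Fin 2) k₀ →+* Matrix (Fin 2) (Fin 2) k) :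
      Matrix (Fin 2) (Fin 2) k₀ →* Matrix (Fin 2) (Fin 2) k).comp
      (((LinearMap.toMatrixAlgEquiv b : Module.End k₀ V ≃ₐ[k₀] Matrix (Fin 2) (Fin 2) k₀) :
        Module.End k₀ V →* Matrix (Fin 2) (Fin 2) k₀).comp ρ)
  have hrb : ∀ g, rb g = (LinearMap.toMatrix b b (ρ g)).map ψ := fun g => rfl
  refine ⟨g₀, h₀, hin, b, hbc, hbh, fun g => ?_⟩
  rw [← hrb g]
  refine RhoTOfCH.map_rep hin π rb (fun g => ?_) ?_ ?_ g
  · rw [htr g, hrb g, LinearMap.trace_eq_matrix_trace k₀ b, Matrix.trace_fin_two,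
      Matrix.trace_fin_two, map_add, Matrix.map_apply, Matrix.map_apply]
  · rw [hrb c, hbc]
    ext i j
    fin_cases i <;> fin_cases j <;> simp
  · rw [hrb h₀, Matrix.map_apply, hbh, map_one]

end algebra

/-! ### The density datum -/

section datum

open scoped IsMulCommutative

variable {R₀ : Type} [CommRing R₀] [IsLocalRing R₀] {Λ : Type} [AddCommGroup Λ] [Module R₀ Λ]
  [Module.Finite R₀ Λ]
  {Sg : Finset ℕ} {r : GQ →* Module.End R₀ Λ} {ε : GQ →* R₀}
  {T : Subalgebra R₀ (Module.End R₀ Λ)}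

/-- **`𝒪 → T` is a local homomorphism** (Nakayama; `Λ ≠ 0`). -/
theorem isLocalHom_algebraMap [Nontrivial Λ] (T : Subalgebra R₀ (Module.End R₀ Λ)) :
    IsLocalHom (algebraMap R₀ ↥T) := by
  constructor
  intro a ha
  by_contra hna
  have ham : a ∈ maximalIdeal R₀ := (mem_maximalIdeal a).mpr hna
  refine Dens.not_isUnit_of_mem_smallEnd (I₀ := maximalIdeal R₀) (T := T)
    (maximalIdeal_le_jacobson _) (algebraMap R₀ ↥T a) ?_ ha
  intro v
  rw [Subalgebra.coe_algebraMap, Module.algebraMap_end_apply]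
  exact Submodule.smul_mem_smul ham Submodule.mem_top

variable [IsNoetherianRing R₀] [IsMulCommutative ↥T] [IsLocalRing ↥T]
  [IsLocalHom (algebraMap R₀ ↥T)] [Invertible (2 : ↥T)]

attribute [local instance] Glue.smulCommClassT Glue.algebraEnd

/-- the continuity of the trace function, in the shape of `Rho/RhoTOfCH` -/
theorem htc (h : Dens.Datum Sg (maximalIdeal R₀) r ε T) (n : ℕ) :
    ∃ L : IntermediateField ℚ Qbar, FiniteDimensional ℚ L ∧
      ∀ u : GQ, (∀ x ∈ L, u x = x) → ∀ g : GQ,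
        T.val (Dens.tT h (u * g) - Dens.tT h g) ∈
          smallEnd (V := Λ) (maximalIdeal R₀ ^ n) := by
  obtain ⟨L, hL, hLt⟩ := Dens.tr_cont h n
  exact ⟨L, hL, fun u hu g => (hLt u hu g).1⟩

/-- **the representation of `Rho/CH` attached to a density datum is adically continuous** -/
theorem isContMat_rep (h : Dens.Datum Sg (maximalIdeal R₀) r ε T) {c g₀ h₀ : GQ}
    (hin : CH.Input (E := Module.End ↥T Λ) (Dens.rT h) (Dens.tT h) (Glue.dHom ε T) c g₀ h₀) :
    IsContMat ↥T (CH.rep hin) :=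
  RhoTOfCH.isContMat hin T.val Subtype.val_injective (htc h)

/-- **`ρ_T` EXISTS**: the input of `Rho/CH`, the continuity, and the residual representation as an
equality of matrices. -/
theorem exists_rhoT (h : Dens.Datum Sg (maximalIdeal R₀) r ε T) (c : GQ) (hc : c * c = 1)
    (hεc : ε c = -1) {k₀ k : Type} [Field k₀] [Field k] [Invertible (2 : k₀)] [Invertible (2 : k)]
    (ρbar : ResidualGaloisRep k₀) (habs : ρbar.IsAbsolutelyIrreducible)
    (hdet : LinearMap.det (ρbar.ρ c) = -1) (π : ↥T →+* k) [IsLocalHom π] (ψ : k₀ →+* k)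
    (htr : ∀ g, π (Dens.tT h g) = ψ (LinearMap.trace k₀ ρbar.V (ρbar.ρ g))) :
    ∃ (g₀ h₀ : GQ)
      (hin : CH.Input (E := Module.End ↥T Λ) (Dens.rT h) (Dens.tT h) (Glue.dHom ε T) c g₀ h₀)
      (b : Module.Basis (Fin 2) k₀ ρbar.V),
      IsContMat ↥T (CH.rep hin) ∧ mapMat π (CH.rep hin) = mapMat ψ (resMatOf ρbar b) ∧
        resMatOf ρbar b c = !![1, 0; 0, -1] := by
  obtain ⟨g₀, h₀, hin, b, hbc, -, hmap⟩ := exists_input_basis (Glue.pre h c hc hεc) ρbar.ρ
    ρbar.finrank_eq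
    (Fermat.Agent.S53.Centralizer.span_range_eq_top_of_isAbsolutelyIrreducible ρbar habs) hdet π ψ
    htr
  refine ⟨g₀, h₀, hin, b, isContMat_rep h hin, ?_, hbc⟩
  ext σ : 1
  rw [mapMat_apply', mapMat_apply', resMatOf_apply]
  exact hmap σ

/-- **`ρ_T` EXISTS**, with the residual representation in the literal of `Num/ExportT.RelGenT`. -/
theorem exists_rhoT_residue (h : Dens.Datum Sg (maximalIdeal R₀) r ε T) (c : GQ) (hc : c * c = 1)
    (hεc : ε c = -1) [Invertible (2 : ResidueField R₀)] [Invertible (2 : ResidueField ↥T)]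
    (ρbar : ResidualGaloisRep (ResidueField R₀)) (habs : ρbar.IsAbsolutelyIrreducible)
    (hdet : LinearMap.det (ρbar.ρ c) = -1)
    (htr : ∀ g, residue ↥T (Dens.tT h g) =
      ResidueField.map (algebraMap R₀ ↥T) (LinearMap.trace (ResidueField R₀) ρbar.V (ρbar.ρ g))) :
    ∃ (g₀ h₀ : GQ)
      (hin : CH.Input (E := Module.End ↥T Λ) (Dens.rT h) (Dens.tT h) (Glue.dHom ε T) c g₀ h₀)
      (b : Module.Basis (Fin 2) (ResidueField R₀) ρbar.V),
      IsContMat ↥T (CH.rep hin) ∧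
        mapMat (residue ↥T) (CH.rep hin) =
          mapMat (ResidueField.map (algebraMap R₀ ↥T)) (resMatOf ρbar b) ∧
        resMatOf ρbar b c = !![1, 0; 0, -1] :=
  exists_rhoT h c hc hεc ρbar habs hdet (residue ↥T) (ResidueField.map (algebraMap R₀ ↥T)) htr

end datum

/-! ### The residual traces from the Frobenius elements -/

section frob

open scoped IsMulCommutative

variable {R₀ : Type*} [CommRing R₀] {Λ : Type*} [AddCommGroup Λ] [Module R₀ Λ]
  {Sg : Finset ℕ} {I₀ : Ideal R₀} {r : GQ →* Module.End R₀ Λ} {ε : GQ →* R₀}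
  {T : Subalgebra R₀ (Module.End R₀ Λ)} [IsMulCommutative ↥T]

/-- **`t mod 𝔪_T = tr ρ̄`** from the characteristic polynomials of the Frobenius elements:
`Dens.tr_residual` for the base change of `ρ̄` along `ψ : k₀ → k`. -/
theorem trace_eq_of_frob (h : Dens.Datum Sg I₀ r ε T) {k₀ k : Type} [Field k₀] [Field k]
    (π : ↥T →+* k)
    (hπ : ∀ x : ↥T, (x : Module.End R₀ Λ) ∈ smallEnd (V := Λ) I₀ → π x = 0)
    (ψ : k₀ →+* k) (ρbar : ResidualGaloisRep k₀)
    (hfrob : ∀ ℓ : ℕ, ℓ.Prime → ℓ ∉ Sg → ∀ A : ValuationSubring Qbar, A.LiesOverPrime ℓ →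
      ∀ τ : GQ, A.IsFrobeniusAt τ ℓ → ∀ hτ : Dens.tr r ε τ ∈ T,
        (LinearMap.charpoly (ρbar.ρ τ)).map ψ =
          X ^ 2 - C (π ⟨Dens.tr r ε τ, hτ⟩) * X + C ((ℓ : ℕ) : k))
    (g : GQ) : π (Dens.tT h g) = ψ (LinearMap.trace k₀ ρbar.V (ρbar.ρ g)) := by
  letI : Algebra k₀ k := ψ.toAlgebra
  have h1 := Dens.tr_residual h π hπ (ρbar.baseChangeAlong ψ) (fun ℓ hℓ hℓS A hA τ hτ hτT => by
    rw [← hfrob ℓ hℓ hℓS A hA τ hτ hτT]
    exact LinearMap.charpoly_baseChange (ρbar.ρ τ) k) g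
  rw [show Dens.tT h g = ⟨Dens.tr r ε g, Dens.tr_mem h g⟩ from rfl, h1]
  exact LinearMap.trace_baseChange (ρbar.ρ g) k

end frob

end Fermat.Agent.S43.Rho.Exists

end
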