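import Mathlib
import Fermat.Prelude.Def_GaloisRep_Adic

/-!
# PROJECT R (S43), block L1: matrix representations and the Prelude's `GaloisRepAdic`

* `matHom b ρ` : the matrix form of a `Module.End` representation in a basis `b`;
* `MatAdicContinuous r` : adic continuity of `r : Γ →* M₂(T)`;
* `ofMat r hr : GaloisRepAdic T` (`V = Fin 2 → T`), `trace_ofMat`, `det_ofMat`;
* `isEquiv_baseChangeAlong_ofMat` : if `(r σ).map f` is conjugate (by a fixed invertible matrix) to
  the matrix of `ρ` in a basis, the base change of `ofMat r` along `f` is equivalent to `ρ`.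
-/

set_option autoImplicit false

noncomputable section

namespace Fermat.Agent.S43.Rho.OfMat

open IsLocalRing Matrix Module
open scoped TensorProduct

local notation "Γ" => AlgebraicClosure ℚ ≃ₐ[ℚ] AlgebraicClosure ℚ

/-! ### The matrix form of a representation in a basis -/

section matrixForm

variable {A : Type} [CommRing A] {V : Type} [AddCommGroup V] [Module A V]

/-- the matrix form of a representation in a basis -/
def matHom (b : Basis (Fin 2) A V) (ρ : Γ →* Module.End A V) : Γ →* Matrix (Fin 2) (Fin 2) A where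
  toFun σ := LinearMap.toMatrix b b (ρ σ)
  map_one' := by rw [map_one]; exact LinearMap.toMatrix_one b
  map_mul' σ τ := by rw [map_mul]; exact LinearMap.toMatrix_mul b (ρ σ) (ρ τ)

theorem matHom_apply (b : Basis (Fin 2) A V) (ρ : Γ →* Module.End A V) (σ : Γ) :
    matHom b ρ σ = LinearMap.toMatrix b b (ρ σ) := rfl

theorem trace_matHom (b : Basis (Fin 2) A V) (ρ : Γ →* Module.End A V) (σ : Γ) :
    (matHom b ρ σ).trace = LinearMap.trace A V (ρ σ) :=
  (LinearMap.trace_eq_matrix_trace A b (ρ σ)).symm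

theorem det_matHom (b : Basis (Fin 2) A V) (ρ : Γ →* Module.End A V) (σ : Γ) :
    (matHom b ρ σ).det = LinearMap.det (ρ σ) :=
  LinearMap.det_toMatrix b (ρ σ)

end matrixForm

/-! ### Ideals and coordinates -/

section coordinates

variable {A : Type} [CommRing A]

/-- a vector with coordinates in `I` lies in `I • ⊤` -/
theorem mem_smul_top_of_forall_mem (I : Ideal A) (u : Fin 2 → A) (hu : ∀ a, u a ∈ I) :
    u ∈ I • (⊤ : Submodule A (Fin 2 → A)) := by
  classical
  rw [pi_eq_sum_univ u]
  exact Submodule.sum_mem _ (fun a _ => Submodule.smul_mem_smul (hu a) Submodule.mem_top)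

/-- the coordinates of an element of `I • ⊤` lie in `I` -/
theorem repr_mem_of_mem_smul_top {V : Type} [AddCommGroup V] [Module A V]
    (b : Basis (Fin 2) A V) (I : Ideal A) {x : V} (hx : x ∈ I • (⊤ : Submodule A V)) (a : Fin 2) :
    b.repr x a ∈ I := by
  refine Submodule.smul_induction_on (p := fun x => b.repr x a ∈ I) hx ?_ ?_
  · intro s hs y _
    rw [map_smul, Finsupp.smul_apply, smul_eq_mul]
    exact I.mul_mem_right _ hs
  · intro x y hx hy
    rw [map_add, Finsupp.add_apply]
    exact I.add_mem hx hy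

/-- entries of `X * Y * Z` when the entries of `Y` lie in `I` -/
theorem mul_mul_apply_mem (I : Ideal A) (X Y Z : Matrix (Fin 2) (Fin 2) A)
    (hY : ∀ a b, Y a b ∈ I) (a b : Fin 2) : (X * Y * Z) a b ∈ I := by
  rw [Matrix.mul_apply]
  refine I.sum_mem (fun k _ => I.mul_mem_right _ ?_)
  rw [Matrix.mul_apply]
  exact I.sum_mem (fun l _ => I.mul_mem_left _ (hY l k))

end coordinates

/-! ### From a continuous matrix representation to `GaloisRepAdic` -/

section ofMat

variable {T : Type} [CommRing T] [IsLocalRing T]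

/-- adic continuity of a matrix representation -/
def MatAdicContinuous (r : Γ →* Matrix (Fin 2) (Fin 2) T) : Prop :=
  ∀ n : ℕ, ∃ L : IntermediateField ℚ (AlgebraicClosure ℚ), FiniteDimensional ℚ L ∧
    ∀ σ : Γ, (∀ x ∈ L, σ x = x) → ∀ a b, (r σ - 1) a b ∈ maximalIdeal T ^ n

/-- the linear form of a matrix representation -/
def linHom (r : Γ →* Matrix (Fin 2) (Fin 2) T) : Γ →* Module.End T (Fin 2 → T) where
  toFun σ := Matrix.toLin' (r σ)
  map_one' := by rw [map_one, Matrix.toLin'_one]; rfl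
  map_mul' σ τ := by rw [map_mul, Matrix.toLin'_mul]; rfl

omit [IsLocalRing T] in
theorem linHom_apply (r : Γ →* Matrix (Fin 2) (Fin 2) T) (σ : Γ) :
    linHom r σ = Matrix.toLin' (r σ) := rfl

/-- the `GaloisRepAdic` of an adically continuous matrix representation -/
def ofMat (r : Γ →* Matrix (Fin 2) (Fin 2) T) (hr : MatAdicContinuous r) : GaloisRepAdic T where
  V := Fin 2 → T
  finrank_eq := by rw [Module.finrank_fin_fun]
  ρ := linHom r
  isAdicContinuous := by
    intro n
    obtain ⟨L, hL, h1⟩ := hr n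
    refine ⟨L, hL, fun σ hσ v => ?_⟩
    apply mem_smul_top_of_forall_mem
    intro a
    have h2 : (linHom r σ v - v) a = ∑ k, (r σ - 1) a k * v k := by
      rw [linHom_apply, Matrix.toLin'_apply, Pi.sub_apply, Matrix.mulVec, dotProduct]
      have h3 : v a = ∑ k, (1 : Matrix (Fin 2) (Fin 2) T) a k * v k := by
        rw [← dotProduct, ← Matrix.mulVec, Matrix.one_mulVec]
      rw [h3, ← Finset.sum_sub_distrib]
      exact Finset.sum_congr rfl (fun k _ => by rw [Matrix.sub_apply, sub_mul])
    rw [h2]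
    exact Ideal.sum_mem _ (fun k _ => Ideal.mul_mem_right _ _ (h1 σ hσ a k))

theorem ofMat_ρ (r : Γ →* Matrix (Fin 2) (Fin 2) T) (hr : MatAdicContinuous r) (σ : Γ) :
    (ofMat r hr).ρ σ = Matrix.toLin' (r σ) := rfl

theorem trace_ofMat (r : Γ →* Matrix (Fin 2) (Fin 2) T) (hr : MatAdicContinuous r) (σ : Γ) :
    (ofMat r hr).trace σ = (r σ).trace :=
  Matrix.trace_toLin'_eq (r σ)

theorem det_ofMat (r : Γ →* Matrix (Fin 2) (Fin 2) T) (hr : MatAdicContinuous r) (σ : Γ) :
    (((ofMat r hr).det σ : Tˣ) : T) = (r σ).det :=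
  LinearMap.det_toLin' (r σ)

end ofMat

/-! ### The base change of `ofMat r` along a local homomorphism -/

section baseChange

variable {T : Type} [CommRing T] [IsLocalRing T] {B : Type} [CommRing B] [IsLocalRing B]

/-- if `(r σ).map f` is conjugate, by a fixed invertible matrix, to the matrix of `ρ` in a basis,
then the base change of `ofMat r` along `f` is equivalent to `ρ` -/
theorem isEquiv_baseChangeAlong_ofMat (r : Γ →* Matrix (Fin 2) (Fin 2) T)
    (hr : MatAdicContinuous r) (f : T →+* B) (hf : IsLocalHom f) (ρ : GaloisRepAdic B)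
    (b : Basis (Fin 2) B ρ.V) (P : (Matrix (Fin 2) (Fin 2) B)ˣ)
    (hP : ∀ σ : Γ, (r σ).map f =
      ((P⁻¹ : (Matrix (Fin 2) (Fin 2) B)ˣ) : Matrix (Fin 2) (Fin 2) B) * matHom b ρ.ρ σ *
        (P : Matrix (Fin 2) (Fin 2) B)) :
    ((ofMat r hr).baseChangeAlong f hf).IsEquiv ρ := by
  classical
  let _ : Algebra T B := f.toAlgebra
  set bT : Basis (Fin 2) T (Fin 2 → T) := Pi.basisFun T (Fin 2) with hbT
  set bB : Basis (Fin 2) B (B ⊗[T] (Fin 2 → T)) := Algebra.TensorProduct.basis B bT with hbB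
  set e : (B ⊗[T] (Fin 2 → T)) ≃ₗ[B] ρ.V :=
    bB.equivFun.trans ((Matrix.toLinearEquiv' (P : Matrix (Fin 2) (Fin 2) B) P.invertible).trans
      b.equivFun.symm) with he
  have he_apply : ∀ x, b.equivFun (e x) = (P : Matrix (Fin 2) (Fin 2) B) *ᵥ bB.equivFun x := by
    intro x
    rw [he, LinearEquiv.trans_apply, LinearEquiv.trans_apply, LinearEquiv.apply_symm_apply]
    rfl
  have hmat : ∀ σ : Γ, LinearMap.toMatrix bB bB ((Matrix.toLin' (r σ)).baseChange B) =
      (r σ).map f := by
    intro σ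
    rw [hbB, LinearMap.toMatrix_baseChange, hbT, LinearMap.toMatrix_eq_toMatrix',
      LinearMap.toMatrix'_toLin']
    rfl
  have hreprB : ∀ (F : (B ⊗[T] (Fin 2 → T)) →ₗ[B] (B ⊗[T] (Fin 2 → T))) (x : B ⊗[T] (Fin 2 → T)),
      bB.equivFun (F x) = LinearMap.toMatrix bB bB F *ᵥ bB.equivFun x := fun F x =>
    (LinearMap.toMatrix_mulVec_repr bB bB F x).symm
  have hrepr : ∀ (F : ρ.V →ₗ[B] ρ.V) (y : ρ.V),
      b.equivFun (F y) = LinearMap.toMatrix b b F *ᵥ b.equivFun y := fun F y =>
    (LinearMap.toMatrix_mulVec_repr b b F y).symm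
  have key : ∀ (σ : Γ) (x : B ⊗[T] (Fin 2 → T)),
      e ((Matrix.toLin' (r σ)).baseChange B x) = ρ.ρ σ (e x) := by
    intro σ x
    apply b.equivFun.injective
    rw [he_apply, hreprB, hmat, hP, hrepr, he_apply, Matrix.mulVec_mulVec, Matrix.mulVec_mulVec,
      ← matHom_apply]
    congr 1
    rw [← Matrix.mul_assoc, ← Matrix.mul_assoc, Units.mul_inv, Matrix.one_mul]
  exact ⟨{ toLinearEquiv := e, map_apply := key }⟩

end baseChange

end Fermat.Agent.S43.Rho.OfMat

end
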